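import Fermat.Agent.Corollaries.Kum.Irregular
import Mathlib.NumberTheory.LSeries.PrimesInAP

/-!
# Irregular primes in residue classes

* `norm_p_mul_bernoulli_sub`: `p B_N ≡ p - 1 mod p ^ e` if `(p - 1) p ^ e ∣ N`, every prime `p`;
* `exists_irregular_not_mem`: for every `m` and every proper subgroup `H` of `(ℤ/m)ˣ` there are
  infinitely many irregular primes whose class modulo `m` is not in `H` (Jensen 1915 for `m = 4`,
  Montgomery 1965, Metsänkylä 1971); `exists_dvd_classNumber_not_mem`: the same for the primes `p`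
  which divide the class number of `ℚ(ζ_p)`;
* `infinite_irregular_ne_one` (`p ≢ 1 mod m`, `m > 2`), `infinite_irregular_three_mod_four`,
  `infinite_dvd_classNumber_three_mod_four`, `infinite_irregular_legendre` (non-residues modulo an
  odd prime).

Proof. Let `4 φ(m) m` divide `N` and let `q ≡ x mod m ∏_{d ∣ N} (d x + 1)` be a large prime; then
`d q + 1` is composite for all `d ∣ N`, so `B_{N q} / (N q)` and `B_N / N` have the same
denominator, and `q` times the numerator of the first is congruent modulo `m` to the numerator of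
the second: the numerator of the first takes all values in `(ℤ/m)ˣ`. Its prime divisors are
irregular and do not satisfy `p - 1 ∣ N`.
-/

set_option autoImplicit false

noncomputable section

universe u

namespace Fermat.Agent.Cor.Kum

open Finset NumberField Filter

section local_part

variable {p : ℕ} [hp : Fact p.Prime]

/-- `‖B_i‖ ≤ p`, for every prime `p`. -/
theorem norm_bernoulli_le' (i : ℕ) : ‖((bernoulli i : ℚ) : ℚ_[p])‖ ≤ p := by
  by_cases h2 : p = 2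
  · subst h2
    rcases Nat.even_or_odd' i with ⟨k, rfl | rfl⟩
    · rcases Nat.eq_zero_or_pos k with rfl | hk
      · rw [mul_zero, bernoulli_zero]
        simp
      · obtain ⟨z, hz, h1⟩ := exists_staudt (p := 2) k hk
        rw [h1]
        refine (norm_sub_le_max' _ _).trans (max_le (hz.trans one_le_p) ?_)
        split_ifs
        · exact norm_inv_p.le
        · rw [norm_zero]
          exact p_pos.le
    · rcases Nat.eq_zero_or_pos k with rfl | hk
      · rw [mul_zero, zero_add, bernoulli_one]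
        have h3 := norm_inv_p (p := 2)
        push_cast at h3 ⊢
        rw [neg_div, norm_neg, h3]
      · rw [bernoulli_eq_zero_of_odd ⟨k, rfl⟩ (by omega)]
        simp
  · exact norm_bernoulli_le h2 i

omit hp in
theorem val_add_le (hp : p.Prime) {j : ℕ} (hj : 1 ≤ j) :
    padicValNat p j + padicValNat p (j + 1) ≤ j := by
  have : Fact p.Prime := ⟨hp⟩
  have h2j : ∀ j : ℕ, j + 1 ≤ 2 ^ j := fun j => Nat.lt_two_pow_self
  have key : ∀ v : ℕ, p ^ v ≤ j + 1 → v ≤ j := by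
    intro v hv
    have h1 : p ^ v ≤ p ^ j := hv.trans ((h2j j).trans (Nat.pow_le_pow_left hp.two_le j))
    exact (Nat.pow_le_pow_iff_right hp.one_lt).mp h1
  by_cases h : p ∣ j
  · have h1 : padicValNat p (j + 1) = 0 := by
      refine padicValNat.eq_zero_of_not_dvd fun h' => ?_
      have h2 := (Nat.dvd_add_right h).mp h'
      exact hp.one_lt.ne' (Nat.dvd_one.mp h2)
    rw [h1, add_zero]
    exact key _ ((Nat.le_of_dvd hj pow_padicValNat_dvd).trans (Nat.le_succ j))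
  · rw [padicValNat.eq_zero_of_not_dvd h, zero_add]
    exact key _ (Nat.le_of_dvd (Nat.succ_pos j) pow_padicValNat_dvd)

/-- `p B_N ≡ p - 1 mod p ^ e` if `(p - 1) p ^ e ∣ N`. -/
theorem norm_p_mul_bernoulli_sub {N e : ℕ} (hN0 : 0 < N) (hd : (p - 1) * p ^ e ∣ N) :
    ‖(p : ℚ_[p]) * ((bernoulli N : ℚ) : ℚ_[p]) - ((p : ℚ_[p]) - 1)‖ ≤ (p : ℝ) ^ (-(e : ℤ)) := by
  have h1 := congrArg (Rat.cast : ℚ → ℚ_[p]) (sum_range_pow p N)
  push_cast at h1
  have hN1 : ((N : ℚ_[p]) + 1) ≠ 0 := by exact_mod_cast (Nat.succ_ne_zero N)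
  rw [sum_range_succ (fun i => ((bernoulli i : ℚ) : ℚ_[p]) * (((N + 1).choose i : ℕ) : ℚ_[p]) *
    (p : ℚ_[p]) ^ (N + 1 - i) / ((N : ℚ_[p]) + 1)), Nat.choose_succ_self_right,
    show N + 1 - N = 1 by omega, pow_one] at h1
  have h3 : ((bernoulli N : ℚ) : ℚ_[p]) * ((N + 1 : ℕ) : ℚ_[p]) * (p : ℚ_[p]) / (N + 1) =
      p * ((bernoulli N : ℚ) : ℚ_[p]) := by
    push_cast
    field_simp
  rw [h3] at h1
  -- the left side
  have h4 : ‖∑ a ∈ range p, (a : ℚ_[p]) ^ N - ((p : ℚ_[p]) - 1)‖ ≤ (p : ℝ) ^ (-(e : ℤ)) := by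
    obtain ⟨r, hr⟩ : ∃ r, p = r + 1 := ⟨p - 1, by have := hp.out.pos; omega⟩
    have h5 : ∑ a ∈ range p, (a : ℚ_[p]) ^ N - ((p : ℚ_[p]) - 1) =
        ∑ a ∈ range r, (((a + 1 : ℕ) : ℚ_[p]) ^ N - 1) := by
      rw [sum_sub_distrib, sum_const, card_range, nsmul_eq_mul, mul_one]
      have h6 : ∑ a ∈ range p, (a : ℚ_[p]) ^ N = ∑ a ∈ range r, ((a + 1 : ℕ) : ℚ_[p]) ^ N := by
        have h7 : range p = range (r + 1) := by rw [hr]
        rw [h7, sum_range_succ', Nat.cast_zero, zero_pow hN0.ne', add_zero]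
      have h8 : (p : ℚ_[p]) = r + 1 := by exact_mod_cast congrArg (Nat.cast : ℕ → ℚ_[p]) hr
      rw [h6, h8]
      ring
    rw [h5]
    refine IsUltrametricDist.norm_sum_le_of_forall_le_of_nonneg (by positivity) fun a ha => ?_
    rw [mem_range] at ha
    have h6 := pow_modEq (p := p) (x := a + 1) (m := N) (n := 0) (r := e)
      (Nat.not_dvd_of_pos_of_lt (Nat.succ_pos a) (by omega)) ((Nat.modEq_zero_iff_dvd).mpr hd)
    have h7 := (Padic.norm_int_le_pow_iff_dvd _ (e + 1)).mpr h6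
    push_cast at h7
    rw [pow_zero] at h7
    push_cast
    refine h7.trans (zpow_le_zpow_right₀ one_le_p ?_)
    omega
  have h5 : (p : ℚ_[p]) * ((bernoulli N : ℚ) : ℚ_[p]) - ((p : ℚ_[p]) - 1) =
      (∑ a ∈ range p, (a : ℚ_[p]) ^ N - ((p : ℚ_[p]) - 1)) -
      ∑ i ∈ range N, ((bernoulli i : ℚ) : ℚ_[p]) * (((N + 1).choose i : ℕ) : ℚ_[p]) *
    (p : ℚ_[p]) ^ (N + 1 - i) / ((N : ℚ_[p]) + 1) := by
    rw [h1]
    ring
  rw [h5]
  refine (norm_sub_le_max' _ _).trans (max_le h4 ?_)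
  refine IsUltrametricDist.norm_sum_le_of_forall_le_of_nonneg (by positivity) fun i hi => ?_
  rw [mem_range] at hi
  obtain ⟨j, hj⟩ : ∃ j, N = i + (j + 1) := ⟨N - i - 1, by omega⟩
  have h6 : ((bernoulli i : ℚ) : ℚ_[p]) * (((N + 1).choose i : ℕ) : ℚ_[p]) *
      (p : ℚ_[p]) ^ (N + 1 - i) / ((N : ℚ_[p]) + 1) =
      ((bernoulli i : ℚ) : ℚ_[p]) * ((N : ℕ) : ℚ_[p]) * (((N - 1).choose i : ℕ) : ℚ_[p]) *
        (p : ℚ_[p]) ^ (j + 2) / (((j + 1 : ℕ) : ℚ_[p]) * ((j + 2 : ℕ) : ℚ_[p])) := by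
    have h7 := Nat.choose_mul_succ_eq N i
    have h8 := Nat.choose_mul_succ_eq (N - 1) i
    rw [show N + 1 - i = j + 2 by omega] at h7 ⊢
    rw [show N - 1 + 1 = N by omega, show N - i = j + 1 by omega] at h8
    have h9 : ((N.choose i : ℕ) : ℚ_[p]) * ((N : ℚ_[p]) + 1) =
        (((N + 1).choose i : ℕ) : ℚ_[p]) * ((j + 2 : ℕ) : ℚ_[p]) := by exact_mod_cast h7
    have h10 : (((N - 1).choose i : ℕ) : ℚ_[p]) * ((N : ℕ) : ℚ_[p]) =
        ((N.choose i : ℕ) : ℚ_[p]) * ((j + 1 : ℕ) : ℚ_[p]) := by exact_mod_cast h8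
    have hj1 : ((j + 1 : ℕ) : ℚ_[p]) ≠ 0 := by exact_mod_cast (Nat.succ_ne_zero j)
    have hj2 : ((j + 2 : ℕ) : ℚ_[p]) ≠ 0 := by exact_mod_cast (Nat.succ_ne_zero (j + 1))
    rw [div_eq_div_iff hN1 (mul_ne_zero hj1 hj2)]
    linear_combination -(((bernoulli i : ℚ) : ℚ_[p]) * (p : ℚ_[p]) ^ (j + 2)) *
      (((j + 1 : ℕ) : ℚ_[p]) * h9 + ((N : ℚ_[p]) + 1) * h10)
  rw [h6, norm_div, norm_mul, norm_mul, norm_mul, norm_mul, Padic.norm_p_pow]
  have h7 : ‖(((N - 1).choose i : ℕ) : ℚ_[p])‖ ≤ 1 := norm_nat_le _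
  have h8 := norm_bernoulli_le' (p := p) i
  have h9 : ‖((N : ℕ) : ℚ_[p])‖ ≤ (p : ℝ) ^ (-(e : ℤ)) := by
    have h10 : ((p : ℤ) ^ e) ∣ ((N : ℕ) : ℤ) := by
      exact_mod_cast (dvd_mul_left _ _).trans hd
    have h11 := (Padic.norm_int_le_pow_iff_dvd _ e).mpr h10
    exact_mod_cast h11
  rw [norm_natCast_eq (Nat.succ_ne_zero j), norm_natCast_eq (Nat.succ_ne_zero (j + 1)),
    ← zpow_add₀ p_pos.ne', ← neg_add, zpow_neg (p : ℝ) (_ + _), div_inv_eq_mul]
  have h10 := val_add_le hp.out (Nat.le_add_left 1 j)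
  generalize padicValNat p (j + 1) = v at h10 ⊢
  rw [show j + 1 + 1 = j + 2 from rfl] at h10 ⊢
  generalize padicValNat p (j + 2) = w at h10 ⊢
  have hp0 := p_pos (p := p)
  calc _ ≤ (p : ℝ) * (p : ℝ) ^ (-(e : ℤ)) * 1 * (p : ℝ) ^ (-((j + 2 : ℕ) : ℤ)) *
        (p : ℝ) ^ ((v : ℤ) + w) := by
        gcongr
    _ = (p : ℝ) ^ (1 + (-(e : ℤ)) + (-((j + 2 : ℕ) : ℤ)) + ((v : ℤ) + w)) := by
        rw [mul_one, ← zpow_one_add₀ hp0.ne', ← zpow_add₀ hp0.ne', ← zpow_add₀ hp0.ne']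
    _ ≤ _ := by
        refine zpow_le_zpow_right₀ one_le_p ?_
        push_cast
        omega

end local_part

/-- `B_N < 0` for `4 ∣ N`, `N > 0`. -/
theorem bernoulli_neg {N : ℕ} (h4 : 4 ∣ N) (hN : 0 < N) : bernoulli N < 0 := by
  obtain ⟨l, rfl⟩ := h4
  have hk : 2 * l ≠ 0 := by omega
  have h2 := hasSum_zeta_nat hk
  have h3 := le_hasSum h2 1 (fun j _ => by positivity)
  rw [Nat.cast_one, one_pow, div_one, show 2 * (2 * l) = 4 * l by ring,
    show (-1 : ℝ) ^ (2 * l + 1) = -1 by rw [pow_succ, pow_mul]; norm_num] at h3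
  by_contra hcon
  rw [not_lt] at hcon
  have h5 : (0 : ℝ) ≤ (bernoulli (4 * l) : ℝ) := by exact_mod_cast hcon
  have h6 : -1 * 2 ^ (4 * l - 1) * Real.pi ^ (4 * l) * (bernoulli (4 * l) : ℝ) /
      ((4 * l).factorial : ℝ) ≤ 0 := by
    rw [neg_one_mul, neg_mul, neg_mul, neg_div]
    refine neg_nonpos.mpr ?_
    positivity
  linarith

/-- A prime `q ≡ x mod m` such that all primes `p` with `p - 1 ∣ N q` satisfy `p - 1 ∣ N`. -/
theorem exists_prime_class {m N x : ℕ} (hm : 0 < m) (hN : 0 < N) (hx0 : 0 < x)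
    (hx : x.Coprime m) (B : ℕ) : ∃ q, B < q ∧ q.Prime ∧ (q : ZMod m) = x ∧
      ∀ p, p.Prime → p - 1 ∣ N * q → p - 1 ∣ N := by
  set R := m * ∏ d ∈ N.divisors, (d * x + 1) with hR
  have hR0 : R ≠ 0 := by
    rw [hR]
    exact mul_ne_zero hm.ne' (Finset.prod_ne_zero_iff.mpr fun d _ => Nat.succ_ne_zero _)
  have : NeZero R := ⟨hR0⟩
  have hcop : x.Coprime R := by
    rw [hR]
    refine Nat.Coprime.mul_right hx (Nat.Coprime.prod_right fun d _ => ?_)
    rw [Nat.coprime_mul_right_add_right]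
    exact Nat.coprime_one_right x
  obtain ⟨q, hq, hqp, hqx⟩ := Nat.forall_exists_prime_gt_and_eq_mod
    ((ZMod.isUnit_iff_coprime x R).mpr hcop) (max B x)
  have hmod : q ≡ x [MOD R] := (ZMod.natCast_eq_natCast_iff _ _ _).mp hqx
  refine ⟨q, (le_max_left _ _).trans_lt hq, hqp, (ZMod.natCast_eq_natCast_iff _ _ _).mpr
    (hmod.of_dvd (dvd_mul_right _ _)), fun p hp hd => ?_⟩
  have hxq : x < q := (le_max_right _ _).trans_lt hq
  by_cases h : q ∣ p - 1
  · exfalso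
    obtain ⟨d, hd'⟩ := h
    have h1 : d ∣ N := by
      rw [hd', mul_comm N q] at hd
      exact Nat.dvd_of_mul_dvd_mul_left hqp.pos hd
    have hd0 : 0 < d := Nat.pos_of_dvd_of_pos h1 hN
    have h2 : d * x + 1 ∣ R := (Finset.dvd_prod_of_mem (fun d => d * x + 1)
      (Nat.mem_divisors.mpr ⟨h1, hN.ne'⟩)).trans (dvd_mul_left _ _)
    have h3 : d * q + 1 ≡ d * x + 1 [MOD d * x + 1] :=
      ((hmod.of_dvd h2).mul_left d).add_right 1
    have h4 : d * x + 1 ∣ p := by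
      have h5 : p = d * q + 1 := by
        have := hp.pos
        rw [mul_comm d q, ← hd']
        omega
      rw [h5]
      exact (h3.dvd_iff dvd_rfl).mpr dvd_rfl
    have h6 : p = d * q + 1 := by
      have := hp.pos
      rw [mul_comm d q, ← hd']
      omega
    rcases (Nat.dvd_prime hp).mp h4 with h5 | h5
    · have : 0 < d * x := Nat.mul_pos hd0 hx0
      omega
    · rw [h6] at h5
      have h7 : d * x < d * q := Nat.mul_lt_mul_of_pos_left hxq hd0
      omega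
  · have h1 : (p - 1).Coprime q := ((Nat.Prime.coprime_iff_not_dvd hqp).mpr h).symm
    exact h1.dvd_of_dvd_mul_right hd

section quotients

variable {p : ℕ} [hp : Fact p.Prime]

theorem norm_bq_of_dvd {N : ℕ} (hN : Even N) (h0 : 0 < N) (hd : p - 1 ∣ N) :
    ‖((bernoulli N / N : ℚ) : ℚ_[p])‖ * ‖((N : ℕ) : ℚ_[p])‖ = p := by
  rw [← norm_bernoulli_of_dvd hN h0 hd, ← norm_mul]
  have hN0 : ((N : ℕ) : ℚ_[p]) ≠ 0 := by exact_mod_cast h0.ne'
  congr 1
  push_cast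
  field_simp

theorem norm_bq_le {N : ℕ} (hN : Even N) (h0 : 0 < N) (hd : ¬ p - 1 ∣ N) :
    ‖((bernoulli N / N : ℚ) : ℚ_[p])‖ ≤ 1 := by
  have h1 := norm_xb_le hN h0 hd
  rw [xb, mul_div_assoc, norm_mul, norm_one_sub_pow (by
      obtain ⟨s, hs⟩ := hN
      omega), one_mul] at h1
  push_cast
  exact h1

theorem norm_den_mul (x : ℚ) : ‖((x.den : ℕ) : ℚ_[p])‖ * ‖(x : ℚ_[p])‖ = ‖((x.num : ℤ) : ℚ_[p])‖ := by
  rw [← norm_mul]
  congr 1
  have h2 := congrArg (Rat.cast : ℚ → ℚ_[p]) (Rat.mul_den_eq_num x)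
  push_cast at h2
  rw [← h2, mul_comm]

theorem norm_den_of_le {x : ℚ} (h : ‖(x : ℚ_[p])‖ ≤ 1) : ‖((x.den : ℕ) : ℚ_[p])‖ = 1 := by
  rw [Padic.norm_natCast_eq_one_iff, Nat.Prime.coprime_iff_not_dvd hp.out]
  intro hd
  have h1 := norm_den_mul (p := p) x
  have h2 : ‖((x.num : ℤ) : ℚ_[p])‖ = 1 := by
    refine le_antisymm (norm_int_le _) (not_lt.mp fun h3 => ?_)
    have h4 := Int.natCast_dvd.mp (Padic.norm_intCast_lt_one_iff.mp h3)
    have h5 := Nat.dvd_gcd h4 hd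
    rw [x.reduced] at h5
    exact hp.out.one_lt.ne' (Nat.dvd_one.mp h5)
  have h3 : ‖((x.den : ℕ) : ℚ_[p])‖ < 1 := by
    have h4 : (p : ℤ) ∣ ((x.den : ℕ) : ℤ) := by exact_mod_cast hd
    exact_mod_cast Padic.norm_intCast_lt_one_iff.mpr h4
  have h4 : ‖((x.den : ℕ) : ℚ_[p])‖ * ‖(x : ℚ_[p])‖ ≤ ‖((x.den : ℕ) : ℚ_[p])‖ * 1 :=
    mul_le_mul_of_nonneg_left h (norm_nonneg _)
  rw [h1, h2, mul_one] at h4
  linarith

end quotients

theorem exists_int_of_norm_le {x : ℚ}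
    (h : ∀ p (_ : Fact p.Prime), ‖(x : ℚ_[p])‖ ≤ 1) : ∃ w : ℤ, (w : ℚ) = x := by
  have h1 : x.den = 1 := by
    by_contra hne
    obtain ⟨p, hp, hd⟩ := Nat.exists_prime_and_dvd hne
    have : Fact p.Prime := ⟨hp⟩
    have h2 := norm_den_of_le (h p this)
    rw [Padic.norm_natCast_eq_one_iff, Nat.Prime.coprime_iff_not_dvd hp] at h2
    exact h2 hd
  exact ⟨x.num, Rat.coe_int_num_of_den_eq_one h1⟩

/-- The main step: `N` divisible by `4` and by `φ(m) m`, `q` a large prime such that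
`p - 1 ∣ N q` only if `p - 1 ∣ N`; there is an integer `w < 0` with `q w ≡ c mod m`,
`c` the numerator of `B_N / N`, all prime divisors of which divide the numerator of
`B_{N q} / (N q)`. -/
theorem exists_numerator {m N q : ℕ} (hN : 0 < N) (h4 : 4 ∣ N)
    (hmN : m.totient * m ∣ N) (hq : q.Prime) (hNq : N + 1 < q)
    (hqN : ∀ p, p.Prime → p - 1 ∣ N * q → p - 1 ∣ N) :
    ∃ w : ℤ, w < 0 ∧ (m : ℤ) ∣ q * w - (bernoulli N / N).num ∧
      ∀ p : ℕ, p.Prime → (p : ℤ) ∣ w → (p : ℤ) ∣ (bernoulli (N * q) / (N * q : ℕ)).num := by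
  set b : ℚ := bernoulli N / N with hb
  set b' : ℚ := bernoulli (N * q) / (N * q : ℕ) with hb'
  have hNe : Even N := even_iff_two_dvd.mpr ((show 2 ∣ 4 by norm_num).trans h4)
  have hM0 : 0 < N * q := Nat.mul_pos hN hq.pos
  have hMe : Even (N * q) := hNe.mul_right q
  have hN0 : (0 : ℚ) < N := by exact_mod_cast hN
  -- the norms
  have hnorm : ∀ p (_ : Fact p.Prime), p - 1 ∣ N → ‖(b' : ℚ_[p])‖ = ‖(b : ℚ_[p])‖ := by
    intro p hp hd
    have h1 : ‖(b : ℚ_[p])‖ * ‖((N : ℕ) : ℚ_[p])‖ = p := norm_bq_of_dvd (p := p) hNe hN hd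
    have h2 : ‖(b' : ℚ_[p])‖ * ‖((N * q : ℕ) : ℚ_[p])‖ = p :=
      norm_bq_of_dvd (p := p) hMe hM0 (hd.mul_right q)
    have hpq : ‖((q : ℕ) : ℚ_[p])‖ = 1 := by
      rw [Padic.norm_natCast_eq_one_iff, Nat.coprime_primes hp.out hq]
      rintro rfl
      have := Nat.le_of_dvd hN hd
      omega
    rw [Nat.cast_mul, norm_mul, hpq, mul_one] at h2
    have h3 : ‖((N : ℕ) : ℚ_[p])‖ ≠ 0 := norm_ne_zero_iff.mpr (by exact_mod_cast hN.ne')
    exact mul_right_cancel₀ h3 (h2.trans h1.symm)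
  have hint : ∀ p (_ : Fact p.Prime), ¬ p - 1 ∣ N → ‖(b' : ℚ_[p])‖ ≤ 1 ∧ ‖(b : ℚ_[p])‖ ≤ 1 := by
    intro p hp hd
    exact ⟨norm_bq_le hMe hM0 fun h => hd (hqN p hp.out h), norm_bq_le hNe hN hd⟩
  obtain ⟨w, hw⟩ := exists_int_of_norm_le (x := (b.den : ℚ) * b') fun p hp => by
    push_cast
    rw [norm_mul]
    by_cases hd : p - 1 ∣ N
    · rw [hnorm p hp hd, norm_den_mul]
      exact norm_int_le _
    · exact mul_le_one₀ (norm_nat_le _) (norm_nonneg _) (hint p hp hd).1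
  have hwp : ∀ p (_ : Fact p.Prime), ‖((w : ℤ) : ℚ_[p])‖ =
      ‖((b.den : ℕ) : ℚ_[p])‖ * ‖(b' : ℚ_[p])‖ := by
    intro p hp
    have h1 := congrArg (Rat.cast : ℚ → ℚ_[p]) hw
    push_cast at h1
    rw [h1, norm_mul]
  refine ⟨w, ?_, ?_, ?_⟩
  · have h1 : b' < 0 := div_neg_of_neg_of_pos (bernoulli_neg (h4.mul_right q) hM0)
      (by exact_mod_cast hM0)
    have h2 : (w : ℚ) < 0 := by
      rw [hw]
      exact mul_neg_of_pos_of_neg (by exact_mod_cast b.pos) h1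
    exact_mod_cast h2
  · rw [← Int.natAbs_dvd_natAbs, Int.natAbs_natCast, Nat.dvd_iff_prime_pow_dvd_dvd]
    intro l e hl hle
    rcases Nat.eq_zero_or_pos e with rfl | he
    · rw [pow_zero]
      exact one_dvd _
    have : Fact l.Prime := ⟨hl⟩
    have hlm : l ∣ m := (dvd_pow_self l he.ne').trans hle
    have h1 : (l - 1) * l ^ e ∣ N := by
      refine (mul_dvd_mul ?_ hle).trans hmN
      rw [← Nat.totient_prime hl]
      exact Nat.totient_dvd_of_dvd hlm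
    have h2 : l - 1 ∣ N := (dvd_mul_right _ _).trans h1
    rw [← Int.natCast_dvd, Nat.cast_pow, ← Padic.norm_int_le_pow_iff_dvd]
    have h3 := norm_p_mul_bernoulli_sub (p := l) hN h1
    have h4 := norm_p_mul_bernoulli_sub (p := l) hM0 (h1.mul_right q)
    have h5 : ‖(l : ℚ_[l]) * ((bernoulli (N * q) : ℚ) : ℚ_[l]) -
        (l : ℚ_[l]) * ((bernoulli N : ℚ) : ℚ_[l])‖ ≤ (l : ℝ) ^ (-(e : ℤ)) := by
      have h6 := norm_sub_le_max' ((l : ℚ_[l]) * ((bernoulli (N * q) : ℚ) : ℚ_[l]) -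
        ((l : ℚ_[l]) - 1)) ((l : ℚ_[l]) * ((bernoulli N : ℚ) : ℚ_[l]) - ((l : ℚ_[l]) - 1))
      rw [sub_sub_sub_cancel_right] at h6
      exact h6.trans (max_le h4 h3)
    have hl0 : (l : ℚ_[l]) ≠ 0 := by exact_mod_cast hl.ne_zero
    have hNl : ((N : ℕ) : ℚ_[l]) ≠ 0 := by exact_mod_cast hN.ne'
    have hql : ((q : ℕ) : ℚ_[l]) ≠ 0 := by exact_mod_cast hq.ne_zero
    have hnum : ((b.num : ℤ) : ℚ_[l]) = ((b.den : ℕ) : ℚ_[l]) * (b : ℚ_[l]) := by
      have h7 := congrArg (Rat.cast : ℚ → ℚ_[l]) (Rat.mul_den_eq_num b)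
      push_cast at h7
      rw [← h7, mul_comm]
    have hw' : ((w : ℤ) : ℚ_[l]) = ((b.den : ℕ) : ℚ_[l]) * (b' : ℚ_[l]) := by
      have h7 := congrArg (Rat.cast : ℚ → ℚ_[l]) hw
      push_cast at h7
      exact h7
    have h6 : (((q * w - b.num : ℤ)) : ℚ_[l]) =
        ((b.den : ℕ) : ℚ_[l]) / (N * l) * ((l : ℚ_[l]) * ((bernoulli (N * q) : ℚ) : ℚ_[l]) -
        (l : ℚ_[l]) * ((bernoulli N : ℚ) : ℚ_[l])) := by
      push_cast
      rw [hnum, hw', hb, hb']
      push_cast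
      field_simp
    rw [h6, norm_mul]
    have h7 : ‖((b.den : ℕ) : ℚ_[l]) / (N * l)‖ ≤ 1 := by
      have h8 := norm_den_mul (p := l) b
      have h9 := norm_bq_of_dvd (p := l) hNe hN h2
      rw [← hb] at h9
      have hNn : 0 < ‖((N : ℕ) : ℚ_[l])‖ := norm_pos_iff.mpr hNl
      have hln : ‖(l : ℚ_[l])‖ = (l : ℝ)⁻¹ := Padic.norm_p
      have hl1 := p_pos (p := l)
      rw [norm_div, norm_mul, hln, div_le_one (by positivity)]
      have h10 : ‖((b.den : ℕ) : ℚ_[l])‖ * l ≤ ‖((N : ℕ) : ℚ_[l])‖ := by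
        rw [← h9, ← mul_assoc, h8]
        exact mul_le_of_le_one_left hNn.le (norm_int_le _)
      rw [← div_eq_mul_inv, le_div_iff₀ hl1]
      exact h10
    calc _ ≤ 1 * (l : ℝ) ^ (-(e : ℤ)) := mul_le_mul h7 h5 (norm_nonneg _) zero_le_one
      _ = _ := one_mul _
  · intro p hp hpw
    have : Fact p.Prime := ⟨hp⟩
    have h1 := Padic.norm_intCast_lt_one_iff.mpr hpw
    rw [hwp p this] at h1
    have hd : ¬ p - 1 ∣ N := by
      intro hd
      rw [hnorm p this hd, norm_den_mul] at h1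
      exact not_dvd_of_dvd_num hNe hN (Padic.norm_intCast_lt_one_iff.mp h1) hd
    rw [norm_den_of_le (hint p this hd).2, one_mul] at h1
    exact Stick.dvd_num_of_norm_lt_one h1

/-- If the classes of all prime divisors of `n` are in the subgroup `H`, then so is the class
of `n`. -/
theorem mem_of_prime_mem {m : ℕ} (H : Subgroup (ZMod m)ˣ) (n : ℕ) (hn : n ≠ 0)
    (h : ∀ p : ℕ, p.Prime → p ∣ n → ∃ u ∈ H, (u : ZMod m) = p) : ∃ u ∈ H, (u : ZMod m) = n := by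
  induction n using Nat.recOnMul with
  | zero => exact absurd rfl hn
  | one => exact ⟨1, H.one_mem, by simp⟩
  | prime p hp => exact h p hp dvd_rfl
  | mul a b iha ihb =>
    obtain ⟨u, hu, hu'⟩ := iha (left_ne_zero_of_mul hn) fun p hp hd => h p hp (hd.mul_right b)
    obtain ⟨v, hv, hv'⟩ := ihb (right_ne_zero_of_mul hn) fun p hp hd => h p hp (hd.mul_left a)
    exact ⟨u * v, H.mul_mem hu hv, by rw [Units.val_mul, hu', hv', Nat.cast_mul]⟩

/-- **Irregular primes outside a subgroup** (Jensen, Montgomery, Metsänkylä): for every proper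
subgroup `H` of `(ℤ/m)ˣ` and every `n` there is an irregular prime `p > n`, prime to `m`, whose
class modulo `m` is not in `H`. -/
theorem exists_irregular_not_mem {m : ℕ} (hm : 0 < m) (H : Subgroup (ZMod m)ˣ) (hH : H ≠ ⊤)
    (n : ℕ) : ∃ p, n < p ∧ p.Prime ∧ p.Coprime m ∧ (∀ u ∈ H, (u : ZMod m) ≠ p) ∧
      ∃ k, Even k ∧ 2 ≤ k ∧ k ≤ p - 3 ∧ (p : ℤ) ∣ (bernoulli k).num := by
  obtain ⟨a, ha⟩ : ∃ a : (ZMod m)ˣ, a ∉ H := by
    by_contra hcon
    push Not at hcon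
    exact hH ((Subgroup.eq_top_iff' H).mpr hcon)
  have hmz : NeZero m := ⟨hm.ne'⟩
  set N := 4 * n.factorial * (m.totient * m) with hNdef
  have hN : 0 < N := Nat.mul_pos (Nat.mul_pos four_pos n.factorial_pos)
    (Nat.mul_pos (Nat.totient_pos.mpr hm) hm)
  have h4 : 4 ∣ N := (dvd_mul_right 4 _).mul_right _
  have hmN : m.totient * m ∣ N := dvd_mul_left _ _
  have hNe : Even N := even_iff_two_dvd.mpr ((show 2 ∣ 4 by norm_num).trans h4)
  -- the numerator of `B_N / N` is prime to `m`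
  have hc : IsUnit (((bernoulli N / N).num : ℤ) : ZMod m) := by
    have h1 : Nat.Coprime (bernoulli N / N).num.natAbs m := by
      refine Nat.Coprime.symm (Nat.Coprime.symm ?_)
      refine Nat.coprime_of_dvd fun l hl h2 h3 => ?_
      have : Fact l.Prime := ⟨hl⟩
      refine not_dvd_of_dvd_num hNe hN (Int.natCast_dvd.mpr h2) ?_
      rw [← Nat.totient_prime hl]
      exact (Nat.totient_dvd_of_dvd h3).trans ((dvd_mul_right _ _).trans hmN)
    have h2 := (ZMod.isUnit_iff_coprime _ m).mpr h1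
    rcases Int.natAbs_eq (bernoulli N / N).num with h3 | h3 <;> rw [h3]
    · rwa [Int.cast_natCast]
    · rw [Int.cast_neg, Int.cast_natCast]
      exact h2.neg
  obtain ⟨c, hc⟩ := hc
  -- the prime `q`
  set x : ℕ := ((-c * a⁻¹ : (ZMod m)ˣ) : ZMod m).val + m with hx
  have hxc : (x : ZMod m) = ((-c * a⁻¹ : (ZMod m)ˣ) : ZMod m) := by
    rw [hx, Nat.cast_add, ZMod.natCast_self, add_zero, ZMod.natCast_zmod_val]
  have hxm : x.Coprime m := by
    rw [← ZMod.isUnit_iff_coprime, hxc]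
    exact Units.isUnit _
  obtain ⟨q, hqB, hq, hqx, hqN⟩ := exists_prime_class hm hN (by omega) hxm (N + 1)
  obtain ⟨w, hw0, hwm, hwp⟩ := exists_numerator hN h4 hmN hq hqB hqN
  have hwa : ((w.natAbs : ℕ) : ZMod m) = a := by
    have h1 := (ZMod.intCast_zmod_eq_zero_iff_dvd _ m).mpr hwm
    push_cast at h1
    rw [← hc, hqx, hxc, sub_eq_zero] at h1
    have h2 : ((w.natAbs : ℕ) : ZMod m) = -(w : ZMod m) := by
      have h3 : ((w.natAbs : ℕ) : ℤ) = -w := by omega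
      have h4 := congrArg (Int.cast : ℤ → ZMod m) h3
      rwa [Int.cast_natCast, Int.cast_neg] at h4
    rw [h2]
    have h3 : (w : ZMod m) = ((-a : (ZMod m)ˣ) : ZMod m) := by
      refine (Units.mul_right_inj (-c * a⁻¹)).mp ?_
      rw [h1, ← Units.val_mul]
      congr 1
      simp
    rw [h3, Units.val_neg, neg_neg]
  have hw1 : w.natAbs ≠ 0 := by omega
  obtain ⟨p, hp, hpd, hpH⟩ : ∃ p : ℕ, p.Prime ∧ p ∣ w.natAbs ∧ ∀ u ∈ H, (u : ZMod m) ≠ p := by
    by_contra hcon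
    push Not at hcon
    obtain ⟨u, hu, hu'⟩ := mem_of_prime_mem H w.natAbs hw1 hcon
    rw [hwa] at hu'
    rw [Units.ext hu'] at hu
    exact ha hu
  have : Fact p.Prime := ⟨hp⟩
  have hpn := hwp p hp (Int.natCast_dvd.mpr hpd)
  have hM0 : 0 < N * q := Nat.mul_pos hN hq.pos
  have hMe : Even (N * q) := hNe.mul_right q
  have h5 := not_dvd_of_dvd_num hMe hM0 hpn
  refine ⟨p, ?_, hp, ?_, hpH, N * q % (p - 1), dvd_num_mod hMe hM0 hpn⟩
  · by_contra hcon
    have h2p := hp.two_le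
    exact h5 ((((Nat.dvd_factorial (by omega) (by omega)).mul_left 4).mul_right _).mul_right q)
  · have h6 : w.natAbs.Coprime m := by
      rw [← ZMod.isUnit_iff_coprime, hwa]
      exact Units.isUnit _
    exact Nat.Coprime.coprime_dvd_left hpd h6

/-- The same for the divisibility of the class number of `ℚ(ζ_p)` by `p`. -/
theorem exists_dvd_classNumber_not_mem {m : ℕ} (hm : 0 < m) (H : Subgroup (ZMod m)ˣ) (hH : H ≠ ⊤)
    (n : ℕ) : ∃ p, n < p ∧ p.Prime ∧ p.Coprime m ∧ (∀ u ∈ H, (u : ZMod m) ≠ p) ∧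
      ∀ (K : Type u) [Field K] [NumberField K] [IsCyclotomicExtension {p} ℚ K],
        p ∣ classNumber K := by
  obtain ⟨p, h1, h2, h3, h4, k, h5, h6, h7, h8⟩ := exists_irregular_not_mem hm H hH n
  refine ⟨p, h1, h2, h3, h4, fun K _ _ _ => ?_⟩
  have : Fact p.Prime := ⟨h2⟩
  exact Kummer.dvd_classNumber p K h5 h6 h7 h8

/-- **For every odd prime `ℓ` there are infinitely many irregular primes which are quadratic
non-residues modulo `ℓ`.** -/
theorem infinite_irregular_legendre {l : ℕ} [hl : Fact l.Prime] (hl2 : l ≠ 2) :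
    {p : ℕ | p.Prime ∧ legendreSym l p = -1 ∧
      ∃ k, Even k ∧ 2 ≤ k ∧ k ≤ p - 3 ∧ (p : ℤ) ∣ (bernoulli k).num}.Infinite :=
  Set.infinite_of_forall_exists_gt fun n => by
    have hne : ((powMonoidHom 2 : (ZMod l)ˣ →* (ZMod l)ˣ)).range ≠ ⊤ := by
      intro h
      obtain ⟨a, ha⟩ := quadraticChar_exists_neg_one (F := ZMod l)
        (by rw [ZMod.ringChar_zmod_n]; exact hl2)
      have ha0 : a ≠ 0 := by
        rintro rfl
        rw [quadraticChar_zero] at ha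
        norm_num at ha
      have h1 : Units.mk0 a ha0 ∈ ((powMonoidHom 2 : (ZMod l)ˣ →* (ZMod l)ˣ)).range :=
        h ▸ Subgroup.mem_top _
      obtain ⟨b, hb⟩ := h1
      have h2 := congrArg Units.val hb
      rw [powMonoidHom_apply, Units.val_pow_eq_pow_val, Units.val_mk0] at h2
      have h3 : quadraticChar (ZMod l) a = 1 := by
        rw [← h2]
        exact quadraticChar_sq_one' b.ne_zero
      rw [h3] at ha
      norm_num at ha
    obtain ⟨p, h1, h2, h3, h4, h5⟩ := exists_irregular_not_mem hl.out.pos _ hne n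
    have h6 : ((p : ℤ) : ZMod l) ≠ 0 := by
      rw [Int.cast_natCast]
      exact ((ZMod.isUnit_iff_coprime p l).mpr h3).ne_zero
    refine ⟨p, ⟨h2, ?_, h5⟩, h1⟩
    rcases legendreSym.eq_one_or_neg_one l h6 with h7 | h7
    · exfalso
      rw [legendreSym.eq_one_iff l h6] at h7
      obtain ⟨b, hb⟩ := h7
      have hb0 : b ≠ 0 := by
        rintro rfl
        exact h6 (by rw [hb, mul_zero])
      refine h4 (Units.mk0 b hb0 ^ 2) ⟨Units.mk0 b hb0, rfl⟩ ?_
      rw [Units.val_pow_eq_pow_val, Units.val_mk0, sq, ← hb, Int.cast_natCast]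
    · exact h7

/-- **For `m > 2` there are infinitely many irregular primes `p ≢ 1 mod m`.** -/
theorem infinite_irregular_ne_one {m : ℕ} (hm : 2 < m) : {p : ℕ | p.Prime ∧ ¬ p ≡ 1 [MOD m] ∧
    ∃ k, Even k ∧ 2 ≤ k ∧ k ≤ p - 3 ∧ (p : ℤ) ∣ (bernoulli k).num}.Infinite :=
  Set.infinite_of_forall_exists_gt fun n => by
    have : Fact (2 < m) := ⟨hm⟩
    have hbot : (⊥ : Subgroup (ZMod m)ˣ) ≠ ⊤ := by
      intro h
      have h1 : (-1 : (ZMod m)ˣ) ∈ (⊥ : Subgroup (ZMod m)ˣ) := h ▸ Subgroup.mem_top _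
      rw [Subgroup.mem_bot] at h1
      have h2 := congrArg Units.val h1
      rw [Units.val_neg, Units.val_one] at h2
      exact ZMod.neg_one_ne_one h2
    obtain ⟨p, h1, h2, h3, h4, h5⟩ := exists_irregular_not_mem (by omega) ⊥ hbot n
    refine ⟨p, ⟨h2, fun h6 => h4 1 (Subgroup.one_mem _) ?_, h5⟩, h1⟩
    have h7 := (ZMod.natCast_eq_natCast_iff _ _ _).mpr h6
    rw [h7]
    simp

/-- **Jensen's theorem (1915)**: there are infinitely many irregular primes `p ≡ 3 mod 4`. -/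
theorem infinite_irregular_three_mod_four : {p : ℕ | p.Prime ∧ p % 4 = 3 ∧
    ∃ k, Even k ∧ 2 ≤ k ∧ k ≤ p - 3 ∧ (p : ℤ) ∣ (bernoulli k).num}.Infinite := by
  refine (infinite_irregular_ne_one (m := 4) (by norm_num)).mono ?_
  rintro p ⟨h1, h2, k, h3, h4, h5, h6⟩
  refine ⟨h1, ?_, k, h3, h4, h5, h6⟩
  have h7 : p % 4 ≠ 1 := fun h => h2 h
  rcases h1.eq_two_or_odd with h8 | h8
  · omega
  · omega

/-- **Infinitely many primes `p ≡ 3 mod 4` divide the class number of `ℚ(ζ_p)`.** -/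
theorem infinite_dvd_classNumber_three_mod_four :
    {p : ℕ | p.Prime ∧ p % 4 = 3 ∧ p ∣ classNumber (CyclotomicField p ℚ)}.Infinite := by
  refine infinite_irregular_three_mod_four.mono ?_
  rintro p ⟨h1, h2, k, h3, h4, h5, h6⟩
  refine ⟨h1, h2, ?_⟩
  have : Fact p.Prime := ⟨h1⟩
  have : NeZero p := ⟨h1.ne_zero⟩
  have h7 : @IsCyclotomicExtension {p} ℚ (CyclotomicField p ℚ) _ _ DivisionRing.toRatAlgebra := by
    rw [Subsingleton.elim (DivisionRing.toRatAlgebra : Algebra ℚ (CyclotomicField p ℚ))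
      (CyclotomicField.algebra p ℚ)]
    exact CyclotomicField.isCyclotomicExtension p ℚ
  exact Kummer.dvd_classNumber p (CyclotomicField p ℚ) h3 h4 h5 h6

end Fermat.Agent.Cor.Kum
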