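import Mathlib

/-!
# The compositum of two Galois extensions of coprime degrees
-/

set_option autoImplicit false

noncomputable section

universe u v w

namespace Fermat.Agent.Cor.Kum

open NumberField Module

theorem exists_comp {F : Type u} {K : Type v} {L : Type w} [Field F] [NumberField F]
    [Field K] [NumberField K] [Field L] [NumberField L] [Algebra F K] [Algebra F L] [IsGalois F K] [IsGalois F L] {m n : ℕ}
    (hK : finrank F K = m) (hL : finrank F L = n) (hmn : m.Coprime n) :
    ∃ (M : Type u) (_ : Field M) (_ : NumberField M) (_ : Algebra F M) (_ : Algebra K M)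
      (_ : Algebra L M), IsScalarTower F K M ∧ IsScalarTower F L M ∧ IsGalois F M ∧
      finrank F M = m * n := by
  let Ω := AlgebraicClosure F
  let iK : K →ₐ[F] Ω := IsAlgClosed.lift
  let iL : L →ₐ[F] Ω := IsAlgClosed.lift
  have gK : IsGalois F iK.fieldRange := IsGalois.of_algEquiv (AlgEquiv.ofInjectiveField iK)
  have gL : IsGalois F iL.fieldRange := IsGalois.of_algEquiv (AlgEquiv.ofInjectiveField iL)
  let M : IntermediateField F Ω := iK.fieldRange ⊔ iL.fieldRange
  have fK : finrank F iK.fieldRange = m := by
    rw [← hK]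
    exact ((AlgEquiv.ofInjectiveField iK).toLinearEquiv.finrank_eq).symm
  have fL : finrank F iL.fieldRange = n := by
    rw [← hL]
    exact ((AlgEquiv.ofInjectiveField iL).toLinearEquiv.finrank_eq).symm
  have dK : FiniteDimensional F K := Module.Finite.of_restrictScalars_finite ℚ F K
  have dL : FiniteDimensional F L := Module.Finite.of_restrictScalars_finite ℚ F L
  have : FiniteDimensional F iK.fieldRange :=
    (AlgEquiv.ofInjectiveField iK).toLinearEquiv.finiteDimensional
  have : FiniteDimensional F iL.fieldRange :=
    (AlgEquiv.ofInjectiveField iL).toLinearEquiv.finiteDimensional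
  have hfin : FiniteDimensional F M := inferInstance
  have hnum : NumberField M := by
    have : FiniteDimensional ℚ M := FiniteDimensional.trans ℚ F M
    exact ⟨⟩
  have hgal : IsGalois F M := ⟨⟩
  let aK : K →ₐ[F] M := iK.codRestrict M.toSubalgebra fun x =>
    (le_sup_left : iK.fieldRange ≤ M) ⟨x, rfl⟩
  let aL : L →ₐ[F] M := iL.codRestrict M.toSubalgebra fun x =>
    (le_sup_right : iL.fieldRange ≤ M) ⟨x, rfl⟩
  let algK : Algebra K M := aK.toRingHom.toAlgebra
  let algL : Algebra L M := aL.toRingHom.toAlgebra
  have tK : IsScalarTower F K M := IsScalarTower.of_algebraMap_eq fun x => (aK.commutes x).symm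
  have tL : IsScalarTower F L M := IsScalarTower.of_algebraMap_eq fun x => (aL.commutes x).symm
  refine ⟨M, inferInstance, hnum, inferInstance, algK, algL, tK, tL, hgal, ?_⟩
  have h1 : finrank F M ≤ m * n := by
    have := IntermediateField.finrank_sup_le iK.fieldRange iL.fieldRange
    rwa [fK, fL] at this
  have h2 : m ∣ finrank F M := by
    rw [← hK, ← finrank_mul_finrank F K M]
    exact Dvd.intro _ rfl
  have h3 : n ∣ finrank F M := by
    rw [← hL, ← finrank_mul_finrank F L M]
    exact Dvd.intro _ rfl
  exact le_antisymm h1 (Nat.le_of_dvd finrank_pos (hmn.mul_dvd_of_dvd_of_dvd h2 h3))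

end Fermat.Agent.Cor.Kum
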