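import Fermat.Agent.Corollaries.Stick.Voronoi

/-!
# Kummer's congruences

For a prime `p`, even positive integers `m ≡ n mod (p - 1) p ^ r` which are not divisible by
`p - 1`,
`(1 - p ^ (m - 1)) B_m / m ≡ (1 - p ^ (n - 1)) B_n / n mod p ^ (r + 1)` (`kummer_congruence`).

The proof uses Voronoi's congruence modulo powers of `p`, and the theorem of von Staudt and
Clausen (Mathlib).
-/

set_option autoImplicit false

noncomputable section

namespace Fermat.Agent.Cor.Kum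

open Finset Stick

variable {p : ℕ} [hp : Fact p.Prime]

section staudt

theorem norm_int_le (z : ℤ) : ‖(z : ℚ_[p])‖ ≤ 1 := Padic.norm_int_le_one z

theorem norm_sub_le_max' (a b : ℚ_[p]) : ‖a - b‖ ≤ max ‖a‖ ‖b‖ := by
  rw [sub_eq_add_neg, ← norm_neg b]
  exact IsUltrametricDist.norm_add_le_max _ _

theorem norm_nat_le (z : ℕ) : ‖(z : ℚ_[p])‖ ≤ 1 := by
  exact_mod_cast Padic.norm_int_le_one (p := p) (z : ℤ)

/-- `‖1 / q‖ ≤ 1` for a prime `q ≠ p`. -/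
theorem norm_inv_prime {q : ℕ} (hq : q.Prime) (h : q ≠ p) : ‖((1 / q : ℚ) : ℚ_[p])‖ = 1 := by
  push_cast
  rw [norm_div, norm_one, Padic.norm_natCast_eq_one_iff.mpr
    ((Nat.coprime_primes hp.out hq).mpr (Ne.symm h)), div_one]

theorem one_le_p : (1 : ℝ) ≤ p := by exact_mod_cast hp.out.one_lt.le

theorem p_pos : (0 : ℝ) < p := by exact_mod_cast hp.out.pos

theorem norm_inv_p : ‖((1 / p : ℚ) : ℚ_[p])‖ = p := by
  push_cast
  rw [norm_div, norm_one, Padic.norm_p, one_div, inv_inv]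

/-- `B_{2k} = z - e / p`, with `z` `p`-integral, `e = 1` if `p - 1 ∣ 2 k` and `e = 0` otherwise. -/
theorem exists_staudt (k : ℕ) (hk : 0 < k) : ∃ z : ℚ_[p], ‖z‖ ≤ 1 ∧
    ((bernoulli (2 * k) : ℚ) : ℚ_[p]) = z - if p - 1 ∣ 2 * k then ((1 / p : ℚ) : ℚ_[p]) else 0 := by
  obtain ⟨n, hn⟩ := Bernoulli.vonStaudt_clausen k
  set s := (range (2 * k + 2)).filter fun p => p.Prime ∧ (p - 1) ∣ 2 * k with hs
  have h1 := congrArg (Rat.cast : ℚ → ℚ_[p]) hn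
  rw [Rat.cast_intCast, Rat.cast_add, Rat.cast_sum] at h1
  have hsum : ∑ q ∈ s, ((1 / q : ℚ) : ℚ_[p]) =
      ∑ q ∈ s.erase p, ((1 / q : ℚ) : ℚ_[p]) +
        if p - 1 ∣ 2 * k then ((1 / p : ℚ) : ℚ_[p]) else 0 := by
    by_cases h : p - 1 ∣ 2 * k
    · rw [if_pos h]
      refine (Finset.sum_erase_add _ _ ?_).symm
      rw [hs, mem_filter, mem_range]
      refine ⟨?_, hp.out, h⟩
      have := Nat.le_of_dvd (by omega) h
      omega
    · rw [if_neg h, add_zero, Finset.erase_eq_of_notMem]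
      rw [hs, mem_filter]
      exact fun h' => h h'.2.2
  rw [hsum] at h1
  refine ⟨n - ∑ q ∈ s.erase p, ((1 / q : ℚ) : ℚ_[p]), ?_, ?_⟩
  · refine (norm_sub_le_max' _ _).trans (max_le (norm_int_le n) ?_)
    refine IsUltrametricDist.norm_sum_le_of_forall_le_of_nonneg zero_le_one fun q hq => ?_
    rw [mem_erase, hs, mem_filter] at hq
    exact (norm_inv_prime hq.2.2.1 hq.1).le
  · rw [h1]
    ring

theorem norm_two (h2 : p ≠ 2) : ‖(2 : ℚ_[p])‖ = 1 := by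
  exact_mod_cast Padic.norm_natCast_eq_one_iff.mpr
    ((Nat.coprime_primes hp.out Nat.prime_two).mpr h2)

theorem bernoulli_odd_norm (h2 : p ≠ 2) {i : ℕ} (hi : Odd i) :
    ‖((bernoulli i : ℚ) : ℚ_[p])‖ ≤ 1 := by
  obtain ⟨k, rfl⟩ := hi
  rcases Nat.eq_zero_or_pos k with rfl | hk
  · rw [mul_zero, zero_add, bernoulli_one]
    push_cast
    rw [norm_div, norm_neg, norm_one, norm_two h2, div_one]
  · rw [bernoulli_eq_zero_of_odd ⟨k, rfl⟩ (by omega)]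
    simp

/-- `p B_i` is `p`-integral. -/
theorem norm_bernoulli_le (h2 : p ≠ 2) (i : ℕ) : ‖((bernoulli i : ℚ) : ℚ_[p])‖ ≤ p := by
  rcases Nat.even_or_odd' i with ⟨k, rfl | rfl⟩
  · rcases Nat.eq_zero_or_pos k with rfl | hk
    · rw [mul_zero, bernoulli_zero]
      simpa using one_le_p (p := p)
    · obtain ⟨z, hz, h1⟩ := exists_staudt (p := p) k hk
      rw [h1]
      refine (norm_sub_le_max' _ _).trans (max_le (hz.trans one_le_p) ?_)
      split_ifs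
      · exact norm_inv_p.le
      · rw [norm_zero]
        exact p_pos.le
  · exact (bernoulli_odd_norm h2 ⟨k, rfl⟩).trans one_le_p

/-- `p` is in the denominator of `B_n`, `n` even, `p - 1 ∣ n`. -/
theorem norm_bernoulli_of_dvd {n : ℕ} (hn : Even n) (h0 : 0 < n) (hd : p - 1 ∣ n) :
    ‖((bernoulli n : ℚ) : ℚ_[p])‖ = p := by
  obtain ⟨k, rfl⟩ := hn.two_dvd
  obtain ⟨z, hz, h1⟩ := exists_staudt (p := p) k (by omega)
  have hp1 : (1 : ℝ) < p := by exact_mod_cast hp.out.one_lt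
  have hne : ‖z‖ ≠ ‖-((1 / p : ℚ) : ℚ_[p])‖ := by
    rw [norm_neg, norm_inv_p]
    exact (hz.trans_lt hp1).ne
  rw [h1, if_pos hd, sub_eq_add_neg, IsUltrametricDist.norm_add_eq_max_of_norm_ne_norm hne,
    norm_neg, norm_inv_p, max_eq_right (hz.trans one_le_p)]

end staudt

section sums

omit hp in
/-- `v_p(j + 1) ≤ j - 2` for `j ≥ 2`, `p ≥ 5`. -/
theorem val_le (hp5 : 5 ≤ p) {j : ℕ} (hj : 2 ≤ j) : padicValNat p (j + 1) + 2 ≤ j := by
  by_contra hcon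
  have h1 : j - 1 ≤ padicValNat p (j + 1) := by omega
  have h2 : p ^ (j - 1) ∣ j + 1 := (pow_dvd_pow p h1).trans pow_padicValNat_dvd
  have h3 := Nat.le_of_dvd (Nat.succ_pos j) h2
  have h4 : 5 ^ (j - 1) ≤ p ^ (j - 1) := Nat.pow_le_pow_left hp5 _
  obtain ⟨i, rfl⟩ : ∃ i, j = i + 2 := ⟨j - 2, by omega⟩
  have h5 : ∀ i : ℕ, i + 2 + 1 < 5 ^ (i + 2 - 1) := by
    intro i
    induction i with
    | zero => norm_num
    | succ i ih =>
      rw [show i + 1 + 2 - 1 = (i + 2 - 1) + 1 by omega, pow_succ]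
      omega
  have := h5 i
  omega

theorem norm_natCast_eq {j : ℕ} (hj : j ≠ 0) :
    ‖(j : ℚ_[p])‖ = (p : ℝ) ^ (-(padicValNat p j : ℤ)) := by
  rw [Padic.norm_eq_zpow_neg_valuation (by exact_mod_cast hj), Padic.valuation_natCast]

/-- `∑_{a < p ^ M} a ^ N ≡ p ^ M B_N mod p ^ (2 M)`, `N` even, `M ≥ 1`, `p ≥ 5`. -/
theorem norm_sum_sub_le (hp5 : 5 ≤ p) {N M : ℕ} (hN : Even N) (hM : 1 ≤ M) :
    ‖∑ a ∈ range (p ^ M), (a : ℚ_[p]) ^ N - p ^ M * ((bernoulli N : ℚ) : ℚ_[p])‖ ≤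
      (p : ℝ) ^ (-(2 * M : ℕ) : ℤ) := by
  have h2 : p ≠ 2 := by omega
  have h1 := congrArg (Rat.cast : ℚ → ℚ_[p]) (sum_range_pow (p ^ M) N)
  push_cast at h1
  have hN1 : ((N : ℚ_[p]) + 1) ≠ 0 := by exact_mod_cast (Nat.succ_ne_zero N)
  rw [h1, sum_range_succ, Nat.choose_succ_self_right, show N + 1 - N = 1 by omega, pow_one]
  have h3 : ((bernoulli N : ℚ) : ℚ_[p]) * ((N + 1 : ℕ) : ℚ_[p]) * ((p : ℚ_[p]) ^ M) / (N + 1) =
      p ^ M * ((bernoulli N : ℚ) : ℚ_[p]) := by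
    push_cast
    field_simp
  rw [h3, add_sub_cancel_right]
  refine IsUltrametricDist.norm_sum_le_of_forall_le_of_nonneg (by positivity) fun i hi => ?_
  rw [mem_range] at hi
  obtain ⟨j, rfl⟩ : ∃ j, N = i + j := ⟨N - i, by omega⟩
  have hj : 1 ≤ j := by omega
  have hj1 : ((j : ℚ_[p]) + 1) ≠ 0 := by exact_mod_cast (Nat.succ_ne_zero j)
  have h4 : ((bernoulli i : ℚ) : ℚ_[p]) * (((i + j + 1).choose i : ℕ) : ℚ_[p]) *
      ((p : ℚ_[p]) ^ M) ^ (i + j + 1 - i) / ((i + j : ℕ) + 1) =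
      ((bernoulli i : ℚ) : ℚ_[p]) * (((i + j).choose i : ℕ) : ℚ_[p]) *
        (p : ℚ_[p]) ^ (M * (j + 1)) / ((j + 1 : ℕ) : ℚ_[p]) := by
    have h5 := Nat.choose_mul_succ_eq (i + j) i
    rw [show i + j + 1 - i = j + 1 by omega] at h5 ⊢
    have h6 : (((i + j).choose i : ℕ) : ℚ_[p]) * ((i + j : ℕ) + 1) =
        (((i + j + 1).choose i : ℕ) : ℚ_[p]) * (j + 1) := by exact_mod_cast h5
    rw [← pow_mul, div_eq_div_iff hN1 (by exact_mod_cast (Nat.succ_ne_zero j))]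
    push_cast at h6 ⊢
    linear_combination -(((bernoulli i : ℚ) : ℚ_[p]) * (p : ℚ_[p]) ^ (M * (j + 1))) * h6
  rw [h4, norm_div, norm_mul, norm_mul, Padic.norm_p_pow]
  have h7 : ‖(((i + j).choose i : ℕ) : ℚ_[p])‖ ≤ 1 := norm_nat_le _
  rcases Nat.lt_or_ge j 2 with hj2 | hj2
  · obtain rfl : j = 1 := by omega
    have h8 : ‖((bernoulli i : ℚ) : ℚ_[p])‖ ≤ 1 := by
      refine bernoulli_odd_norm h2 ?_
      rw [← Nat.not_even_iff_odd]
      intro h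
      exact (Nat.not_even_iff_odd.mpr h.add_one) hN
    have h9 : ‖(((1 : ℕ) + 1 : ℕ) : ℚ_[p])‖ = 1 := by
      exact_mod_cast norm_two h2
    rw [h9, div_one]
    calc _ ≤ 1 * 1 * (p : ℝ) ^ (-((M * (1 + 1) : ℕ) : ℤ)) := by
          refine mul_le_mul (mul_le_mul h8 h7 (norm_nonneg _) zero_le_one) le_rfl (by positivity)
            (by norm_num)
      _ = _ := by
          rw [one_mul, one_mul, mul_comm M]
  · have h8 := norm_bernoulli_le (p := p) h2 i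
    have h9 := val_le hp5 hj2
    rw [norm_natCast_eq (Nat.succ_ne_zero j), zpow_neg (p : ℝ) (padicValNat p (j + 1) : ℤ),
      div_inv_eq_mul]
    generalize padicValNat p (j + 1) = v at h9 ⊢
    have h10 : (p : ℝ) * (p : ℝ) ^ (-((M * (j + 1) : ℕ) : ℤ)) * (p : ℝ) ^ (v : ℤ) ≤ (p : ℝ) ^ (-(2 * M : ℕ) : ℤ) := by
      rw [← zpow_one_add₀ p_pos.ne', ← zpow_add₀ p_pos.ne']
      refine zpow_le_zpow_right₀ one_le_p ?_
      have h11 : j - 1 ≤ M * (j - 1) := Nat.le_mul_of_pos_left _ hM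
      obtain ⟨l, rfl⟩ : ∃ l, j = l + 1 := ⟨j - 1, by omega⟩
      rw [Nat.add_sub_cancel] at h11
      have h12 : M * (l + 1 + 1) = M * l + 2 * M := by ring
      rw [h12]
      push_cast
      omega
    refine le_trans ?_ h10
    refine mul_le_mul_of_nonneg_right ?_ (by positivity)
    refine mul_le_mul_of_nonneg_right ?_ (by positivity)
    calc _ ≤ (p : ℝ) * 1 := mul_le_mul h8 h7 (norm_nonneg _) p_pos.le
      _ = p := mul_one _

/-- The numbers below `p ^ M` prime to `p`. -/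
def ucop (p M : ℕ) : Finset ℕ := (range (p ^ M)).filter fun a => ¬ p ∣ a

theorem sum_split {R : Type*} [AddCommMonoid R] (f : ℕ → R) (M : ℕ) :
    ∑ a ∈ range (p ^ (M + 1)), f a =
      ∑ a ∈ ucop p (M + 1), f a + ∑ b ∈ range (p ^ M), f (p * b) := by
  have h1 : ((range (p ^ (M + 1))).filter fun a => p ∣ a) =
      (range (p ^ M)).image fun b => p * b := by
    ext a
    rw [mem_filter, mem_range, mem_image]
    constructor
    · rintro ⟨h, b, rfl⟩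
      refine ⟨b, ?_, rfl⟩
      rw [mem_range]
      rw [pow_succ, mul_comm] at h
      exact lt_of_mul_lt_mul_right h (Nat.zero_le _)
    · rintro ⟨b, hb, rfl⟩
      rw [mem_range] at hb
      refine ⟨?_, dvd_mul_right _ _⟩
      rw [pow_succ, mul_comm]
      exact Nat.mul_lt_mul_of_pos_right hb hp.out.pos
  rw [← sum_filter_not_add_sum_filter (range (p ^ (M + 1))) (fun a => p ∣ a) f, h1,
    sum_image fun a _ b _ h => Nat.eq_of_mul_eq_mul_left hp.out.pos h]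
  rfl

/-- `∑ a ^ N ≡ p ^ M (1 - p ^ (N - 1)) B_N mod p ^ (2 M)`, the sum over the `a < p ^ M` prime
to `p`. -/
theorem norm_sum_ucop_sub_le (hp5 : 5 ≤ p) {N M : ℕ} (hN : Even N) (hN0 : 0 < N) (hM : 2 ≤ M) :
    ‖∑ a ∈ ucop p M, (a : ℚ_[p]) ^ N -
      p ^ M * ((1 - (p : ℚ_[p]) ^ (N - 1)) * ((bernoulli N : ℚ) : ℚ_[p]))‖ ≤
      (p : ℝ) ^ (-(2 * M : ℕ) : ℤ) := by
  obtain ⟨M, rfl⟩ : ∃ M', M = M' + 1 := ⟨M - 1, by omega⟩
  have h1 := sum_split (p := p) (fun a => (a : ℚ_[p]) ^ N) M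
  have h2 : ∑ b ∈ range (p ^ M), ((p * b : ℕ) : ℚ_[p]) ^ N =
      p ^ N * ∑ b ∈ range (p ^ M), (b : ℚ_[p]) ^ N := by
    rw [mul_sum]
    refine sum_congr rfl fun b _ => ?_
    rw [Nat.cast_mul, mul_pow]
  simp only [h2] at h1
  have h3 : ∑ a ∈ ucop p (M + 1), (a : ℚ_[p]) ^ N -
      p ^ (M + 1) * ((1 - (p : ℚ_[p]) ^ (N - 1)) * ((bernoulli N : ℚ) : ℚ_[p])) =
      (∑ a ∈ range (p ^ (M + 1)), (a : ℚ_[p]) ^ N - p ^ (M + 1) * ((bernoulli N : ℚ) : ℚ_[p])) -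
      p ^ N * (∑ b ∈ range (p ^ M), (b : ℚ_[p]) ^ N - p ^ M * ((bernoulli N : ℚ) : ℚ_[p])) := by
    obtain ⟨l, rfl⟩ : ∃ l, N = l + 1 := ⟨N - 1, by omega⟩
    rw [h1, Nat.add_sub_cancel]
    ring
  rw [h3]
  refine (norm_sub_le_max' _ _).trans (max_le (norm_sum_sub_le hp5 hN (by omega)) ?_)
  rw [norm_mul, Padic.norm_p_pow]
  have h4 := norm_sum_sub_le (p := p) hp5 hN (M := M) (by omega)
  calc _ ≤ (p : ℝ) ^ (-(N : ℤ)) * (p : ℝ) ^ (-(2 * M : ℕ) : ℤ) :=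
        mul_le_mul_of_nonneg_left h4 (by positivity)
    _ = (p : ℝ) ^ (-(N : ℤ) + (-(2 * M : ℕ) : ℤ)) := (zpow_add₀ p_pos.ne' _ _).symm
    _ ≤ _ := by
        refine zpow_le_zpow_right₀ one_le_p ?_
        obtain ⟨t, ht⟩ := hN
        push_cast
        omega

end sums

section voronoi

/-- Multiplication by `c` permutes the residues prime to `p`. -/
theorem sum_perm {R : Type*} [AddCommMonoid R] (f : ℕ → R) {M c : ℕ} (hM : 1 ≤ M)
    (hc : ¬ p ∣ c) : ∑ a ∈ ucop p M, f (c * a % p ^ M) = ∑ a ∈ ucop p M, f a := by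
  have hinj : Set.InjOn (fun a => c * a % p ^ M) (ucop p M : Set ℕ) := by
    intro a ha b hb hab
    have ha' := (mem_range.mp (mem_filter.mp (mem_coe.mp ha)).1)
    have hb' := (mem_range.mp (mem_filter.mp (mem_coe.mp hb)).1)
    have h1 : c * a ≡ c * b [MOD p ^ M] := hab
    have h2 := Nat.ModEq.cancel_left_of_coprime
      (Nat.Coprime.pow_left M ((Nat.Prime.coprime_iff_not_dvd hp.out).mpr hc)) h1
    exact Nat.ModEq.eq_of_lt_of_lt h2 ha' hb'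
  have himg : (ucop p M).image (fun a => c * a % p ^ M) = ucop p M := by
    refine eq_of_subset_of_card_le ?_ (card_image_of_injOn hinj).ge
    intro x hx
    obtain ⟨a, ha, rfl⟩ := mem_image.mp hx
    have ha' := (mem_filter.mp ha).2
    refine mem_filter.mpr ⟨mem_range.mpr (Nat.mod_lt _ (pow_pos hp.out.pos M)), fun h => ?_⟩
    rw [Nat.dvd_mod_iff (dvd_pow_self p (by omega))] at h
    exact (hp.out.dvd_mul.mp h).elim hc ha'
  conv_rhs => rw [← himg, sum_image hinj]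

/-- The elementary congruence behind Voronoi's. -/
theorem sq_dvd_term {k c n : ℕ} (hk0 : 0 < k) (a : ℕ) :
    (n : ℤ) ^ 2 ∣ ((c : ℤ) * a) ^ k - ((c * a % n : ℕ) : ℤ) ^ k -
      k * n * (((c : ℤ) * a) ^ (k - 1) * ((c * a / n : ℕ) : ℤ)) := by
  set q : ℤ := ((c * a / n : ℕ) : ℤ) with hq
  set r : ℤ := ((c * a % n : ℕ) : ℤ) with hr
  have hca : (c : ℤ) * a = r + n * q := by
    rw [hq, hr]
    exact_mod_cast (Nat.mod_add_div (c * a) n).symm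
  obtain ⟨k, rfl⟩ : ∃ k', k = k' + 1 := ⟨k - 1, by omega⟩
  rw [Nat.add_sub_cancel, hca]
  have h2 : (n : ℤ) ∣ (r + n * q) ^ k - r ^ k := by
    have h3 := sub_dvd_pow_sub_pow (r + n * q) r k
    rw [add_sub_cancel_left] at h3
    exact (dvd_mul_right _ _).trans h3
  obtain ⟨z, hz⟩ := h2
  obtain ⟨w, hw⟩ := Polynomial.powAddExpansion r ((n : ℤ) * q) (k + 1)
  rw [Nat.add_sub_cancel] at hw
  refine ⟨w * q ^ 2 - (k + 1) * q * z, ?_⟩
  rw [hw]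
  push_cast
  linear_combination -(k + 1 : ℤ) * n * q * hz

/-- The sum in Voronoi's congruence. -/
def vsum (p M c k : ℕ) : ℕ := ∑ a ∈ ucop p M, (c * a) ^ (k - 1) * (c * a / p ^ M)

theorem sq_dvd_sum {k c M : ℕ} (hk0 : 0 < k) (hM : 1 ≤ M) (hc : ¬ p ∣ c) :
    ((p : ℤ) ^ (2 * M)) ∣ ((c : ℤ) ^ k - 1) * ∑ a ∈ ucop p M, (a : ℤ) ^ k -
      k * (p : ℤ) ^ M * (vsum p M c k : ℕ) := by
  have h1 := Finset.dvd_sum (s := ucop p M) fun a _ => sq_dvd_term (c := c) (n := p ^ M) hk0 a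
  rw [sum_sub_distrib, sum_sub_distrib, ← mul_sum,
    sum_perm (fun x => (x : ℤ) ^ k) hM hc] at h1
  have h2 : ∑ a ∈ ucop p M, ((c : ℤ) * a) ^ k = c ^ k * ∑ a ∈ ucop p M, (a : ℤ) ^ k := by
    rw [mul_sum]
    exact sum_congr rfl fun a _ => mul_pow _ _ _
  rw [h2] at h1
  have h3 : ((vsum p M c k : ℕ) : ℤ) =
      ∑ a ∈ ucop p M, ((c : ℤ) * a) ^ (k - 1) * ((c * a / p ^ M : ℕ) : ℤ) := by
    rw [vsum, Nat.cast_sum]
    refine sum_congr rfl fun a _ => ?_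
    rw [Nat.cast_mul, Nat.cast_pow, Nat.cast_mul]
  rw [h3, sub_mul, one_mul]
  rw [Nat.cast_pow, ← pow_mul, mul_comm M 2] at h1
  exact h1

/-- `X_k = (1 - p ^ (k - 1)) B_k / k`. -/
def xb (p : ℕ) [Fact p.Prime] (k : ℕ) : ℚ_[p] :=
  (1 - (p : ℚ_[p]) ^ (k - 1)) * ((bernoulli k : ℚ) : ℚ_[p]) / k

/-- **Voronoi's congruence**: `(c ^ k - 1) X_k ≡ ∑ (c a) ^ (k - 1) ⌊c a / p ^ M⌋
mod p ^ (M - v_p(k))`. -/
theorem voronoi_pow (hp5 : 5 ≤ p) {k c M : ℕ} (hk : Even k) (hk0 : 0 < k) (hM : 2 ≤ M)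
    (hc : ¬ p ∣ c) : ‖((c : ℚ_[p]) ^ k - 1) * xb p k - (vsum p M c k : ℕ)‖ ≤
      (p : ℝ) ^ ((padicValNat p k : ℤ) - M) := by
  have h0 := (Padic.norm_int_le_pow_iff_dvd _ (2 * M)).mpr (sq_dvd_sum hk0 (by omega) hc)
  simp only [Int.cast_sub, Int.cast_mul, Int.cast_pow, Int.cast_sum, Int.cast_natCast,
      Int.cast_one] at h0
  have h1 := norm_sum_ucop_sub_le hp5 hk hk0 hM
  set S : ℚ_[p] := ∑ a ∈ ucop p M, (a : ℚ_[p]) ^ k
  have hk1 : (k : ℚ_[p]) ≠ 0 := by exact_mod_cast hk0.ne'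
  set V : ℚ_[p] := ((vsum p M c k : ℕ) : ℚ_[p])
  have hck : ‖(c : ℚ_[p]) ^ k - 1‖ ≤ 1 := by
    have := Padic.norm_int_le_one (p := p) ((c : ℤ) ^ k - 1)
    push_cast at this
    exact this
  have h2 : (p : ℚ_[p]) ^ M * (k * (((c : ℚ_[p]) ^ k - 1) * xb p k - V)) =
      (((c : ℚ_[p]) ^ k - 1) * S - k * (p : ℚ_[p]) ^ M * V) -
      ((c : ℚ_[p]) ^ k - 1) * (S - p ^ M * ((1 - (p : ℚ_[p]) ^ (k - 1)) *
        ((bernoulli k : ℚ) : ℚ_[p]))) := by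
    rw [xb]
    field_simp
    ring
  have h3 : ‖(p : ℚ_[p]) ^ M * (k * (((c : ℚ_[p]) ^ k - 1) * xb p k - V))‖ ≤
      (p : ℝ) ^ (-(2 * M : ℕ) : ℤ) := by
    rw [h2]
    refine (norm_sub_le_max' _ _).trans (max_le ?_ ?_)
    · exact h0
    · rw [norm_mul]
      calc _ ≤ 1 * (p : ℝ) ^ (-(2 * M : ℕ) : ℤ) := mul_le_mul hck h1 (norm_nonneg _) zero_le_one
        _ = _ := one_mul _
  rw [norm_mul, norm_mul, Padic.norm_p_pow, norm_natCast_eq hk0.ne'] at h3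
  have h4 : (p : ℝ) ^ (-(2 * M : ℕ) : ℤ) = (p : ℝ) ^ (-(M : ℤ)) *
      ((p : ℝ) ^ (-(padicValNat p k : ℤ)) * (p : ℝ) ^ ((padicValNat p k : ℤ) - M)) := by
    rw [← zpow_add₀ p_pos.ne', ← zpow_add₀ p_pos.ne']
    congr 1
    push_cast
    ring
  rw [h4] at h3
  exact le_of_mul_le_mul_left (le_of_mul_le_mul_left h3 (zpow_pos p_pos _)) (zpow_pos p_pos _)

end voronoi

section kummer

theorem five_le {m : ℕ} (hm : Even m) (hd : ¬ (p - 1) ∣ m) : 5 ≤ p := by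
  by_contra h
  have h2 := hp.out.two_le
  have h3 : p = 2 ∨ p = 3 ∨ p = 4 := by omega
  rcases h3 with rfl | rfl | rfl
  · exact hd (one_dvd _)
  · exact hd hm.two_dvd
  · exact absurd hp.out (by norm_num)

/-- A primitive root modulo `p`. -/
theorem exists_root : ∃ c : ℕ, ¬ p ∣ c ∧ ∀ m : ℕ, ¬ (p - 1) ∣ m → ¬ (p : ℤ) ∣ (c : ℤ) ^ m - 1 := by
  obtain ⟨g, hg⟩ := IsCyclic.exists_generator (α := (ZMod p)ˣ)
  have h1 : orderOf g = p - 1 := by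
    rw [orderOf_eq_card_of_forall_mem_zpowers hg, Nat.card_eq_fintype_card, ZMod.card_units]
  have h2 : (((g : ZMod p).val : ℕ) : ZMod p) = g := ZMod.natCast_zmod_val _
  refine ⟨(g : ZMod p).val, fun h => ?_, fun m hm h => hm ?_⟩
  · rw [← ZMod.natCast_eq_zero_iff, h2] at h
    exact g.ne_zero h
  · rw [← ZMod.intCast_zmod_eq_zero_iff_dvd] at h
    push_cast at h
    rw [h2, sub_eq_zero] at h
    rw [← h1]
    refine orderOf_dvd_of_pow_eq_one (Units.ext ?_)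
    rw [Units.val_pow_eq_pow_val, h, Units.val_one]

theorem pow_modEq {x m n r : ℕ} (hx : ¬ p ∣ x) (h : m ≡ n [MOD (p - 1) * p ^ r]) :
    ((p : ℤ) ^ (r + 1)) ∣ (x : ℤ) ^ m - (x : ℤ) ^ n := by
  have hco : Nat.Coprime x (p ^ (r + 1)) :=
    (Nat.Coprime.pow_left _ ((Nat.Prime.coprime_iff_not_dvd hp.out).mpr hx)).symm
  set u : (ZMod (p ^ (r + 1)))ˣ := ZMod.unitOfCoprime x hco with hu
  have h1 : orderOf u ∣ (p - 1) * p ^ r := by
    have : NeZero (p ^ (r + 1)) := ⟨(pow_pos hp.out.pos _).ne'⟩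
    have h2 := orderOf_dvd_card (x := u)
    rwa [ZMod.card_units_eq_totient, Nat.totient_prime_pow_succ hp.out, mul_comm] at h2
  have h2 : u ^ m = u ^ n := pow_eq_pow_iff_modEq.mpr (h.of_dvd h1)
  have h3 := congrArg (Units.val) h2
  rw [Units.val_pow_eq_pow_val, Units.val_pow_eq_pow_val, hu, ZMod.coe_unitOfCoprime] at h3
  have h4 : (((x : ℤ) ^ m - (x : ℤ) ^ n : ℤ) : ZMod (p ^ (r + 1))) = 0 := by
    push_cast
    rw [h3, sub_self]
  have h5 := (ZMod.intCast_zmod_eq_zero_iff_dvd _ _).mp h4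
  rwa [Nat.cast_pow] at h5

theorem vsum_congr {c M m n r : ℕ} (hc : ¬ p ∣ c) (hm0 : 0 < m) (hn0 : 0 < n)
    (h : m ≡ n [MOD (p - 1) * p ^ r]) :
    ‖((vsum p M c m : ℕ) : ℚ_[p]) - (vsum p M c n : ℕ)‖ ≤ (p : ℝ) ^ (-((r + 1 : ℕ) : ℤ)) := by
  have h1 : m - 1 ≡ n - 1 [MOD (p - 1) * p ^ r] := by
    refine Nat.ModEq.add_right_cancel' 1 ?_
    rwa [Nat.sub_add_cancel hm0, Nat.sub_add_cancel hn0]
  have h2 : ((p : ℤ) ^ (r + 1)) ∣ ((vsum p M c m : ℕ) : ℤ) - ((vsum p M c n : ℕ) : ℤ) := by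
    rw [vsum, vsum, Nat.cast_sum, Nat.cast_sum, ← sum_sub_distrib]
    refine Finset.dvd_sum fun a ha => ?_
    have ha' := (mem_filter.mp ha).2
    have h3 := pow_modEq (x := c * a) (fun h => (hp.out.dvd_mul.mp h).elim hc ha') h1
    have h4 : (((c * a) ^ (m - 1) * (c * a / p ^ M) : ℕ) : ℤ) -
        (((c * a) ^ (n - 1) * (c * a / p ^ M) : ℕ) : ℤ) =
        (((c * a : ℕ) : ℤ) ^ (m - 1) - ((c * a : ℕ) : ℤ) ^ (n - 1)) *
          ((c * a / p ^ M : ℕ) : ℤ) := by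
      push_cast
      ring
    rw [h4]
    exact h3.mul_right _
  have h3 := (Padic.norm_int_le_pow_iff_dvd _ (r + 1)).mpr h2
  push_cast at h3 ⊢
  exact h3

theorem norm_pow_sub_one {c m : ℕ} (h : ¬ (p : ℤ) ∣ (c : ℤ) ^ m - 1) :
    ‖(c : ℚ_[p]) ^ m - 1‖ = 1 := by
  have h5 := Padic.norm_int_le_one (p := p) ((c : ℤ) ^ m - 1)
  have h6 := mt Padic.norm_intCast_lt_one_iff.mp h
  push_cast at h5 h6
  exact le_antisymm h5 (not_lt.mp h6)

/-- `X_m` is `p`-integral if `p - 1 ∤ m`. -/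
theorem norm_xb_le {m : ℕ} (hm : Even m) (hm0 : 0 < m) (hd : ¬ (p - 1) ∣ m) : ‖xb p m‖ ≤ 1 := by
  have hp5 := five_le hm hd
  obtain ⟨c, hc, hroot⟩ := exists_root (p := p)
  have h1 := voronoi_pow hp5 (c := c) (M := padicValNat p m + 2) hm hm0 (by omega) hc
  have h2 : (p : ℝ) ^ ((padicValNat p m : ℤ) - (padicValNat p m + 2 : ℕ)) ≤ 1 := by
    refine zpow_le_one_of_nonpos₀ one_le_p ?_
    push_cast
    omega
  have h3 : ‖((c : ℚ_[p]) ^ m - 1) * xb p m‖ ≤ 1 := by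
    have h4 := IsUltrametricDist.norm_add_le_max
      (((c : ℚ_[p]) ^ m - 1) * xb p m - (vsum p (padicValNat p m + 2) c m : ℕ))
      ((vsum p (padicValNat p m + 2) c m : ℕ) : ℚ_[p])
    rw [sub_add_cancel] at h4
    exact h4.trans (max_le (h1.trans h2) (norm_nat_le _))
  rwa [norm_mul, norm_pow_sub_one (hroot m hd), one_mul] at h3

/-- **Kummer's congruences** (1851): for even positive `m ≡ n mod (p - 1) p ^ r`, not divisible by
`p - 1`: `(1 - p ^ (m - 1)) B_m / m ≡ (1 - p ^ (n - 1)) B_n / n mod p ^ (r + 1)`. -/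
theorem kummer_congruence {m n r : ℕ} (hm : Even m) (hm0 : 0 < m) (hn0 : 0 < n)
    (hd : ¬ (p - 1) ∣ m) (h : m ≡ n [MOD (p - 1) * p ^ r]) :
    ‖(1 - (p : ℚ_[p]) ^ (m - 1)) * ((bernoulli m : ℚ) : ℚ_[p]) / m -
      (1 - (p : ℚ_[p]) ^ (n - 1)) * ((bernoulli n : ℚ) : ℚ_[p]) / n‖ ≤
      (p : ℝ) ^ (-((r + 1 : ℕ) : ℤ)) := by
  have hp5 := five_le hm hd
  have h1 : m ≡ n [MOD p - 1] := h.of_dvd (dvd_mul_right _ _)
  have hdn : ¬ (p - 1) ∣ n := fun h' => hd ((h1.dvd_iff dvd_rfl).mpr h')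
  have hn : Even n := by
    have h2 : m ≡ n [MOD 2] := h1.of_dvd (by
      obtain ⟨t, ht⟩ := hp.out.odd_of_ne_two (by omega)
      exact ⟨t, by omega⟩)
    rw [Nat.even_iff] at hm ⊢
    have h3 : m % 2 = n % 2 := h2
    omega
  obtain ⟨c, hc, hroot⟩ := exists_root (p := p)
  set M := padicValNat p m + padicValNat p n + r + 2 with hM
  have a1 := voronoi_pow hp5 (c := c) (M := M) hm hm0 (by omega) hc
  have a2 := voronoi_pow hp5 (c := c) (M := M) hn hn0 (by omega) hc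
  have a3 := vsum_congr (M := M) hc hm0 hn0 h
  have a4 : ‖(c : ℚ_[p]) ^ m - (c : ℚ_[p]) ^ n‖ ≤ (p : ℝ) ^ (-((r + 1 : ℕ) : ℤ)) := by
    have h3 := (Padic.norm_int_le_pow_iff_dvd _ (r + 1)).mpr (pow_modEq (r := r) hc h)
    push_cast at h3 ⊢
    exact h3
  have a5 := norm_xb_le hn hn0 hdn
  have b1 : (p : ℝ) ^ ((padicValNat p m : ℤ) - M) ≤ (p : ℝ) ^ (-((r + 1 : ℕ) : ℤ)) := by
    refine zpow_le_zpow_right₀ one_le_p ?_
    rw [hM]
    simp only [Nat.cast_add, Nat.cast_ofNat, Nat.cast_one]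
    omega
  have b2 : (p : ℝ) ^ ((padicValNat p n : ℤ) - M) ≤ (p : ℝ) ^ (-((r + 1 : ℕ) : ℤ)) := by
    refine zpow_le_zpow_right₀ one_le_p ?_
    rw [hM]
    simp only [Nat.cast_add, Nat.cast_ofNat, Nat.cast_one]
    omega
  change ‖xb p m - xb p n‖ ≤ _
  set Vm : ℚ_[p] := ((vsum p M c m : ℕ) : ℚ_[p])
  set Vn : ℚ_[p] := ((vsum p M c n : ℕ) : ℚ_[p])
  set q := (p : ℝ) ^ (-((r + 1 : ℕ) : ℤ))
  have h4 : ((c : ℚ_[p]) ^ m - 1) * (xb p m - xb p n) =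
      (((((c : ℚ_[p]) ^ m - 1) * xb p m - Vm) - (((c : ℚ_[p]) ^ n - 1) * xb p n - Vn)) -
        (Vn - Vm)) - ((c : ℚ_[p]) ^ m - (c : ℚ_[p]) ^ n) * xb p n := by
    ring
  have h5 : ‖((c : ℚ_[p]) ^ m - 1) * (xb p m - xb p n)‖ ≤ q := by
    rw [h4]
    refine (norm_sub_le_max' _ _).trans (max_le ((norm_sub_le_max' _ _).trans (max_le
      ((norm_sub_le_max' _ _).trans (max_le (a1.trans b1) (a2.trans b2))) ?_)) ?_)
    · rw [norm_sub_rev]
      exact a3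
    · rw [norm_mul]
      calc _ ≤ q * 1 := mul_le_mul a4 a5 (norm_nonneg _) (by positivity)
        _ = q := mul_one _
  rwa [norm_mul, norm_pow_sub_one (hroot m hd), one_mul] at h5

end kummer

end Fermat.Agent.Cor.Kum
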