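import Fermat.Agent.Corollaries.Ambi.Stop
import Fermat.Agent.Corollaries.Diri.Every
import Fermat.Agent.Corollaries.Diri.QuadDisc
import Mathlib.NumberTheory.LegendreSymbol.AddCharacter
import Mathlib.NumberTheory.NumberField.Cyclotomic.PID

/-!
# Kummer's example: `ℤ[ζ_23]` is not factorial

For a prime `p ≡ 3 mod 4` the field `ℚ(ζ_p)` contains the quadratic field `ℚ(√-p)`
(`exists_quadratic_subfield`); if the class number of the latter is prime to `(p - 1) / 2` then it
divides the class number of `ℚ(ζ_p)`. The class number of `ℚ(√-23)` is `3`; so `3` divides the class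
number of `ℚ(ζ_23)`.
-/

set_option autoImplicit false

noncomputable section

namespace Fermat.Agent.Cor.Kum

open NumberField IsCyclotomicExtension Module Polynomial

variable {p : ℕ} [hp : Fact p.Prime]

/-- `√-p` in `ℚ(ζ_p)`, `p ≡ 3 mod 4`: the quadratic Gauss sum. -/
theorem exists_sq_eq_neg (h4 : p % 4 = 3) (K : Type*) [Field K] [NumberField K]
    [hK : IsCyclotomicExtension {p} ℚ K] : ∃ g : K, g ^ 2 = -(p : K) := by
  have hζ := zeta_spec p ℚ K
  have h2 : ringChar (ZMod p) ≠ 2 := by
    rw [ZMod.ringChar_zmod_n]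
    rintro rfl
    omega
  set χ : MulChar (ZMod p) K := (quadraticChar (ZMod p)).ringHomComp (Int.castRingHom K) with hχ
  have hq : χ.IsQuadratic := (quadraticChar_isQuadratic (ZMod p)).comp _
  have hval : ∀ a, χ a = ((quadraticChar (ZMod p) a : ℤ) : K) := fun a => rfl
  have h1 : χ ≠ 1 := by
    obtain ⟨a, ha⟩ := quadraticChar_exists_neg_one h2
    intro h
    have h3 := hval a
    have ha0 : IsUnit a := by
      rw [isUnit_iff_ne_zero]
      rintro rfl
      rw [quadraticChar_zero] at ha
      norm_num at ha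
    rw [h, MulChar.one_apply ha0, ha] at h3
    norm_num at h3
  have hsq := gaussSum_sq h1 hq (AddChar.zmodChar_primitive_of_primitive_root p hζ)
  have hneg : χ (-1) = -1 := by
    rw [hval, quadraticChar_neg_one h2, ZMod.card, ZMod.χ₄_nat_three_mod_four h4]
    norm_num
  refine ⟨_, hsq.trans ?_⟩
  rw [hneg, ZMod.card]
  ring

/-- The quadratic subfield `ℚ(√-p)` of `ℚ(ζ_p)`, `p ≡ 3 mod 4`. -/
theorem exists_quadratic_subfield (h4 : p % 4 = 3) (K : Type*) [Field K] [NumberField K]
    [hK : IsCyclotomicExtension {p} ℚ K] : ∃ F : IntermediateField ℚ K,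
      finrank ℚ F = 2 ∧ discr F = -(p : ℤ) ∧ finrank F K = (p - 1) / 2 := by
  obtain ⟨g, hg⟩ := exists_sq_eq_neg h4 K
  have hint : IsIntegral ℚ g := Algebra.IsIntegral.isIntegral g
  have hirr : Irreducible (X ^ 2 - C (-(p : ℚ)) : ℚ[X]) := by
    rw [X_pow_sub_C_irreducible_iff_of_prime Nat.prime_two]
    intro b hb
    have h1 : 0 ≤ b ^ 2 := sq_nonneg b
    have h2 : (0 : ℚ) < p := by exact_mod_cast hp.out.pos
    linarith
  have hmin : minpoly ℚ g = X ^ 2 - C (-(p : ℚ)) := by
    refine (minpoly.eq_of_irreducible_of_monic hirr ?_ (monic_X_pow_sub_C _ two_ne_zero)).symm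
    rw [map_sub, map_pow, aeval_X, aeval_C, hg, map_neg, map_natCast, sub_self]
  set F := IntermediateField.adjoin ℚ {g} with hF
  have h2 : finrank ℚ F = 2 := by
    rw [hF, IntermediateField.adjoin.finrank hint, hmin, natDegree_X_pow_sub_C]
  have hgF : g ∈ F := IntermediateField.mem_adjoin_simple_self ℚ g
  have hα : (⟨g, hgF⟩ : F) ^ 2 = ((-(p : ℤ) : ℤ) : F) := by
    apply Subtype.ext
    rw [SubmonoidClass.coe_pow]
    push_cast
    exact hg
  have hsqf : Squarefree (-(p : ℤ)) := by
    have h5 : Squarefree (p : ℤ) := (Nat.prime_iff_prime_int.mp hp.out).squarefree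
    rwa [← Int.squarefree_natAbs, Int.natAbs_neg, Int.squarefree_natAbs]
  have hd := Diri.discr_eq_of_sq h2 hsqf (by have := hp.out.pos; omega) hα
  rw [if_pos (by omega)] at hd
  refine ⟨F, h2, hd, ?_⟩
  have h3 := finrank_mul_finrank ℚ F K
  rw [h2, IsCyclotomicExtension.Rat.finrank p K, Nat.totient_prime hp.out] at h3
  omega

/-- `h(ℚ(√-p)) ∣ h(ℚ(ζ_p))` if `h(ℚ(√-p))` is prime to `(p - 1) / 2`, `p ≡ 3 mod 4`. -/
theorem classNumber_dvd_of_coprime (h4 : p % 4 = 3) (h3 : 3 < p) {h : ℕ}
    (hh : (2 - legendreSym p 2) * (h : ℤ) =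
      ∑ a ∈ Finset.range ((p - 1) / 2), legendreSym p ((a + 1 : ℕ) : ℤ))
    (hco : h.Coprime ((p - 1) / 2)) (K : Type*) [Field K] [NumberField K]
    [IsCyclotomicExtension {p} ℚ K] : h ∣ classNumber K := by
  obtain ⟨F, h2, hd, hf⟩ := exists_quadratic_subfield h4 K
  have h5 := Diri.classNumber_neg_prime (p := p) (K := F) h2 (by rw [hd]; omega) h4 h3
  rw [← hh] at h5
  have h6 : (2 - legendreSym p 2 : ℤ) ≠ 0 := by
    have h7 : (2 : ZMod p) ≠ 0 := by
      intro h0
      have h8 : ((2 : ℕ) : ZMod p) = 0 := by exact_mod_cast h0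
      rw [ZMod.natCast_eq_zero_iff] at h8
      have := Nat.le_of_dvd two_pos h8
      omega
    rcases legendreSym.eq_one_or_neg_one p (a := 2) (by exact_mod_cast h7) with h8 | h8 <;>
      rw [h8] <;> norm_num
  have h7 : (classNumber F : ℤ) = h := mul_left_cancel₀ h6 h5
  have h8 : classNumber F = h := by exact_mod_cast h7
  rw [← h8]
  exact Ambi.classNumber_dvd (by rw [h8, hf]; exact hco)

private theorem prime_23 : Fact (Nat.Prime 23) := ⟨by norm_num⟩

private theorem prime_47 : Fact (Nat.Prime 47) := ⟨by norm_num⟩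

attribute [local instance] prime_23 prime_47

private theorem sum_23 : (2 - legendreSym 23 2) * ((3 : ℕ) : ℤ) =
    ∑ a ∈ Finset.range ((23 - 1) / 2), legendreSym 23 ((a + 1 : ℕ) : ℤ) := by
  decide +kernel

private theorem sum_47 : (2 - legendreSym 47 2) * ((5 : ℕ) : ℤ) =
    ∑ a ∈ Finset.range ((47 - 1) / 2), legendreSym 47 ((a + 1 : ℕ) : ℤ) := by
  decide +kernel

/-- **`3` divides the class number of `ℚ(ζ_23)`.** -/
theorem three_dvd_twentyThree (K : Type*) [Field K] [NumberField K]
    [IsCyclotomicExtension {23} ℚ K] : 3 ∣ classNumber K :=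
  classNumber_dvd_of_coprime (p := 23) (by norm_num) (by norm_num) sum_23 (by decide) K

/-- **Kummer (1844)**: unique factorization fails in the ring of integers of `ℚ(ζ_23)`. -/
theorem not_isPrincipalIdealRing_twentyThree (K : Type*) [Field K] [NumberField K]
    [IsCyclotomicExtension {23} ℚ K] : ¬ IsPrincipalIdealRing (𝓞 K) := by
  rw [← classNumber_eq_one_iff]
  intro h
  have h1 := three_dvd_twentyThree K
  rw [h] at h1
  norm_num at h1

/-- The ring of integers of `ℚ(ζ_23)` is not a unique factorization domain. -/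
theorem not_uniqueFactorizationMonoid_twentyThree (K : Type*) [Field K] [NumberField K]
    [IsCyclotomicExtension {23} ℚ K] : ¬ UniqueFactorizationMonoid (𝓞 K) := fun _ =>
  not_isPrincipalIdealRing_twentyThree K
    (IsPrincipalIdealRing.of_isDedekindDomain_of_uniqueFactorizationMonoid (𝓞 K))

/-- `5` divides the class number of `ℚ(ζ_47)`. -/
theorem five_dvd_fortySeven (K : Type*) [Field K] [NumberField K]
    [IsCyclotomicExtension {47} ℚ K] : 5 ∣ classNumber K :=
  classNumber_dvd_of_coprime (p := 47) (by norm_num) (by norm_num) sum_47 (by decide) K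

end Fermat.Agent.Cor.Kum
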