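import Fermat.Agent.Corollaries.Kum.Main
import Fermat.Agent.Corollaries.CFTP.ClassField

/-!
# Kummer's criterion for regular primes

For an odd prime `p` and `K = ℚ(ζ_p)`: **`p` does not divide the class number of `K` iff `p`
divides the numerator of none of the Bernoulli numbers `B_2, B_4, …, B_{p-3}`** (Kummer, 1850).
-/

set_option autoImplicit false

noncomputable section

namespace Fermat.Agent.Cor.Kum

open NumberField NumberField.IsCMField

/-- A number field whose class number is divisible by the odd prime `p` has a Galois extension of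
degree `p` which is unramified at all finite places. -/
theorem unrStmt {p : ℕ} [hp : Fact p.Prime] (hp2 : p ≠ 2) : UnrStmt p :=
  fun _ _ _ h => CFTP.exists_unramified (Or.inl hp2) h

variable (p : ℕ) [hp : Fact p.Prime]

/-- **Kummer's criterion for regular primes.** -/
theorem kummer_regular (hp2 : p ≠ 2) (K : Type) [Field K] [NumberField K]
    [IsCyclotomicExtension {p} ℚ K] :
    ¬ p ∣ classNumber K ↔
      ∀ k, Even k → 2 ≤ k → k ≤ p - 3 → ¬ (p : ℤ) ∣ (bernoulli k).num :=
  kummer_regular_of p (unrStmt hp2) hp2 K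

/-- If `p` divides the class number of `ℚ(ζ_p)⁺` then `p` divides the relative class number
`h / h⁺` of `ℚ(ζ_p)` (Kummer). -/
theorem padicValNat_lt (hp2 : p ≠ 2) (K : Type) [Field K] [NumberField K]
    [IsCyclotomicExtension {p} ℚ K] [IsCMField K]
    (h : p ∣ classNumber (maximalRealSubfield K)) :
    padicValNat p (classNumber (maximalRealSubfield K)) < padicValNat p (classNumber K) :=
  lt_of_dvd p (unrStmt hp2) hp2 K h

/-- `p` divides `h(ℚ(ζ_p))` iff it divides `h(ℚ(ζ_p)) / h(ℚ(ζ_p)⁺)`. -/
theorem dvd_classNumber_iff_lt (hp2 : p ≠ 2) (K : Type) [Field K] [NumberField K]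
    [IsCyclotomicExtension {p} ℚ K] [IsCMField K] :
    p ∣ classNumber K ↔
      padicValNat p (classNumber (maximalRealSubfield K)) < padicValNat p (classNumber K) := by
  rw [← not_iff_not, kummer_regular p hp2 K, Kummer.kummer_criterion p hp2 K]
  push Not
  rfl

/-- The same with the power sums: `p ∤ h(ℚ(ζ_p))` iff `p² ∤ 1 ^ k + 2 ^ k + ⋯ + (p - 1) ^ k` for
`k = 2, 4, …, p - 3`. -/
theorem regular_iff_sum (hp2 : p ≠ 2) (K : Type) [Field K] [NumberField K]
    [IsCyclotomicExtension {p} ℚ K] :
    ¬ p ∣ classNumber K ↔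
      ∀ k, Even k → 2 ≤ k → k ≤ p - 3 → ¬ p ^ 2 ∣ ∑ a ∈ Finset.range p, a ^ k := by
  rw [kummer_regular p hp2 K]
  have hp3 : 3 ≤ p := by
    have := hp.out.two_le
    omega
  refine forall_congr' fun k => forall_congr' fun h1 => forall_congr' fun h2 =>
    forall_congr' fun h3 => ?_
  rw [Kummer.sq_dvd_sum_iff p (by omega)]

end Fermat.Agent.Cor.Kum
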