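import Fermat.Agent.Corollaries.Kum.Ram
import Fermat.Agent.Corollaries.ZetaK.UnitIndex

/-!
# Kummer generators of unramified extensions of `ℚ(ζ_p)` which come from the real subfield

`K = ℚ(ζ_p)`, `p` an odd prime, `J` the complex conjugation of `K`, `M / K` cyclic of degree `p`,
unramified at all primes, `τ` an automorphism of `M` which extends `J` and commutes with
`Gal(M/K)`.

`exists_ideal`: there is an ideal `I` of `𝓞 K` which is not principal such that `I ^ p` and
`I * J I` are principal.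
-/

set_option autoImplicit false

noncomputable section

namespace Fermat.Agent.Cor.Kum

open NumberField NumberField.Units NumberField.IsCMField Ideal IsCyclotomicExtension Module

section gen

variable {K M : Type*} [Field K] [NumberField K] [Field M] [NumberField M] [Algebra K M]

/-- An integral Kummer generator. -/
theorem exists_generator (p : ℕ) [hp : Fact p.Prime] {ζ : K} (hζ : IsPrimitiveRoot ζ p)
    [IsGalois K M] (hM : finrank K M = p) :
    ∃ (b : 𝓞 K) (β : 𝓞 M), b ≠ 0 ∧ β ^ p = algebraMap (𝓞 K) (𝓞 M) b ∧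
      ∀ σ : M ≃ₐ[K] M, σ (β : M) = β → σ = 1 := by
  have hcyc : IsCyclic Gal(M/K) := isCyclic_of_prime_card (p := p) (by
    rw [IsGalois.card_aut_eq_finrank, hM])
  obtain ⟨α, ⟨a, ha⟩, hα⟩ := exists_root_adjoin_eq_top_of_isCyclic K M
    (by rw [hM]; exact ⟨ζ, (mem_primitiveRoots hp.out.pos).mpr hζ⟩)
  rw [hM] at ha
  obtain ⟨d, hd, hint⟩ := exists_integral_multiples ℤ ℚ ({α} : Finset M)
  have hint := hint α (Finset.mem_singleton_self α)
  set β : 𝓞 M := ⟨d • α, hint⟩ with hβ
  have hβc : (β : M) = (d : M) * α := by rw [hβ]; simp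
  have hb1 : (β : M) ^ p = algebraMap K M ((d : K) ^ p * a) := by
    rw [hβc, mul_pow, ← ha, map_mul, map_pow, map_intCast]
  have hbint : IsIntegral ℤ ((d : K) ^ p * a) := by
    have h1 : IsIntegral ℤ (algebraMap K M ((d : K) ^ p * a)) := by
      rw [← hb1]
      exact (RingOfIntegers.isIntegral_coe β).pow p
    exact (isIntegral_algebraMap_iff (FaithfulSMul.algebraMap_injective K M)).mp h1
  have hdM : (d : M) ≠ 0 := by exact_mod_cast hd
  have hfix : ∀ σ : M ≃ₐ[K] M, σ (β : M) = β → σ = 1 := by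
    intro σ hσ
    have h1 : σ α = α := by
      rw [hβc, map_mul, map_intCast] at hσ
      exact mul_left_cancel₀ hdM hσ
    have htop : Algebra.adjoin K {α} = ⊤ := by
      rw [← IntermediateField.adjoin_simple_toSubalgebra_of_isAlgebraic
        (Algebra.IsAlgebraic.isAlgebraic α), hα, IntermediateField.top_toSubalgebra]
    have h2 : (σ : M →ₐ[K] M) = AlgHom.id K M := by
      refine AlgHom.ext_of_adjoin_eq_top htop ?_
      rintro _ rfl
      exact h1
    exact AlgEquiv.ext fun x => DFunLike.congr_fun h2 x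
  refine ⟨⟨(d : K) ^ p * a, hbint⟩, β, ?_, ?_, hfix⟩
  · intro h0
    have h1 : (β : M) = 0 := by
      have h2 : ((d : K) ^ p * a) = 0 := congrArg (fun x : 𝓞 K => (x : K)) h0
      rw [h2, map_zero] at hb1
      exact (pow_eq_zero_iff hp.out.ne_zero).mp hb1
    have h2 : ∀ σ : M ≃ₐ[K] M, σ = 1 := fun σ => hfix σ (by rw [h1, map_zero])
    have h3 : Nat.card Gal(M/K) = p := by rw [IsGalois.card_aut_eq_finrank, hM]
    have h4 : Nat.card Gal(M/K) = 1 := Nat.card_eq_one_iff_unique.mpr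
      ⟨⟨fun x y => by rw [h2 x, h2 y]⟩, ⟨1⟩⟩
    rw [h3] at h4
    exact hp.out.one_lt.ne' h4
  · apply RingOfIntegers.ext
    change (β : M) ^ p = algebraMap K M ((d : K) ^ p * a)
    exact hb1

/-- `Gal(M/K)` acts on a Kummer generator by `p`-th roots of unity of `K`. -/
theorem exists_pow_of_root {p : ℕ} [hp : Fact p.Prime] {ζ : K} (hζ : IsPrimitiveRoot ζ p) {x : M}
    (hx : x ^ p = 1) : ∃ i : ℕ, x = algebraMap K M (ζ ^ i) := by
  have h1 := hζ.map_of_injective (FaithfulSMul.algebraMap_injective K M)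
  obtain ⟨i, -, hi⟩ := h1.eq_pow_of_pow_eq_one hx
  exact ⟨i, by rw [map_pow, hi]⟩

theorem complexConj_root {p : ℕ} [hp : Fact p.Prime] [IsCMField K] {x : K} (hx : x ^ p = 1) :
    complexConj K x * x = 1 := by
  have hint : IsIntegral ℤ x := IsIntegral.of_pow hp.out.pos (by rw [hx]; exact isIntegral_one)
  obtain ⟨X, hX⟩ : ∃ X : 𝓞 K, (X : K) = x := ⟨⟨x, hint⟩, rfl⟩
  have hXp : X ^ p = 1 := by
    apply RingOfIntegers.ext
    rw [RingOfIntegers.coe_eq_algebraMap, RingOfIntegers.coe_eq_algebraMap, map_pow, map_one,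
      ← RingOfIntegers.coe_eq_algebraMap, hX, hx]
  obtain ⟨u, hu⟩ : ∃ u : (𝓞 K)ˣ, (u : 𝓞 K) = X := IsUnit.of_pow_eq_one hXp hp.out.ne_zero
  have hux : ((u : 𝓞 K) : K) = x := by rw [hu, hX]
  have ht : u ∈ torsion K := by
    rw [torsion, CommGroup.mem_torsion, isOfFinOrder_iff_pow_eq_one]
    refine ⟨p, hp.out.pos, Units.ext ?_⟩
    rw [Units.val_pow_eq_pow_val, hu, hXp, Units.val_one]
  have h1 := complexConj_torsion K ⟨u, ht⟩
  have h2 : complexConj K x = x⁻¹ := by
    have h3 : (((⟨u, ht⟩ : torsion K) : (𝓞 K)ˣ) : K) = x := hux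
    rw [h3] at h1
    exact h1
  have hx0 : x ≠ 0 := by
    rintro rfl
    rw [zero_pow hp.out.ne_zero] at hx
    exact zero_ne_one hx
  rw [h2, inv_mul_cancel₀ hx0]

end gen

/-- An element of `M` which is fixed by an automorphism `σ ≠ 1` of `M / K`, `[M : K] = p`, is in
`K`. -/
theorem mem_of_fixed {K M : Type*} [Field K] [Field M] [Algebra K M] [FiniteDimensional K M]
    [IsGalois K M] {p : ℕ} [hp : Fact p.Prime] (hM : finrank K M = p) {σ : M ≃ₐ[K] M}
    (hσ : σ ≠ 1) {x : M} (hx : σ x = x) : ∃ y : K, algebraMap K M y = x := by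
  have h1 : ∀ g : M ≃ₐ[K] M, g x = x := by
    intro g
    have h2 : g ∈ Subgroup.zpowers σ := by
      have h3 := zpowers_eq_top_of_prime_card (G := M ≃ₐ[K] M) (p := p) (g := σ)
        (by rw [IsGalois.card_aut_eq_finrank, hM]) hσ
      rw [h3]
      exact Subgroup.mem_top g
    obtain ⟨n, rfl⟩ := Subgroup.mem_zpowers_iff.mp h2
    have h4 : σ ∈ MulAction.stabilizer (M ≃ₐ[K] M) x := hx
    exact (MulAction.stabilizer (M ≃ₐ[K] M) x).zpow_mem h4 n
  exact (IsGalois.mem_range_algebraMap_iff_fixed x).mpr h1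

/-- A unit `u` of `ℚ(ζ_p)` such that `u J(u)` is a `p`-th power is a `p`-th power times a root of
unity. -/
theorem unit_lemma (p : ℕ) [hp : Fact p.Prime] (hp2 : p ≠ 2) {K : Type*} [Field K] [NumberField K]
    [hK : IsCyclotomicExtension {p} ℚ K] [IsCMField K] (u : (𝓞 K)ˣ) {w : K}
    (h : (u : K) * complexConj K (u : K) = w ^ p) :
    ∃ s t : K, s ≠ 0 ∧ (u : K) = s ^ p * t ∧ t ^ (2 * p) = 1 := by
  have hodd := hp.out.odd_of_ne_two hp2
  have h1 := RelClass.indexRealUnits_prime p hp2 K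
  have h2 : realUnits K ⊔ torsion K = ⊤ := Subgroup.index_eq_one.mp h1
  have h3 : u ∈ realUnits K ⊔ torsion K := by rw [h2]; exact Subgroup.mem_top u
  obtain ⟨r, hr, t, ht, hrt⟩ := Subgroup.mem_sup.mp h3
  obtain ⟨v, hv⟩ := (mem_realUnits_iff K r).mp hr
  have hu0 : (u : K) ≠ 0 := coe_ne_zero u
  have hrc : complexConj K (r : K) = r := by
    have h4 : (r : K) = algebraMap (maximalRealSubfield K) K (v : maximalRealSubfield K) := by
      have := congrArg (fun x : 𝓞 K => (x : K)) hv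
      exact this.symm
    rw [h4]
    exact complexConj_apply_eq_self K _
  have htc : complexConj K (t : K) = (t : K)⁻¹ := complexConj_torsion K ⟨t, ht⟩
  have ht0 : (t : K) ≠ 0 := coe_ne_zero t
  have hr0 : (r : K) ≠ 0 := coe_ne_zero r
  have hut : (u : K) = r * t := by
    rw [← hrt]
    rfl
  have hw : w ^ p = (r : K) ^ 2 := by
    rw [← h, hut, map_mul, hrc, htc]
    field_simp
  have hw0 : w ≠ 0 := by
    rintro rfl
    rw [zero_pow hp.out.ne_zero] at hw
    exact (pow_ne_zero 2 hr0) hw.symm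
  have htp : (t : K) ^ (2 * p) = 1 := by
    have h5 : t ^ torsionOrder K = 1 := by
      have := pow_card_eq_one' (x := (⟨t, ht⟩ : torsion K))
      exact congrArg (fun x : torsion K => (x : (𝓞 K)ˣ)) this
    rw [IsCyclotomicExtension.Rat.torsionOrder_eq (n := p),
      if_neg (Nat.not_even_iff_odd.mpr hodd)] at h5
    have h6 := congrArg (fun x : (𝓞 K)ˣ => (x : K)) h5
    simpa using h6
  obtain ⟨m, hm⟩ := hodd
  refine ⟨r / w ^ m, t, div_ne_zero hr0 (pow_ne_zero m hw0), ?_, htp⟩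
  have h7 : (r / w ^ m : K) ^ p = r := by
    rw [div_pow, ← pow_mul, mul_comm m p, pow_mul, hw, ← pow_mul, div_eq_iff (pow_ne_zero _ hr0)]
    nth_rewrite 1 [hm]
    ring
  rw [h7, hut]

end Fermat.Agent.Cor.Kum
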