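import Fermat.Agent.Corollaries.Kum.Gen

/-!
# The ideal of an unramified extension of degree `p` of `ℚ(ζ_p)⁺`

`exists_ideal`: `K = ℚ(ζ_p)`, `p` an odd prime, `J` the complex conjugation, `M / K` cyclic of
degree `p` and unramified, `τ` an automorphism of `M` which extends `J` and commutes with
`Gal(M/K)`. There is an ideal `I` of `𝓞 K` which is not principal such that `I ^ p` and `I * J I`
are principal.
-/

set_option autoImplicit false

noncomputable section

namespace Fermat.Agent.Cor.Kum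

open NumberField NumberField.Units NumberField.IsCMField Ideal IsCyclotomicExtension Module

theorem exists_ideal (p : ℕ) [hp : Fact p.Prime] (hp2 : p ≠ 2) {K M : Type*} [Field K]
    [NumberField K] [hK : IsCyclotomicExtension {p} ℚ K] [IsCMField K] [Field M] [NumberField M]
    [Algebra K M] [IsGalois K M] (hM : finrank K M = p)
    (hunr : ∀ P : Ideal (𝓞 M), P.IsPrime → P ≠ ⊥ → P.ramificationIdx (𝓞 K) = 1)
    (τ : M ≃+* M) (hτ : ∀ x : K, τ (algebraMap K M x) = algebraMap K M (complexConj K x))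
    (hcomm : ∀ (σ : M ≃ₐ[K] M) (x : M), σ (τ x) = τ (σ x)) :
    ∃ I : Ideal (𝓞 K), I ≠ ⊥ ∧ ¬ I.IsPrincipal ∧ (I ^ p).IsPrincipal ∧
      (I * I.map (RingOfIntegers.mapRingEquiv (complexConj K).toRingEquiv :
        𝓞 K →+* 𝓞 K)).IsPrincipal := by
  have hζ := zeta_spec p ℚ K
  set ζ := zeta p ℚ K with hζd
  set J' : 𝓞 K →+* 𝓞 K :=
    (RingOfIntegers.mapRingEquiv (complexConj K).toRingEquiv : 𝓞 K →+* 𝓞 K) with hJ'
  have hJ'c : ∀ x : 𝓞 K, ((J' x : 𝓞 K) : K) = complexConj K (x : K) := fun x => rfl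
  obtain ⟨b, β, hb0, hβ, hfix⟩ := exists_generator (M := M) p hζ hM
  have hβM : (β : M) ^ p = algebraMap K M (b : K) := by
    have := congrArg (fun x : 𝓞 M => (x : M)) hβ
    simpa using! this
  have hbK : (b : K) ≠ 0 := fun h => hb0 (RingOfIntegers.ext h)
  have hβ0 : (β : M) ≠ 0 := by
    intro h
    rw [h, zero_pow hp.out.ne_zero] at hβM
    exact hbK ((map_eq_zero _).mp hβM.symm)
  -- an automorphism `σ ≠ 1`
  obtain ⟨σ, hσ⟩ : ∃ σ : M ≃ₐ[K] M, σ ≠ 1 := by
    have h3 : Nat.card (M ≃ₐ[K] M) = p := by rw [IsGalois.card_aut_eq_finrank, hM]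
    have : Nontrivial (M ≃ₐ[K] M) := by
      rw [← Finite.one_lt_card_iff_nontrivial, h3]
      exact hp.out.one_lt
    exact exists_ne 1
  obtain ⟨i, hi⟩ : ∃ i : ℕ, σ (β : M) / β = algebraMap K M (ζ ^ i) := by
    refine exists_pow_of_root hζ ?_
    rw [div_pow, ← map_pow, hβM, AlgEquiv.commutes, div_self]
    rwa [Ne, map_eq_zero]
  set ω : K := ζ ^ i with hω
  have hωp : ω ^ p = 1 := by rw [hω, ← pow_mul, mul_comm, pow_mul, hζ.pow_eq_one, one_pow]
  have hω1 : ω ≠ 1 := by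
    intro h
    rw [h, map_one, div_eq_one_iff_eq hβ0] at hi
    exact hσ (hfix σ hi)
  have hσβ : σ (β : M) = algebraMap K M ω * β := by rw [← hi, div_mul_cancel₀ _ hβ0]
  have hJω : complexConj K ω * ω = 1 := complexConj_root hωp
  -- `c = β τ(β)` is in `K`
  set τ' : 𝓞 M →+* 𝓞 M := (RingOfIntegers.mapRingEquiv τ : 𝓞 M →+* 𝓞 M) with hτ'
  have hτ'c : ∀ x : 𝓞 M, ((τ' x : 𝓞 M) : M) = τ (x : M) := fun x => rfl
  have hσc : σ ((β : M) * τ (β : M)) = (β : M) * τ (β : M) := by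
    rw [map_mul, hcomm, hσβ, map_mul, hτ]
    have h1 : algebraMap K M (complexConj K ω) * algebraMap K M ω = 1 := by
      rw [← map_mul, hJω, map_one]
    linear_combination ((β : M) * τ (β : M)) * h1
  obtain ⟨c, hc⟩ := mem_of_fixed hM hσ hσc
  have hcint : IsIntegral ℤ c := by
    have h1 : IsIntegral ℤ (algebraMap K M c) := by
      rw [hc]
      exact (RingOfIntegers.isIntegral_coe β).mul (RingOfIntegers.isIntegral_coe (τ' β))
    exact (isIntegral_algebraMap_iff (FaithfulSMul.algebraMap_injective K M)).mp h1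
  obtain ⟨c', hc'⟩ : ∃ c' : 𝓞 K, (c' : K) = c := ⟨⟨c, hcint⟩, rfl⟩
  have hbJ : (b : K) * complexConj K (b : K) = c ^ p := by
    apply (algebraMap K M).injective
    rw [map_mul, ← hτ, ← hβM, map_pow, map_pow, hc, mul_pow]
  have hbJ' : b * J' b = c' ^ p := by
    apply RingOfIntegers.ext
    rw [RingOfIntegers.coe_eq_algebraMap, RingOfIntegers.coe_eq_algebraMap, map_mul, map_pow,
      ← RingOfIntegers.coe_eq_algebraMap, ← RingOfIntegers.coe_eq_algebraMap,
      ← RingOfIntegers.coe_eq_algebraMap, hJ'c, hbJ, hc']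
  -- the ideal
  obtain ⟨I, hI⟩ := exists_pow_eq hunr hb0 hβ
  have hI0 : I ≠ ⊥ := by
    rintro rfl
    rw [← Ideal.zero_eq_bot, zero_pow hp.out.ne_zero, Ideal.zero_eq_bot, eq_comm,
      span_singleton_eq_bot] at hI
    exact hb0 hI
  have hIJ : I * I.map J' = span {c'} := by
    refine eq_of_pow_eq hp.out.ne_zero ?_
    rw [mul_pow, ← Ideal.map_pow, hI, Ideal.map_span, Set.image_singleton,
      span_singleton_mul_span_singleton, hbJ', span_singleton_pow]
  refine ⟨I, hI0, ?_, ⟨⟨b, hI⟩⟩, ⟨⟨c', hIJ⟩⟩⟩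
  -- `I` is not principal
  rintro ⟨⟨a, ha⟩⟩
  have ha' : I = span {a} := ha
  have ha0 : a ≠ 0 := by
    rintro rfl
    exact hI0 (by rw [ha', span_singleton_eq_bot])
  have haK : (a : K) ≠ 0 := fun h => ha0 (RingOfIntegers.ext h)
  rw [ha', span_singleton_pow, span_singleton_eq_span_singleton] at hI
  obtain ⟨u, hu⟩ := hI
  have huK : (a : K) ^ p * (u : K) = (b : K) := by
    have := congrArg (fun x : 𝓞 K => (x : K)) hu
    simpa using! this
  have hJa0 : complexConj K (a : K) ≠ 0 := by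
    rwa [Ne, map_eq_zero_iff _ (complexConj K).injective]
  have huJ : (u : K) * complexConj K (u : K) = (c / (a * complexConj K (a : K))) ^ p := by
    have h1 : complexConj K (b : K) = complexConj K (a : K) ^ p * complexConj K (u : K) := by
      rw [← huK, map_mul, map_pow]
    rw [div_pow, eq_div_iff (pow_ne_zero _ (mul_ne_zero haK hJa0)), ← hbJ, h1, ← huK]
    ring
  obtain ⟨s, t, hs0, hst, ht⟩ := unit_lemma p hp2 u huJ
  have has : algebraMap K M (a * s) ≠ 0 := by
    rw [Ne, map_eq_zero]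
    exact mul_ne_zero haK hs0
  set γ : M := β / algebraMap K M (a * s) with hγ
  have hγp : γ ^ p = algebraMap K M t := by
    rw [hγ, div_pow, hβM, ← map_pow, ← map_div₀]
    congr 1
    rw [← huK, hst]
    field_simp
    ring
  have hσγ : σ γ = algebraMap K M ω * γ := by
    rw [hγ, map_div₀, AlgEquiv.commutes, hσβ, mul_div_assoc]
  have hγ0 : γ ≠ 0 := div_ne_zero hβ0 has
  have hω2 : ω ^ 2 ≠ 1 := by
    intro h
    obtain ⟨m, hm⟩ := hp.out.odd_of_ne_two hp2
    rw [hm, pow_succ, pow_mul, h, one_pow, one_mul] at hωp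
    exact hω1 hωp
  have hθp : (γ ^ 2) ^ p ≠ 1 := by
    intro h
    obtain ⟨j, hj⟩ := exists_pow_of_root hζ h
    have h1 : σ (γ ^ 2) = γ ^ 2 := by rw [hj, AlgEquiv.commutes]
    rw [map_pow, hσγ, mul_pow, ← map_pow] at h1
    have h2 : algebraMap K M (ω ^ 2) = 1 :=
      mul_right_cancel₀ (pow_ne_zero 2 hγ0) (by rw [h1, one_mul])
    rw [← (algebraMap K M).map_one] at h2
    exact hω2 ((algebraMap K M).injective h2)
  have hθpp : (γ ^ 2) ^ p ^ (1 + 1) = 1 := by
    have h1 : (γ ^ 2) ^ p ^ (1 + 1) = (γ ^ p) ^ (2 * p) := by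
      rw [← pow_mul, ← pow_mul]
      congr 1
      ring
    rw [h1, hγp, ← map_pow, ht, map_one]
  have hord := orderOf_eq_prime_pow (x := γ ^ 2) (p := p) (n := 1) (by rwa [pow_one]) hθpp
  have hprim : IsPrimitiveRoot (γ ^ 2) (p ^ 2) := by
    have := IsPrimitiveRoot.orderOf (γ ^ 2)
    rwa [hord] at this
  exact not_primitive p hunr hprim

end Fermat.Agent.Cor.Kum
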