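import Fermat.Agent.Corollaries.Kum.Congr
import Fermat.Agent.Corollaries.ZetaK.Kummer

/-!
# There are infinitely many irregular primes

* `irregular_of_dvd_num`: a prime in the numerator of `B_N / N` (`N` even) is irregular, i. e. it
  divides the numerator of one of `B_2, B_4, …, B_{p-3}`;
* `exists_irregular`: **there are infinitely many irregular primes** (Jensen 1915; the proof is
  Carlitz's, 1954);
* `infinite_dvd_classNumber`: **there are infinitely many primes `p` which divide the class number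
  of `ℚ(ζ_p)`**.
-/

set_option autoImplicit false

noncomputable section

universe u

namespace Fermat.Agent.Cor.Kum

open Finset NumberField Filter

section local_part

variable {p : ℕ} [hp : Fact p.Prime]

theorem norm_lt_one_of_dvd_num {x : ℚ} (h : (p : ℤ) ∣ x.num) : ‖(x : ℚ_[p])‖ < 1 := by
  have hden : ¬ p ∣ x.den := fun hd => by
    have h1 : p ∣ x.num.natAbs := Int.natCast_dvd.mp h
    have h2 := Nat.dvd_gcd h1 hd
    rw [x.reduced] at h2
    exact hp.out.one_lt.ne' (Nat.dvd_one.mp h2)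
  have h1 : (x : ℚ_[p]) * ((x.den : ℕ) : ℚ_[p]) = ((x.num : ℤ) : ℚ_[p]) := by
    have h2 := congrArg (Rat.cast : ℚ → ℚ_[p]) (Rat.mul_den_eq_num x)
    push_cast at h2
    exact h2
  have h2 : ‖((x.den : ℕ) : ℚ_[p])‖ = 1 := Padic.norm_natCast_eq_one_iff.mpr
    ((Nat.Prime.coprime_iff_not_dvd hp.out).mpr hden)
  have h3 := congrArg norm h1
  rw [norm_mul, h2, mul_one] at h3
  rw [h3]
  exact Padic.norm_intCast_lt_one_iff.mpr h

theorem norm_one_sub_pow {j : ℕ} (hj : 0 < j) : ‖1 - (p : ℚ_[p]) ^ j‖ = 1 := by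
  rw [norm_sub_rev]
  refine norm_pow_sub_one fun h => ?_
  have h1 : (p : ℤ) ∣ (p : ℤ) ^ j := dvd_pow_self _ hj.ne'
  have h2 := dvd_sub h1 h
  rw [sub_sub_cancel] at h2
  have h3 := Int.natCast_dvd_natCast.mp (show ((p : ℕ) : ℤ) ∣ ((1 : ℕ) : ℤ) by simpa using h2)
  exact hp.out.one_lt.ne' (Nat.dvd_one.mp h3)

/-- If `p` divides the numerator of `B_N / N`, `N` even, then `p - 1` does not divide `N`. -/
theorem not_dvd_of_dvd_num {N : ℕ} (hN : Even N) (h0 : 0 < N)
    (h : (p : ℤ) ∣ (bernoulli N / N).num) : ¬ (p - 1) ∣ N := by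
  intro hd
  have h1 := norm_lt_one_of_dvd_num h
  have h2 := norm_bernoulli_of_dvd hN h0 hd
  have h3 : ((bernoulli N : ℚ) : ℚ_[p]) = ((bernoulli N / N : ℚ) : ℚ_[p]) * ((N : ℕ) : ℚ_[p]) := by
    have hN0 : ((N : ℕ) : ℚ_[p]) ≠ 0 := by exact_mod_cast h0.ne'
    push_cast
    field_simp
  have h4 := congrArg norm h3
  rw [h2, norm_mul] at h4
  have h5 : ‖((bernoulli N / N : ℚ) : ℚ_[p])‖ * ‖((N : ℕ) : ℚ_[p])‖ ≤ 1 * 1 :=
    mul_le_mul h1.le (norm_nat_le N) (norm_nonneg _) zero_le_one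
  have hp1 : (1 : ℝ) < p := by exact_mod_cast hp.out.one_lt
  rw [← h4] at h5
  linarith

/-- **A prime in the numerator of `B_N / N` is irregular**; more precisely it divides the numerator
of `B_m`, `m ≡ N mod p - 1`. -/
theorem dvd_num_mod {N : ℕ} (hN : Even N) (h0 : 0 < N)
    (h : (p : ℤ) ∣ (bernoulli N / N).num) :
    Even (N % (p - 1)) ∧ 2 ≤ N % (p - 1) ∧ N % (p - 1) ≤ p - 3 ∧
      (p : ℤ) ∣ (bernoulli (N % (p - 1))).num := by
  have hd := not_dvd_of_dvd_num hN h0 h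
  have hp5 := five_le hN hd
  set m := N % (p - 1) with hm
  have hm0 : 0 < m := Nat.pos_of_ne_zero fun h' => hd (Nat.dvd_of_mod_eq_zero h')
  have hmlt : m < p - 1 := Nat.mod_lt _ (by omega)
  obtain ⟨t, ht⟩ := hp.out.odd_of_ne_two (by omega)
  have hme : Even m := by
    have h2 : m % 2 = N % 2 := Nat.mod_mod_of_dvd N ⟨t, by omega⟩
    rw [Nat.even_iff] at hN ⊢
    omega
  refine ⟨hme, ?_, ?_, ?_⟩
  · obtain ⟨s, hs⟩ := hme
    omega
  · obtain ⟨s, hs⟩ := hme
    omega
  have h1 : ‖xb p N - xb p m‖ ≤ (p : ℝ) ^ (-((0 + 1 : ℕ) : ℤ)) :=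
    kummer_congruence (p := p) (m := N) (n := m) (r := 0) hN h0 hm0 hd
    (by rw [pow_zero, mul_one]; exact (Nat.mod_modEq N (p - 1)).symm)
  have h2 := norm_lt_one_of_dvd_num h
  have hp1 : (1 : ℝ) < p := by exact_mod_cast hp.out.one_lt
  have h3 : (p : ℝ) ^ (-((0 + 1 : ℕ) : ℤ)) < 1 := by
    rw [zero_add, Nat.cast_one, zpow_neg_one]
    exact inv_lt_one_of_one_lt₀ hp1
  have h4 : ‖(1 - (p : ℚ_[p]) ^ (N - 1)) * ((bernoulli N : ℚ) : ℚ_[p]) / N‖ < 1 := by
    rw [mul_div_assoc, norm_mul, norm_one_sub_pow (by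
      obtain ⟨s, hs⟩ := hN
      omega), one_mul]
    push_cast at h2
    exact h2
  have h5 : ‖(1 - (p : ℚ_[p]) ^ (m - 1)) * ((bernoulli m : ℚ) : ℚ_[p]) / m‖ < 1 := by
    have h6 := norm_sub_le_max' (xb p N) (xb p N - xb p m)
    rw [sub_sub_cancel] at h6
    exact h6.trans_lt (max_lt h4 (h1.trans_lt h3))
  rw [norm_div, norm_mul, norm_one_sub_pow (by
    obtain ⟨s, hs⟩ := hme
    omega), one_mul, Stick.norm_natCast_of_lt hm0 (by omega), div_one] at h5
  exact Stick.dvd_num_of_norm_lt_one h5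

end local_part

/-- `|B_n| > n` for large even `n`. -/
theorem eventually_lt_abs_bernoulli :
    ∃ n0 : ℕ, ∀ n, n0 ≤ n → Even n → (n : ℚ) < |bernoulli n| := by
  obtain ⟨n0, hn0⟩ := eventually_atTop.mp (Nat.eventually_pow_lt_factorial_sub 16 0)
  refine ⟨max n0 1, fun n hn he => ?_⟩
  obtain ⟨k, rfl⟩ := he.two_dvd
  have hk : k ≠ 0 := by
    have := (le_max_right n0 1).trans hn
    omega
  have h1 := hn0 (2 * k) ((le_max_left n0 1).trans hn)
  rw [Nat.sub_zero] at h1
  by_contra hcon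
  rw [not_lt] at hcon
  have h2 := hasSum_zeta_nat hk
  have h3 := le_hasSum h2 1 (fun j _ => by positivity)
  rw [Nat.cast_one, one_pow, div_one] at h3
  have h4 := h3.trans (le_abs_self _)
  have hcon' : |(bernoulli (2 * k) : ℝ)| ≤ (2 * k : ℕ) := by
    have : ((|bernoulli (2 * k)| : ℚ) : ℝ) ≤ (((2 * k : ℕ) : ℚ) : ℝ) := by exact_mod_cast hcon
    rw [Rat.cast_abs] at this
    exact_mod_cast this
  rw [abs_div, abs_mul, abs_mul, abs_mul, abs_pow, abs_neg, abs_one, one_pow, one_mul,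
    abs_of_pos (show (0 : ℝ) < 2 ^ (2 * k - 1) by positivity),
    abs_of_pos (show (0 : ℝ) < Real.pi ^ (2 * k) by positivity),
    abs_of_pos (show (0 : ℝ) < ((2 * k).factorial : ℝ) by positivity),
    le_div_iff₀ (by positivity), one_mul] at h4
  have h5 : (2 : ℝ) ^ (2 * k - 1) * Real.pi ^ (2 * k) * |(bernoulli (2 * k) : ℝ)| ≤
      2 ^ (2 * k) * 4 ^ (2 * k) * 2 ^ (2 * k) := by
    refine mul_le_mul (mul_le_mul ?_ ?_ (by positivity) (by positivity)) ?_ (abs_nonneg _)
      (by positivity)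
    · exact pow_le_pow_right₀ one_le_two (Nat.sub_le _ _)
    · exact pow_le_pow_left₀ Real.pi_pos.le Real.pi_lt_four.le _
    · refine hcon'.trans ?_
      exact_mod_cast (Nat.lt_two_pow_self (n := 2 * k)).le
  have h6 : (2 : ℝ) ^ (2 * k) * 4 ^ (2 * k) * 2 ^ (2 * k) = ((16 ^ (2 * k) : ℕ) : ℝ) := by
    rw [← mul_pow, ← mul_pow]
    norm_num
  rw [h6] at h5
  have h7 : (((2 * k).factorial : ℕ) : ℝ) ≤ ((16 ^ (2 * k) : ℕ) : ℝ) := h4.trans h5
  have h8 := Nat.cast_le.mp h7
  omega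

/-- **There are infinitely many irregular primes** (Jensen, Carlitz): for every `n` there is a
prime `p > n` which divides the numerator of one of the Bernoulli numbers `B_2, B_4, …, B_{p-3}`. -/
theorem exists_irregular (n : ℕ) : ∃ p, n < p ∧ p.Prime ∧
    ∃ k, Even k ∧ 2 ≤ k ∧ k ≤ p - 3 ∧ (p : ℤ) ∣ (bernoulli k).num := by
  obtain ⟨n0, hn0⟩ := eventually_lt_abs_bernoulli
  set K := max n (max n0 3) with hK
  have hnK : n ≤ K := le_max_left _ _
  have hn0K : n0 ≤ K := (le_max_left _ _).trans (le_max_right _ _)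
  have h3K : 3 ≤ K := (le_max_right _ _).trans (le_max_right _ _)
  set N := K.factorial with hN
  have hKN : K ≤ N := Nat.self_le_factorial K
  have hNe : Even N := even_iff_two_dvd.mpr (Nat.dvd_factorial two_pos (by omega))
  have hN0 : 0 < N := Nat.factorial_pos K
  have h1 := hn0 N (hn0K.trans hKN) hNe
  -- the numerator of `B_N / N`
  have hN0' : (0 : ℚ) < N := by exact_mod_cast hN0
  have h2 : 1 < |bernoulli N / N| := by
    rw [abs_div, abs_of_pos hN0', lt_div_iff₀ hN0', one_mul]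
    exact h1
  have h3 : (bernoulli N / N).num.natAbs ≠ 1 := by
    intro h
    have h4 : |bernoulli N / N| ≤ 1 := by
      rw [← Rat.num_div_den (bernoulli N / N), abs_div]
      have h5 : |((bernoulli N / N).num : ℚ)| = 1 := by
        rw [← Int.cast_abs, Int.abs_eq_natAbs, h]
        norm_num
      rw [h5, Nat.abs_cast]
      exact div_le_one_of_le₀ (by exact_mod_cast (bernoulli N / N).pos) (Nat.cast_nonneg _)
    exact absurd h2 (not_lt.mpr h4)
  obtain ⟨p, hp, hpd⟩ := Nat.exists_prime_and_dvd h3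
  have : Fact p.Prime := ⟨hp⟩
  have hpd' : (p : ℤ) ∣ (bernoulli N / N).num := Int.natCast_dvd.mpr hpd
  have h4 := not_dvd_of_dvd_num hNe hN0 hpd'
  refine ⟨p, ?_, hp, N % (p - 1), dvd_num_mod hNe hN0 hpd'⟩
  by_contra hcon
  have h2p := hp.two_le
  exact h4 (Nat.dvd_factorial (by omega) (by omega))

/-- **The set of the irregular primes is infinite.** -/
theorem infinite_irregular : {p : ℕ | p.Prime ∧
    ∃ k, Even k ∧ 2 ≤ k ∧ k ≤ p - 3 ∧ (p : ℤ) ∣ (bernoulli k).num}.Infinite :=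
  Set.infinite_of_forall_exists_gt fun n => by
    obtain ⟨p, h1, h2, h3⟩ := exists_irregular n
    exact ⟨p, ⟨h2, h3⟩, h1⟩

/-- **For every `n` there is a prime `p > n` which divides the class number of `ℚ(ζ_p)`.** -/
theorem exists_dvd_classNumber (n : ℕ) : ∃ p, n < p ∧ p.Prime ∧
    ∀ (K : Type u) [Field K] [NumberField K] [IsCyclotomicExtension {p} ℚ K],
      p ∣ classNumber K := by
  obtain ⟨p, h1, h2, k, h3, h4, h5, h6⟩ := exists_irregular n
  refine ⟨p, h1, h2, fun K _ _ _ => ?_⟩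
  have : Fact p.Prime := ⟨h2⟩
  exact Kummer.dvd_classNumber p K h3 h4 h5 h6

/-- **Infinitely many primes `p` divide the class number of the `p`-th cyclotomic field.** -/
theorem infinite_dvd_classNumber :
    {p : ℕ | p.Prime ∧ p ∣ classNumber (CyclotomicField p ℚ)}.Infinite :=
  Set.infinite_of_forall_exists_gt fun n => by
    obtain ⟨p, h1, h2, h3⟩ := exists_dvd_classNumber.{0} n
    have : NeZero p := ⟨h2.ne_zero⟩
    have h4 : @IsCyclotomicExtension {p} ℚ (CyclotomicField p ℚ) _ _ DivisionRing.toRatAlgebra := by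
      rw [Subsingleton.elim (DivisionRing.toRatAlgebra : Algebra ℚ (CyclotomicField p ℚ))
        (CyclotomicField.algebra p ℚ)]
      exact CyclotomicField.isCyclotomicExtension p ℚ
    exact ⟨p, ⟨h2, h3 (CyclotomicField p ℚ)⟩, h1⟩

end Fermat.Agent.Cor.Kum
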