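import Fermat.Agent.Corollaries.Kum.Gen
import Fermat.Agent.Corollaries.Ambi.Final
import Mathlib.FieldTheory.KummerExtension

/-!
# Kummer's lemma

`kummer_lemma`: let `p` be an odd prime which does not divide the class number of `K = ℚ(ζ_p)`. A
unit `u` of `𝓞 K` which is congruent to a rational integer modulo `p` is the `p`-th power of a unit.

Otherwise `K(u^{1/p}) / K` would be a Galois extension of degree `p` unramified at all places: with
`λ = ζ - 1`, `α = u^{1/p}`, `(α ^ (p - 1) - 1) / λ` is integral, and its difference with a conjugate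
is a unit.
-/

set_option autoImplicit false

noncomputable section

namespace Fermat.Agent.Cor.Kum

open NumberField Ideal IsCyclotomicExtension Module Polynomial IsDedekindDomain

section congr

variable {p : ℕ} [hp : Fact p.Prime] {K : Type*} [Field K] [NumberField K]

/-- Every ring endomorphism of `𝓞 K`, `K = ℚ(ζ_p)`, is trivial modulo a prime above `p`. -/
theorem mk_ringHom (P : Ideal (𝓞 K)) [hP : P.IsPrime] [hK : IsCyclotomicExtension {p} ℚ K]
    (hpP : (p : 𝓞 K) ∈ P) (s : 𝓞 K →+* 𝓞 K) (x : 𝓞 K) :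
    Ideal.Quotient.mk P (s x) = Ideal.Quotient.mk P x := by
  have hζ := zeta_spec p ℚ K
  have hK' : IsCyclotomicExtension {p ^ (0 + 1)} ℚ K := by simpa using hK
  have hζ' : IsPrimitiveRoot (zeta p ℚ K) (p ^ (0 + 1)) := by simp [hζ]
  set f : 𝓞 K →ₐ[ℤ] 𝓞 K ⧸ P := (Ideal.Quotient.mk P).toIntAlgHom with hf
  set g : 𝓞 K →ₐ[ℤ] 𝓞 K ⧸ P := ((Ideal.Quotient.mk P).comp s).toIntAlgHom with hg
  have h1 : g = f := by
    refine (hζ'.integralPowerBasisOfPrimePow).algHom_ext ?_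
    rw [IsPrimitiveRoot.integralPowerBasisOfPrimePow_gen]
    have h2 : (hζ'.toInteger : 𝓞 K) ^ p = 1 := by
      have := hζ'.toInteger_isPrimitiveRoot.pow_eq_one
      simpa using this
    change Ideal.Quotient.mk P (s hζ'.toInteger) = Ideal.Quotient.mk P hζ'.toInteger
    rw [RelClass.mk_root P hpP h2, RelClass.mk_root P hpP (by rw [← map_pow, h2, map_one])]
  exact DFunLike.congr_fun h1 x

theorem prod_one_add {R ι : Type*} [CommRing R] (c : R) (a : ι → R) (s : Finset ι) :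
    ∃ r, ∏ i ∈ s, (1 + c * a i) = 1 + c * (∑ i ∈ s, a i + c * r) := by
  classical
  induction s using Finset.induction_on with
  | empty => exact ⟨0, by simp⟩
  | insert i s hi ih =>
    obtain ⟨r, hr⟩ := ih
    rw [Finset.prod_insert hi, Finset.sum_insert hi, hr]
    exact ⟨r + a i * (∑ i ∈ s, a i) + c * a i * r, by ring⟩

/-- A unit `1 + p x` of norm one: `x` is divisible by `ζ - 1`. -/
theorem dvd_of_prod_eq_one [hK : IsCyclotomicExtension {p} ℚ K] {ζ : K}
    (hζ : IsPrimitiveRoot ζ p) {x : 𝓞 K}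
    (hN : Algebra.norm ℚ ((1 + p * x : 𝓞 K) : K) = 1) : hζ.toInteger - 1 ∣ x := by
  have : IsGalois ℚ K := IsCyclotomicExtension.isGalois {p} ℚ K
  let s : Gal(K/ℚ) → (𝓞 K →+* 𝓞 K) := fun σ => (RingOfIntegers.mapRingEquiv σ.toRingEquiv : _)
  have hs : ∀ σ y, ((s σ y : 𝓞 K) : K) = σ (y : K) := fun σ y => rfl
  have h1 : ∏ σ : Gal(K/ℚ), (1 + (p : 𝓞 K) * s σ x) = 1 := by
    have h2 := Algebra.norm_eq_prod_automorphisms ℚ ((1 + p * x : 𝓞 K) : K)
    rw [hN, map_one] at h2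
    apply RingOfIntegers.ext
    rw [RingOfIntegers.coe_eq_algebraMap, RingOfIntegers.coe_eq_algebraMap, map_prod, map_one, h2]
    refine Finset.prod_congr rfl fun σ _ => ?_
    rw [← RingOfIntegers.coe_eq_algebraMap, ← hs, map_add, map_mul, map_one, map_natCast]
  obtain ⟨r, hr⟩ := prod_one_add (p : 𝓞 K) (fun σ : Gal(K/ℚ) => s σ x) Finset.univ
  rw [h1] at hr
  have hp0 : (p : 𝓞 K) ≠ 0 := by exact_mod_cast hp.out.ne_zero
  have h2 : ∑ σ : Gal(K/ℚ), s σ x + (p : 𝓞 K) * r = 0 := by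
    have h3 : (p : 𝓞 K) * (∑ σ : Gal(K/ℚ), s σ x + (p : 𝓞 K) * r) = 0 := by
      linear_combination -hr
    exact (mul_eq_zero.mp h3).resolve_left hp0
  set P : Ideal (𝓞 K) := span {hζ.toInteger - 1} with hPd
  have hP : P.IsPrime := (span_singleton_prime (hζ.zeta_sub_one_prime').ne_zero).mpr
    hζ.zeta_sub_one_prime'
  have hpP : (p : 𝓞 K) ∈ P := by
    rw [hPd, mem_span_singleton]
    have h3 := (IsCyclotomicExtension.Rat.associated_zeta_sub_one_pow_prime p hζ).dvd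
    exact (dvd_pow_self _ (by have := hp.out.two_le; omega)).trans h3
  have h3 := congrArg (Ideal.Quotient.mk P) h2
  rw [map_add, map_mul, Ideal.Quotient.eq_zero_iff_mem.mpr hpP, zero_mul, add_zero, map_sum,
    map_zero] at h3
  simp only [mk_ringHom P hpP] at h3
  have hcard : Fintype.card Gal(K/ℚ) = p - 1 := by
    rw [← Nat.card_eq_fintype_card, IsGalois.card_aut_eq_finrank,
      IsCyclotomicExtension.Rat.finrank p K, Nat.totient_prime hp.out]
  rw [Finset.sum_const, Finset.card_univ, hcard, nsmul_eq_mul, ← map_natCast (Ideal.Quotient.mk P),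
    Nat.cast_sub hp.out.one_le, map_sub, Ideal.Quotient.eq_zero_iff_mem.mpr hpP, Nat.cast_one,
    map_one, zero_sub, neg_mul, one_mul, neg_eq_zero, Ideal.Quotient.eq_zero_iff_mem, hPd,
    mem_span_singleton] at h3
  exact h3

/-- `u ^ (p - 1) ≡ 1` modulo `(ζ - 1) ^ p` for a unit congruent to a rational integer modulo `p`. -/
theorem exists_pow_eq_one_add [hK : IsCyclotomicExtension {p} ℚ K] (hp2 : p ≠ 2) {ζ : K}
    (hζ : IsPrimitiveRoot ζ p) (u : (𝓞 K)ˣ) (n : ℤ) (hu : (p : 𝓞 K) ∣ (u : 𝓞 K) - n) :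
    ∃ z : 𝓞 K, (u : 𝓞 K) ^ (p - 1) = 1 + (hζ.toInteger - 1) ^ p * z := by
  have hn : IsCoprime n (p : ℤ) := by
    rw [isCoprime_comm, Prime.coprime_iff_not_dvd (Nat.prime_iff_prime_int.mp hp.out)]
    rintro ⟨m, rfl⟩
    have h1 : (p : 𝓞 K) ∣ (u : 𝓞 K) := by
      have h2 := dvd_add hu (Dvd.intro (m : 𝓞 K) (by push_cast; rfl) :
        (p : 𝓞 K) ∣ (((p : ℤ) * m : ℤ) : 𝓞 K))
      rwa [sub_add_cancel] at h2
    have h2 : IsUnit (p : 𝓞 K) := isUnit_of_dvd_unit h1 u.isUnit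
    have h3 := (hζ.zeta_sub_one_prime').not_isUnit
    have h4 := (IsCyclotomicExtension.Rat.associated_zeta_sub_one_pow_prime p hζ).symm.isUnit h2
    exact h3 ((isUnit_pow_iff (by have := hp.out.two_le; omega)).mp h4)
  have h1 : (p : 𝓞 K) ∣ (u : 𝓞 K) ^ (p - 1) - 1 := by
    have h2 : (p : 𝓞 K) ∣ (u : 𝓞 K) ^ (p - 1) - (n : 𝓞 K) ^ (p - 1) :=
      hu.trans (sub_dvd_pow_sub_pow _ _ _)
    have h3 := (Int.ModEq.pow_card_sub_one_eq_one hp.out hn).symm.dvd
    have h4 : (p : 𝓞 K) ∣ (n : 𝓞 K) ^ (p - 1) - 1 := by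
      obtain ⟨c, hc⟩ := h3
      refine ⟨(c : 𝓞 K), ?_⟩
      have := congrArg (Int.cast : ℤ → 𝓞 K) hc
      push_cast at this
      exact this
    have h5 := dvd_add h2 h4
    rwa [sub_add_sub_cancel] at h5
  obtain ⟨x, hx⟩ := h1
  have hx' : (u : 𝓞 K) ^ (p - 1) = 1 + p * x := by rw [← hx]; ring
  have hN : Algebra.norm ℚ ((1 + p * x : 𝓞 K) : K) = 1 := by
    rw [← hx', RingOfIntegers.coe_eq_algebraMap, map_pow, map_pow,
      ← RingOfIntegers.coe_eq_algebraMap]
    have h2 : |Algebra.norm ℚ ((u : 𝓞 K) : K)| = 1 := NumberField.Units.norm K u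
    obtain ⟨m, hm⟩ := hp.out.odd_of_ne_two hp2
    rw [show p - 1 = 2 * m by omega, pow_mul, ← sq_abs, h2, one_pow, one_pow]
  obtain ⟨y, hy⟩ := dvd_of_prod_eq_one hζ hN
  obtain ⟨e, he⟩ := IsCyclotomicExtension.Rat.associated_zeta_sub_one_pow_prime p hζ
  refine ⟨e * y, ?_⟩
  obtain ⟨q, rfl⟩ : ∃ q, p = q + 1 := ⟨p - 1, by have := hp.out.two_le; omega⟩
  rw [hx', ← he, Nat.add_sub_cancel]
  rw [hy]
  ring

end congr

section integral

variable {p : ℕ} [hp : Fact p.Prime] {K M : Type*} [Field K] [NumberField K] [Field M]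
  [NumberField M] [Algebra K M]

omit hp [Field K] [NumberField K] [Field M] [NumberField M] [Algebra K M] in
theorem add_one_pow_eq {R : Type*} [CommRing R] (t : R) (hp : 1 ≤ p) : (t + 1) ^ p = t ^ p +
    ∑ i ∈ Finset.range (p - 1), (p.choose (i + 1) : R) * t ^ (i + 1) + 1 := by
  obtain ⟨q, rfl⟩ : ∃ q, p = q + 1 := ⟨p - 1, by omega⟩
  rw [add_pow, Finset.sum_range_succ, Finset.sum_range_succ', Nat.add_sub_cancel]
  simp only [one_pow, mul_one, pow_zero, Nat.choose_zero_right, Nat.choose_self, Nat.cast_one]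
  rw [Finset.sum_congr rfl fun i _ => mul_comm (t ^ (i + 1)) ((q + 1).choose (i + 1) : R)]
  ring

/-- `β ^ p ≡ 1 mod (ζ - 1) ^ p` implies `β ≡ 1 mod ζ - 1`. -/
theorem exists_eq_one_add {ζ : K} (hζ : IsPrimitiveRoot ζ p) {β : 𝓞 M} {z : 𝓞 K}
    (hβ : β ^ p = algebraMap (𝓞 K) (𝓞 M) (1 + (hζ.toInteger - 1) ^ p * z)) :
    ∃ y : 𝓞 M, β = 1 + algebraMap (𝓞 K) (𝓞 M) (hζ.toInteger - 1) * y := by
  set l : 𝓞 K := hζ.toInteger - 1 with hl
  have hl0 : l ≠ 0 := by
    intro h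
    have h1 := sub_eq_zero.mp h
    have h2 := hζ.toInteger_isPrimitiveRoot
    rw [h1] at h2
    exact hp.out.one_lt.ne' (h2.unique IsPrimitiveRoot.one)
  set L : M := algebraMap (𝓞 K) M l with hL
  have hL0 : L ≠ 0 := by
    rw [hL, Ne, FaithfulSMul.algebraMap_eq_zero_iff]
    exact hl0
  obtain ⟨e, he⟩ := IsCyclotomicExtension.Rat.associated_zeta_sub_one_pow_prime p hζ
  have hb : ∀ i : ℕ, ∃ b : ℕ, i < p - 1 → p.choose (i + 1) = p * b := by
    intro i
    by_cases hi : i < p - 1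
    · obtain ⟨b, hb⟩ := hp.out.dvd_choose_self (Nat.succ_ne_zero i) (by omega)
      exact ⟨b, fun _ => hb⟩
    · exact ⟨0, fun h => absurd h hi⟩
  choose b hb using hb
  set t : M := (β : M) - 1 with ht
  set y₀ : M := t / L with hy₀
  have hy : L * y₀ = t := mul_div_cancel₀ t hL0
  let R : (𝓞 K)[X] := ∑ i ∈ Finset.range (p - 1), C ((b i : 𝓞 K) * e * l ^ i) * X ^ (i + 1) +
    C (-z)
  have hR : R.degree < (p : ℕ) := by
    rw [← mem_degreeLT]
    refine add_mem (sum_mem fun i hi => ?_) ?_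
    · rw [Finset.mem_range] at hi
      rw [mem_degreeLT]
      refine (degree_C_mul_X_pow_le _ _).trans_lt ?_
      exact_mod_cast (by omega : i + 1 < p)
    · rw [mem_degreeLT]
      refine degree_C_le.trans_lt ?_
      exact_mod_cast hp.out.pos
  have hint : IsIntegral (𝓞 K) y₀ := by
    refine ⟨X ^ p + R, monic_X_pow_add hR, ?_⟩
    have h1 : L ^ p ≠ 0 := pow_ne_zero _ hL0
    refine (mul_eq_zero.mp (?_ : L ^ p * _ = 0)).resolve_left h1
    have hβ' : (t + 1) ^ p = 1 + L ^ p * algebraMap (𝓞 K) M z := by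
      have h2 := congrArg (algebraMap (𝓞 M) M) hβ
      rw [map_pow, ← IsScalarTower.algebraMap_apply (𝓞 K) (𝓞 M) M, map_add, map_one, map_mul,
        map_pow, ← hL] at h2
      rw [ht, sub_add_cancel]
      exact h2
    have heM : L ^ (p - 1) * algebraMap (𝓞 K) M e = p := by
      have h2 := congrArg (algebraMap (𝓞 K) M) he
      rwa [map_mul, map_pow, map_natCast] at h2
    have hsum := add_one_pow_eq t hp.out.one_le
    have hterm : ∀ i ∈ Finset.range (p - 1), L ^ p * (algebraMap (𝓞 K) M ((b i : 𝓞 K) * e * l ^ i) *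
        y₀ ^ (i + 1)) = (p.choose (i + 1) : M) * t ^ (i + 1) := by
      intro i hi
      rw [hb i (Finset.mem_range.mp hi), Nat.cast_mul, ← heM, ← hy, map_mul, map_mul, map_natCast,
        map_pow, ← hL, show L ^ p = L ^ (p - 1) * L by
          rw [← pow_succ, Nat.sub_add_cancel hp.out.one_le], mul_pow]
      ring
    have heval : eval₂ (algebraMap (𝓞 K) M) y₀ (X ^ p + R) = y₀ ^ p +
        (∑ i ∈ Finset.range (p - 1), algebraMap (𝓞 K) M ((b i : 𝓞 K) * e * l ^ i) *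
          y₀ ^ (i + 1) - algebraMap (𝓞 K) M z) := by
      rw [eval₂_add, eval₂_pow, eval₂_X, eval₂_add, eval₂_finsetSum, eval₂_C, map_neg,
        ← sub_eq_add_neg]
      refine congrArg (fun w => y₀ ^ p + (w - _)) (Finset.sum_congr rfl fun i _ => ?_)
      rw [eval₂_mul, eval₂_C, eval₂_pow, eval₂_X]
    rw [heval, mul_add, mul_sub, ← mul_pow, hy, Finset.mul_sum, Finset.sum_congr rfl hterm]
    linear_combination hβ' - hsum
  have hint' : IsIntegral ℤ y₀ := isIntegral_trans _ hint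
  refine ⟨⟨y₀, hint'⟩, ?_⟩
  apply RingOfIntegers.ext
  have h3 : ((algebraMap (𝓞 K) (𝓞 M) l : 𝓞 M) : M) = L := rfl
  rw [RingOfIntegers.coe_eq_algebraMap, RingOfIntegers.coe_eq_algebraMap, map_add, map_one,
    map_mul, ← RingOfIntegers.coe_eq_algebraMap, ← RingOfIntegers.coe_eq_algebraMap, h3]
  change (β : M) = 1 + L * y₀
  rw [hy, ht]
  ring

end integral

section main

variable {p : ℕ} [hp : Fact p.Prime] {K M : Type*} [Field K] [NumberField K] [Field M]
  [NumberField M] [Algebra K M]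

/-- Trivial inertia group: ramification index one. -/
theorem ramificationIdx_eq_one [IsGalois K M] (w : HeightOneSpectrum (𝓞 M))
    (hin : ∀ σ : Gal(M/K), (∀ x : 𝓞 M, σ • x - x ∈ w.asIdeal) → σ = 1) :
    (w.asIdeal.under (𝓞 K)).ramificationIdx' w.asIdeal = 1 := by
  have hlo : w.asIdeal.LiesOver (w.under (𝓞 K)).asIdeal := ⟨rfl⟩
  have h0 : w.asIdeal.inertia Gal(M/K) = ⊥ := by
    rw [eq_bot_iff]
    intro σ hσ
    exact hin σ hσ
  have h1 := Ideal.card_inertia_eq_ramificationIdxIn (G := Gal(M/K)) (w.under (𝓞 K)).asIdeal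
    w.asIdeal
  rw [h0, Subgroup.card_bot,
    Ideal.ramificationIdxIn_eq_ramificationIdx (w.under (𝓞 K)).asIdeal w.asIdeal Gal(M/K),
    ← Ideal.ramificationIdx'_eq_ramificationIdx _ w.asIdeal (w.under (𝓞 K)).ne_bot] at h1
  exact h1.symm

/-- `K(u^{1/p}) / K` is unramified if `u` is a unit with `u ^ (p - 1) ≡ 1 mod (ζ - 1) ^ p`. -/
theorem unramified_of_unit (hp2 : p ≠ 2) {ζ : K} (hζ : IsPrimitiveRoot ζ p) [IsGalois K M]
    (u : (𝓞 K)ˣ) {α : 𝓞 M} (hα : α ^ p = algebraMap (𝓞 K) (𝓞 M) u)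
    (hgen : ∀ σ : M ≃ₐ[K] M, σ (α : M) = α → σ = 1) {z : 𝓞 K}
    (hz : (u : 𝓞 K) ^ (p - 1) = 1 + (hζ.toInteger - 1) ^ p * z) (w : HeightOneSpectrum (𝓞 M)) :
    (w.asIdeal.under (𝓞 K)).ramificationIdx' w.asIdeal = 1 := by
  have hαu : IsUnit α := by
    have h1 : IsUnit (α ^ p) := by
      rw [hα]
      exact u.isUnit.map _
    exact (isUnit_pow_iff hp.out.ne_zero).mp h1
  have hα0 : (α : M) ≠ 0 := by
    rw [Ne, RingOfIntegers.coe_eq_zero_iff]
    exact hαu.ne_zero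
  have hβ : (α ^ (p - 1)) ^ p = algebraMap (𝓞 K) (𝓞 M) (1 + (hζ.toInteger - 1) ^ p * z) := by
    rw [← hz, map_pow, ← hα, ← pow_mul, ← pow_mul, mul_comm]
  obtain ⟨y, hy⟩ := exists_eq_one_add hζ hβ
  have hl0 : hζ.toInteger - 1 ≠ 0 := by
    intro h
    have h1 := sub_eq_zero.mp h
    have h2 := hζ.toInteger_isPrimitiveRoot
    rw [h1] at h2
    exact hp.out.one_lt.ne' (h2.unique IsPrimitiveRoot.one)
  set L : M := algebraMap (𝓞 K) M (hζ.toInteger - 1) with hL
  have hL0 : L ≠ 0 := by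
    rw [hL, Ne, FaithfulSMul.algebraMap_eq_zero_iff]
    exact hl0
  have hyM : (α : M) ^ (p - 1) = 1 + L * (y : M) := by
    have h1 := congrArg (algebraMap (𝓞 M) M) hy
    rw [map_pow, map_add, map_one, map_mul,
      ← IsScalarTower.algebraMap_apply (𝓞 K) (𝓞 M) M, ← hL] at h1
    exact h1
  refine ramificationIdx_eq_one w fun σ hσ => ?_
  by_contra hσ1
  have hαM : (α : M) ^ p = algebraMap K M ((u : 𝓞 K) : K) := by
    have h1 := congrArg (algebraMap (𝓞 M) M) hα
    rw [map_pow, ← IsScalarTower.algebraMap_apply (𝓞 K) (𝓞 M) M,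
      IsScalarTower.algebraMap_apply (𝓞 K) K M] at h1
    exact h1
  -- `σ α = ζ ^ i α`
  obtain ⟨i, hi⟩ := exists_pow_of_root (M := M) hζ (x := σ (α : M) / α) (by
    rw [div_pow, ← map_pow, hαM, AlgEquiv.commutes, div_self]
    rw [← hαM]
    exact pow_ne_zero _ hα0)
  have hσα : σ (α : M) = algebraMap K M (ζ ^ i) * α := by
    rw [← hi, div_mul_cancel₀ _ hα0]
  have hpi : ¬ p ∣ i := by
    rintro ⟨c, rfl⟩
    apply hσ1
    apply hgen
    rw [hσα, pow_mul, hζ.pow_eq_one, one_pow, map_one, one_mul]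
  have hp3 : 3 ≤ p := by
    have := hp.out.two_le
    omega
  have hco : (i * (p - 1)).Coprime p := by
    rw [Nat.coprime_comm, Nat.Prime.coprime_iff_not_dvd hp.out, Nat.Prime.dvd_mul hp.out]
    rintro (h | h)
    · exact hpi h
    · exact absurd (Nat.le_of_dvd (by omega) h) (by omega)
  obtain ⟨η, hη⟩ :=
    hζ.toInteger_isPrimitiveRoot.associated_sub_one_pow_sub_one_of_coprime hco
  have hηM : L * algebraMap (𝓞 K) M η = algebraMap K M (ζ ^ (i * (p - 1))) - 1 := by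
    have h1 := congrArg (algebraMap (𝓞 K) M) hη
    rw [map_mul, ← hL, map_sub, map_one, map_pow] at h1
    rw [h1, map_pow]
    rfl
  -- `σ y - y` is a unit
  have hLσ : σ L = L := by
    rw [hL, IsScalarTower.algebraMap_apply (𝓞 K) K M, AlgEquiv.commutes]
  have h2 : L * (σ (y : M) - y) = L * (algebraMap (𝓞 K) M η * (α : M) ^ (p - 1)) := by
    have h3 : σ ((α : M) ^ (p - 1)) = 1 + L * σ (y : M) := by
      rw [hyM, map_add, map_one, map_mul, hLσ]
    rw [map_pow, hσα, mul_pow, ← map_pow, ← pow_mul] at h3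
    rw [← mul_assoc, hηM]
    linear_combination -h3 + hyM
  have h3 := mul_left_cancel₀ hL0 h2
  have h4 : σ • y - y = algebraMap (𝓞 K) (𝓞 M) η * α ^ (p - 1) := by
    apply RingOfIntegers.ext
    rw [RingOfIntegers.coe_eq_algebraMap, RingOfIntegers.coe_eq_algebraMap, map_sub, map_mul,
      map_pow, ← IsScalarTower.algebraMap_apply (𝓞 K) (𝓞 M) M]
    exact h3
  have h5 := hσ y
  rw [h4] at h5
  exact w.isPrime.ne_top (Ideal.eq_top_of_isUnit_mem _ h5
    ((η.isUnit.map (algebraMap (𝓞 K) (𝓞 M))).mul (hαu.pow _)))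

/-- **Kummer's lemma**: if `p` (odd) does not divide the class number of `K = ℚ(ζ_p)` then every
unit of `𝓞 K` which is congruent to a rational integer modulo `p` is the `p`-th power of a
unit. -/
theorem kummer_lemma (p : ℕ) [hp : Fact p.Prime] (hp2 : p ≠ 2) (K : Type*) [Field K]
    [NumberField K] [IsCyclotomicExtension {p} ℚ K] (hreg : ¬ p ∣ classNumber K) (u : (𝓞 K)ˣ)
    (n : ℤ) (hu : (p : 𝓞 K) ∣ (u : 𝓞 K) - n) : ∃ v : (𝓞 K)ˣ, v ^ p = u := by
  by_contra hcon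
  push Not at hcon
  have ha : ∀ b : K, b ^ p ≠ ((u : 𝓞 K) : K) := by
    intro b hb
    have hint : IsIntegral ℤ b := IsIntegral.of_pow hp.out.pos (by
      rw [hb]
      exact RingOfIntegers.isIntegral_coe _)
    obtain ⟨B, hB⟩ : ∃ B : 𝓞 K, (B : K) = b := ⟨⟨b, hint⟩, rfl⟩
    have h1 : B ^ p = u := by
      apply RingOfIntegers.ext
      rw [RingOfIntegers.coe_eq_algebraMap, map_pow, ← RingOfIntegers.coe_eq_algebraMap, hB]
      exact hb
    have h2 : IsUnit B := by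
      rw [← isUnit_pow_iff hp.out.ne_zero, h1]
      exact u.isUnit
    obtain ⟨v, hv⟩ := h2
    exact hcon v (Units.ext (by rw [Units.val_pow_eq_pow_val, hv, h1]))
  have hζ := zeta_spec p ℚ K
  have hne : (primitiveRoots p K).Nonempty := ⟨_, (mem_primitiveRoots hp.out.pos).mpr hζ⟩
  have : NeZero p := ⟨hp.out.ne_zero⟩
  set a : K := ((u : 𝓞 K) : K) with had
  have H : Irreducible (X ^ p - C a) := X_pow_sub_C_irreducible_of_prime hp.out ha
  let M := (X ^ p - C a).SplittingField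
  have hNF : NumberField M := NumberField.of_module_finite K M
  have hgal : IsGalois K M := isGalois_of_isSplittingField_X_pow_sub_C hne H M
  have hfin : finrank K M = p := finrank_of_isSplittingField_X_pow_sub_C hne H M
  set α₀ : M := rootOfSplitsXPowSubC (NeZero.pos p) a M with hα₀
  have hα₀p : α₀ ^ p = algebraMap K M a := rootOfSplitsXPowSubC_pow a M
  have hint : IsIntegral ℤ α₀ := IsIntegral.of_pow hp.out.pos (by
    rw [hα₀p]
    exact (RingOfIntegers.isIntegral_coe (u : 𝓞 K)).map (IsScalarTower.toAlgHom ℤ K M))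
  have hgen : ∀ σ : M ≃ₐ[K] M, σ α₀ = α₀ → σ = 1 := by
    intro σ hσ
    have htop := Algebra.adjoin_root_eq_top_of_isSplittingField hne H hα₀p
    have h2 : (σ : M →ₐ[K] M) = AlgHom.id K M := by
      refine AlgHom.ext_of_adjoin_eq_top htop ?_
      rintro _ rfl
      exact hσ
    exact AlgEquiv.ext fun x => DFunLike.congr_fun h2 x
  obtain ⟨z, hz⟩ := exists_pow_eq_one_add hp2 hζ u n hu
  obtain ⟨α, hαc⟩ : ∃ α : 𝓞 M, (α : M) = α₀ := ⟨⟨α₀, hint⟩, rfl⟩
  have hα : α ^ p = algebraMap (𝓞 K) (𝓞 M) u := by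
    apply RingOfIntegers.ext
    rw [RingOfIntegers.coe_eq_algebraMap, map_pow, ← RingOfIntegers.coe_eq_algebraMap, hαc]
    exact hα₀p
  rw [← hαc] at hgen
  have hodd : Odd (finrank K M) := by
    rw [hfin]
    exact hp.out.odd_of_ne_two hp2
  have : IsUnramifiedAtInfinitePlaces K M := IsUnramifiedAtInfinitePlaces_of_odd_finrank hodd
  exact hreg (Ambi.dvd_classNumber_of_unramified hp.out hfin
    (unramified_of_unit hp2 hζ u hα hgen hz))

end main

end Fermat.Agent.Cor.Kum
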