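import Mathlib

/-!
# A quadratic extension and the `p`-parts of the class numbers

`K / F` is a quadratic extension of number fields with non-trivial automorphism `J`, `p` an odd
prime. If there is an ideal `I` of `K`, not principal, such that `I ^ p` and `I * J(I)` are
principal, then `v_p(h_F) < v_p(h_K)`.
-/

set_option autoImplicit false

open NumberField nonZeroDivisors

namespace Fermat.Agent.Cor.Kum

/-- A homomorphism of finite abelian groups whose kernel has exponent `2`, and an element of order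
`p` (odd) which is not in the image. -/
theorem padicValNat_card_lt {G H : Type*} [CommGroup G] [CommGroup H] [Finite G] [Finite H]
    {p : ℕ} [hp : Fact p.Prime] (hp2 : p ≠ 2) (f : G →* H) (hf : ∀ g, f g = 1 → g ^ 2 = 1)
    (x : H) (hxp : x ^ p = 1) (hx : ∀ g, f g ≠ x) :
    padicValNat p (Nat.card G) < padicValNat p (Nat.card H) := by
  obtain ⟨P, hP⟩ := Sylow.exists_subgroup_card_pow_prime p
    (pow_padicValNat_dvd : p ^ padicValNat p (Nat.card G) ∣ Nat.card G)
  have hPp : IsPGroup p P := IsPGroup.of_card hP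
  have hinj : Function.Injective (f.comp P.subtype) := by
    rw [injective_iff_map_eq_one]
    intro g hg
    have h1 : g ^ 2 = 1 := Subtype.ext (hf _ hg)
    obtain ⟨k, hk⟩ := hPp g
    have hco : Nat.Coprime 2 (p ^ k) :=
      Nat.Coprime.pow_right k ((Nat.coprime_primes Nat.prime_two hp.out).mpr hp2.symm)
    have h2 : orderOf g ∣ Nat.gcd 2 (p ^ k) :=
      Nat.dvd_gcd (orderOf_dvd_of_pow_eq_one h1) (orderOf_dvd_of_pow_eq_one hk)
    rw [Nat.coprime_iff_gcd_eq_one.mp hco, Nat.dvd_one, orderOf_eq_one_iff] at h2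
    exact h2
  have hQ : Nat.card (P.map f) = p ^ padicValNat p (Nat.card G) := by
    rw [← hP]
    refine Nat.card_congr (Equiv.ofBijective (fun g : P => (⟨f g, g, g.2, rfl⟩ : P.map f))
      ⟨fun a b h => hinj (congrArg Subtype.val h), ?_⟩).symm
    rintro ⟨_, g, hg, rfl⟩
    exact ⟨⟨g, hg⟩, rfl⟩
  have hQp : IsPGroup p (P.map f) := hPp.map f
  have hZp : IsPGroup p (Subgroup.zpowers x) := by
    rintro ⟨_, m, rfl⟩
    refine ⟨1, Subtype.ext ?_⟩
    simp only [pow_one, SubmonoidClass.coe_pow, OneMemClass.coe_one]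
    rw [← zpow_natCast, ← zpow_mul, mul_comm, zpow_mul, zpow_natCast, hxp, one_zpow]
  have hS : IsPGroup p (P.map f ⊔ Subgroup.zpowers x : Subgroup H) :=
    IsPGroup.to_sup_of_normal_right hQp hZp
  obtain ⟨k, hk⟩ := IsPGroup.iff_card.mp hS
  have hlt : P.map f < P.map f ⊔ Subgroup.zpowers x := by
    refine lt_of_le_of_ne le_sup_left fun h => ?_
    have h1 : x ∈ P.map f := by
      rw [h]
      exact (le_sup_right : Subgroup.zpowers x ≤ _) (Subgroup.mem_zpowers x)
    obtain ⟨g, -, hg⟩ := h1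
    exact hx g hg
  have hcard : Nat.card (P.map f) < Nat.card (P.map f ⊔ Subgroup.zpowers x : Subgroup H) := by
    refine lt_of_le_of_ne (Nat.card_mono (Set.toFinite _) hlt.le) fun h => hlt.ne ?_
    exact SetLike.coe_injective (Set.eq_of_subset_of_ncard_le hlt.le
      (le_of_eq (by rw [← Nat.card_coe_set_eq, ← Nat.card_coe_set_eq]; exact h.symm))
      (Set.toFinite _))
  rw [hQ, hk] at hcard
  have hk2 : padicValNat p (Nat.card G) < k := (Nat.pow_lt_pow_iff_right hp.out.one_lt).mp hcard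
  have hdvd : p ^ k ∣ Nat.card H := hk ▸ Subgroup.card_subgroup_dvd_card _
  exact hk2.trans_le ((padicValNat_dvd_iff_le Nat.card_pos.ne').mp hdvd)

variable {F K : Type*} [Field F] [NumberField F] [Field K] [NumberField K] [Algebra F K]

/-- An ideal of `F` which becomes principal in the quadratic extension `K` has a principal
square. -/
theorem sq_eq_one_of_extended_eq_one (h2 : Module.finrank F K = 2) (g : ClassGroup (𝓞 F))
    (hg : ClassGroup.extendedHom (𝓞 F) (𝓞 K) g = 1) : g ^ 2 = 1 := by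
  obtain ⟨b, rfl⟩ := ClassGroup.mk0_surjective g
  rw [ClassGroup.extendedHom_mk0, ClassGroup.mk0_eq_one_iff] at hg
  obtain ⟨x, hx⟩ := hg
  have h3 : Module.finrank (𝓞 F) (𝓞 K) = 2 := by
    rw [← h2]
    exact (IsFractionRing.finrank_eq (𝓞 F) F (𝓞 K) K).symm
  have h4 := Ideal.relNorm_algebraMap (R := 𝓞 F) (S := 𝓞 K) (b : Ideal (𝓞 F))
  rw [h3] at h4
  have h5 : ((b : Ideal (𝓞 F)).map (algebraMap (𝓞 F) (𝓞 K))) = Ideal.span {x} := hx
  rw [h5, Ideal.relNorm_singleton] at h4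
  rw [← map_pow, ClassGroup.mk0_eq_one_iff]
  exact ⟨_, by rw [SubmonoidClass.coe_pow, ← h4]⟩

/-- `J` on the integers. -/
abbrev onInt (J : K ≃ₐ[F] K) : 𝓞 K →+* 𝓞 K :=
  (RingOfIntegers.mapRingEquiv J.toRingEquiv : 𝓞 K →+* 𝓞 K)

omit [NumberField F] [NumberField K] in
theorem map_onInt_map (J : K ≃ₐ[F] K) (b : Ideal (𝓞 F)) :
    (b.map (algebraMap (𝓞 F) (𝓞 K))).map (onInt J) = b.map (algebraMap (𝓞 F) (𝓞 K)) := by
  rw [Ideal.map_map]
  congr 1
  ext x
  change J (algebraMap F K (x : F)) = algebraMap F K (x : F)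
  exact J.commutes _

omit [NumberField F] [NumberField K] in
theorem onInt_injective (J : K ≃ₐ[F] K) : Function.Injective (onInt J) :=
  (RingOfIntegers.mapRingEquiv J.toRingEquiv).injective

/-- `v_p(h_F) < v_p(h_K)` from an ideal. -/
theorem lt_of_ideal {F K : Type*} [Field F] [NumberField F] [Field K] [NumberField K]
    [Algebra F K] (h2 : Module.finrank F K = 2) (J : K ≃ₐ[F] K) (_hJ : J ≠ 1) {p : ℕ}
    [Fact p.Prime] (hp2 : p ≠ 2) (I : Ideal (𝓞 K)) (h0 : I ≠ ⊥) (hI : ¬ I.IsPrincipal)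
    (hIp : (I ^ p).IsPrincipal)
    (hIJ : (I * I.map (RingOfIntegers.mapRingEquiv J.toRingEquiv : 𝓞 K →+* 𝓞 K)).IsPrincipal) :
    padicValNat p (classNumber F) < padicValNat p (classNumber K) := by
  have hI0 : I ∈ (Ideal (𝓞 K))⁰ := mem_nonZeroDivisors_of_ne_zero h0
  have h0' : I.map (onInt J) ≠ ⊥ := by
    rw [Ne, Ideal.map_eq_bot_iff_of_injective (onInt_injective J)]
    exact h0
  have hJ0 : I.map (onInt J) ∈ (Ideal (𝓞 K))⁰ := mem_nonZeroDivisors_of_ne_zero h0'
  have hxp : ClassGroup.mk0 (⟨I, hI0⟩ : (Ideal (𝓞 K))⁰) ^ p = 1 := by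
    rw [← map_pow, ClassGroup.mk0_eq_one_iff]
    exact hIp
  have hmul : ClassGroup.mk0 (⟨I, hI0⟩ : (Ideal (𝓞 K))⁰) *
      ClassGroup.mk0 (⟨I.map (onInt J), hJ0⟩ : (Ideal (𝓞 K))⁰) = 1 := by
    rw [← map_mul, ClassGroup.mk0_eq_one_iff]
    exact hIJ
  have hne : ClassGroup.mk0 (⟨I, hI0⟩ : (Ideal (𝓞 K))⁰) ≠ 1 := by
    rw [Ne, ClassGroup.mk0_eq_one_iff]
    exact hI
  have key := padicValNat_card_lt hp2 (ClassGroup.extendedHom (𝓞 F) (𝓞 K))
    (fun g hg => sq_eq_one_of_extended_eq_one h2 g hg) _ hxp ?_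
  · rw [classNumber, classNumber, ← Nat.card_eq_fintype_card, ← Nat.card_eq_fintype_card]
    exact key
  · intro g hg
    obtain ⟨b, rfl⟩ := ClassGroup.mk0_surjective g
    rw [ClassGroup.extendedHom_mk0, ClassGroup.mk0_eq_mk0_iff] at hg
    obtain ⟨x, y, hx, hy, hxy⟩ := hg
    have h3 : ClassGroup.mk0 (ClassGroup.extendedIdeal (𝓞 F) (𝓞 K) b) =
        ClassGroup.mk0 (⟨I.map (onInt J), hJ0⟩ : (Ideal (𝓞 K))⁰) := by
      rw [ClassGroup.mk0_eq_mk0_iff]
      refine ⟨onInt J x, onInt J y, (map_ne_zero_iff _ (onInt_injective J)).mpr hx,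
        (map_ne_zero_iff _ (onInt_injective J)).mpr hy, ?_⟩
      have h4 := congrArg (Ideal.map (onInt J)) hxy
      rw [Ideal.map_mul, Ideal.map_mul, Ideal.map_span, Ideal.map_span, Set.image_singleton,
        Set.image_singleton] at h4
      rw [show ((ClassGroup.extendedIdeal (𝓞 F) (𝓞 K) b : (Ideal (𝓞 K))⁰) : Ideal (𝓞 K))
        = (b : Ideal (𝓞 F)).map (algebraMap (𝓞 F) (𝓞 K)) from rfl, map_onInt_map] at h4
      exact h4
    have h5 : ClassGroup.mk0 (ClassGroup.extendedIdeal (𝓞 F) (𝓞 K) b) =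
        ClassGroup.mk0 (⟨I, hI0⟩ : (Ideal (𝓞 K))⁰) := by
      rw [ClassGroup.mk0_eq_mk0_iff]
      exact ⟨x, y, hx, hy, hxy⟩
    rw [← h3, h5, ← pow_two] at hmul
    apply hne
    have hco : Nat.Coprime 2 p :=
      (Nat.coprime_primes Nat.prime_two (Fact.out : p.Prime)).mpr hp2.symm
    have h6 := Nat.dvd_gcd (orderOf_dvd_of_pow_eq_one hmul) (orderOf_dvd_of_pow_eq_one hxp)
    rw [Nat.coprime_iff_gcd_eq_one.mp hco, Nat.dvd_one, orderOf_eq_one_iff] at h6
    exact h6

end Fermat.Agent.Cor.Kum
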