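import Fermat.Agent.Corollaries.Kum.Ideal
import Fermat.Agent.Corollaries.Kum.Quad

/-!
# An unramified extension of degree `p` of `ℚ(ζ_p)⁺` and the relative class number

`lt_of_comp`: `F = K⁺`, `K = ℚ(ζ_p)`, `L / F` Galois of degree `p`, unramified at all primes,
`M / F` Galois of degree `2p` containing `K` and `L`: `v_p(h(F)) < v_p(h(K))`.
-/

set_option autoImplicit false

noncomputable section

namespace Fermat.Agent.Cor.Kum

open NumberField NumberField.Units NumberField.IsCMField Ideal IsCyclotomicExtension Module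

section group

variable {F K M : Type*} [Field F] [Field K] [Field M] [Algebra F K] [Algebra F M] [Algebra K M]
  [IsScalarTower F K M] [FiniteDimensional F M] [IsGalois F K]

omit [FiniteDimensional F M] in
theorem mem_ker_restrict {g : M ≃ₐ[F] M}
    (h : g ∈ (AlgEquiv.restrictNormalHom (F := F) (K₁ := M) K).ker)
    (x : K) : g (algebraMap K M x) = algebraMap K M x := by
  have h1 := AlgEquiv.restrictNormal_commutes g K x
  rw [MonoidHom.mem_ker] at h
  have h2 : g.restrictNormal K = 1 := h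
  rw [h2] at h1
  exact h1.symm

theorem card_ker_restrict [IsGalois F M] :
    Nat.card (AlgEquiv.restrictNormalHom (F := F) (K₁ := M) K).ker * finrank F K =
      finrank F M := by
  have : FiniteDimensional F K := FiniteDimensional.left F K M
  have h1 := Subgroup.card_mul_index (AlgEquiv.restrictNormalHom (F := F) (K₁ := M) K).ker
  rw [Subgroup.index_ker, MonoidHom.range_eq_top.mpr
    (AlgEquiv.restrictNormalHom_surjective (F := F) (K₁ := K) M), Subgroup.card_top,
    IsGalois.card_aut_eq_finrank] at h1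
  rw [IsGalois.card_aut_eq_finrank] at h1
  exact h1

end group

/-- The ramification index in a Galois extension divides the degree. -/
theorem ramificationIdx_dvd {K M : Type*} [Field K] [NumberField K] [Field M] [NumberField M]
    [Algebra K M] [IsGalois K M] (P : Ideal (𝓞 M)) [P.IsPrime] :
    P.ramificationIdx (𝓞 K) ∣ finrank K M := by
  set Q := P.under (𝓞 K) with hQ
  have : P.LiesOver Q := ⟨rfl⟩
  have h1 := ncard_primesOver_mul_ramificationIdxIn_mul_inertiaDegIn Q (𝓞 M) Gal(M/K)
  rw [ramificationIdxIn_eq_ramificationIdx Q P Gal(M/K), IsGalois.card_aut_eq_finrank] at h1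
  rw [← h1]
  exact (Dvd.intro _ rfl).trans (Dvd.intro_left _ rfl)

section comp

variable (p : ℕ) [hp : Fact p.Prime] (hp2 : p ≠ 2) {F K L M : Type*} [Field F] [NumberField F]
  [Field K] [NumberField K] [hK : IsCyclotomicExtension {p} ℚ K] [IsCMField K] [Field L]
  [NumberField L] [Field M] [NumberField M] [Algebra F K] [Algebra F L] [Algebra F M]
  [Algebra K M] [Algebra L M] [IsScalarTower F K M] [IsScalarTower F L M] [IsGalois F K]
  [IsGalois F L] [IsGalois F M]

include hp2 in
theorem lt_of_comp (hFK : finrank F K = 2) (J : K ≃ₐ[F] K) (hJ1 : J ≠ 1)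
    (hJ : ∀ x, J x = complexConj K x) (hL : finrank F L = p) (hM : finrank F M = 2 * p)
    (hunr : ∀ P : Ideal (𝓞 L), P.IsPrime → P ≠ ⊥ → P.ramificationIdx (𝓞 F) = 1) :
    padicValNat p (classNumber F) < padicValNat p (classNumber K) := by
  have hKM : IsGalois K M := IsGalois.tower_top_of_isGalois F K M
  have hLM : IsGalois L M := IsGalois.tower_top_of_isGalois F L M
  have hKMr : finrank K M = p := by
    have h1 := finrank_mul_finrank F K M
    rw [hFK, hM] at h1
    exact Nat.eq_of_mul_eq_mul_left two_pos h1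
  have hLMr : finrank L M = 2 := by
    have h1 := finrank_mul_finrank F L M
    rw [hL, hM, mul_comm 2 p] at h1
    exact Nat.eq_of_mul_eq_mul_left hp.out.pos h1
  set NK := (AlgEquiv.restrictNormalHom (F := F) (K₁ := M) K).ker with hNK
  set NL := (AlgEquiv.restrictNormalHom (F := F) (K₁ := M) L).ker with hNL
  have cK : Nat.card NK = p := by
    have h1 := card_ker_restrict (F := F) (K := K) (M := M)
    rw [hFK, hM, mul_comm 2 p] at h1
    exact Nat.eq_of_mul_eq_mul_right two_pos h1
  have cL : Nat.card NL = 2 := by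
    have h1 := card_ker_restrict (F := F) (K := L) (M := M)
    rw [hL, hM] at h1
    exact Nat.eq_of_mul_eq_mul_right hp.out.pos h1
  have hinf : NK ⊓ NL = ⊥ := (Subgroup.disjoint_of_coprime_natCard (by
    rw [cK, cL]
    exact (Nat.coprime_primes hp.out Nat.prime_two).mpr hp2)).eq_bot
  -- the element of order two
  obtain ⟨τ, hτL, hτ1⟩ : ∃ τ : M ≃ₐ[F] M, τ ∈ NL ∧ τ ≠ 1 := by
    have : Nontrivial NL := by
      rw [← Finite.one_lt_card_iff_nontrivial, cL]
      exact one_lt_two
    obtain ⟨τ, hτ⟩ := exists_ne (1 : NL)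
    exact ⟨τ.1, τ.2, fun h => hτ (Subtype.ext h)⟩
  have hτK : AlgEquiv.restrictNormalHom (F := F) (K₁ := M) K τ = J := by
    have h1 : AlgEquiv.restrictNormalHom (F := F) (K₁ := M) K τ ≠ 1 := by
      intro h
      have h2 : τ ∈ NK ⊓ NL := ⟨h, hτL⟩
      rw [hinf, Subgroup.mem_bot] at h2
      exact hτ1 h2
    have h2 : Nat.card (K ≃ₐ[F] K) = 2 := by rw [IsGalois.card_aut_eq_finrank, hFK]
    have h3 := (Nat.card_eq_two_iff' (1 : K ≃ₐ[F] K)).mp h2
    exact h3.unique h1 hJ1
  have hτc : ∀ x : K, τ (algebraMap K M x) = algebraMap K M (complexConj K x) := by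
    intro x
    rw [← hJ, ← hτK]
    exact (AlgEquiv.restrictNormal_commutes τ K x).symm
  have hcomm : ∀ (σ : M ≃ₐ[K] M) (x : M), σ (τ x) = τ (σ x) := by
    intro σ x
    set s : M ≃ₐ[F] M := σ.restrictScalars F with hs
    have hsK : s ∈ NK := by
      rw [hNK, MonoidHom.mem_ker]
      refine AlgEquiv.ext fun y => (algebraMap K M).injective ?_
      have h1 := AlgEquiv.restrictNormal_commutes s K y
      exact h1.trans (σ.commutes y)
    have h1 : s * τ * s⁻¹ * τ⁻¹ ∈ NK ⊓ NL := by
      refine ⟨?_, ?_⟩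
      · have h2 : s * (τ * s⁻¹ * τ⁻¹) ∈ NK :=
          NK.mul_mem hsK ((MonoidHom.normal_ker _).conj_mem _ (NK.inv_mem hsK) τ)
        rwa [← mul_assoc, ← mul_assoc] at h2
      · exact NL.mul_mem ((MonoidHom.normal_ker _).conj_mem _ hτL s) (NL.inv_mem hτL)
    rw [hinf, Subgroup.mem_bot, mul_inv_eq_one, mul_inv_eq_iff_eq_mul] at h1
    exact DFunLike.congr_fun h1 x
  -- `M / K` is unramified
  have hunrK : ∀ P : Ideal (𝓞 M), P.IsPrime → P ≠ ⊥ → P.ramificationIdx (𝓞 K) = 1 := by
    intro P hP hP0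
    have h1 : P.ramificationIdx (𝓞 F) =
        (P.under (𝓞 K)).ramificationIdx (𝓞 F) * P.ramificationIdx (𝓞 K) :=
      ramificationIdx_tower (P.under (𝓞 K)) P
    have h2 : P.ramificationIdx (𝓞 F) =
        (P.under (𝓞 L)).ramificationIdx (𝓞 F) * P.ramificationIdx (𝓞 L) :=
      ramificationIdx_tower (P.under (𝓞 L)) P
    have hPL0 : P.under (𝓞 L) ≠ ⊥ := by
      intro h
      apply hP0
      exact eq_bot_of_comap_eq_bot h
    rw [hunr (P.under (𝓞 L)) inferInstance hPL0, one_mul] at h2
    have h3 : P.ramificationIdx (𝓞 K) ∣ 2 :=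
      (Dvd.intro_left ((P.under (𝓞 K)).ramificationIdx (𝓞 F)) (by rw [← h1, h2])).trans
        (hLMr ▸ ramificationIdx_dvd (K := L) P)
    have h4 : P.ramificationIdx (𝓞 K) ∣ p := hKMr ▸ ramificationIdx_dvd (K := K) P
    have h5 := Nat.dvd_gcd h3 h4
    rwa [(Nat.coprime_primes Nat.prime_two hp.out).mpr (Ne.symm hp2), Nat.dvd_one] at h5
  obtain ⟨I, hI0, hI1, hI2, hI3⟩ := exists_ideal p hp2 hKMr hunrK τ.toRingEquiv hτc hcomm
  refine lt_of_ideal hFK J hJ1 hp2 I hI0 hI1 hI2 ?_
  have hJJ : (RingOfIntegers.mapRingEquiv J.toRingEquiv : 𝓞 K →+* 𝓞 K) =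
      (RingOfIntegers.mapRingEquiv (complexConj K).toRingEquiv : 𝓞 K →+* 𝓞 K) :=
    RingHom.ext fun x => RingOfIntegers.ext (hJ x)
  rw [hJJ]
  exact hI3

end comp

end Fermat.Agent.Cor.Kum
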