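import Fermat.Agent.Corollaries.Kum.Lt
import Fermat.Agent.Corollaries.Kum.Comp
import Fermat.Agent.Corollaries.ZetaK.Kummer

/-!
# Kummer's criterion for regular primes

`lt_of_dvd`: if `p` divides the class number of `ℚ(ζ_p)⁺` then it divides the relative class
number; hence (`kummer_regular_of`) **`p ∤ h(ℚ(ζ_p))` iff `p` divides the numerator of none of the
Bernoulli numbers `B_2, B_4, …, B_{p-3}`**. The input `UnrStmt p` is: a number field whose class
number is divisible by `p` has an unramified cyclic extension of degree `p` (class field theory).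
-/

set_option autoImplicit false

noncomputable section

namespace Fermat.Agent.Cor.Kum

open NumberField NumberField.IsCMField Ideal Module IsDedekindDomain

/-- `p ∣ h(K)` ⟹ `K` has a cyclic extension of degree `p` which is unramified at all primes. -/
def UnrStmt (p : ℕ) : Prop :=
  ∀ (K : Type) [Field K] [NumberField K], p ∣ classNumber K →
    ∃ (L : Type) (_ : Field L) (_ : NumberField L) (_ : Algebra K L), IsGalois K L ∧
      finrank K L = p ∧ ∀ w : HeightOneSpectrum (𝓞 L),
        (w.under (𝓞 K)).asIdeal.ramificationIdx' w.asIdeal = 1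

variable (p : ℕ) [hp : Fact p.Prime]

theorem lt_of_dvd (hU : UnrStmt p) (hp2 : p ≠ 2) (K : Type) [Field K] [NumberField K]
    [hK : IsCyclotomicExtension {p} ℚ K] [IsCMField K]
    (h : p ∣ classNumber (maximalRealSubfield K)) :
    padicValNat p (classNumber (maximalRealSubfield K)) < padicValNat p (classNumber K) := by
  obtain ⟨L, fL, nL, aL, gL, hL, hunr⟩ := hU (maximalRealSubfield K) h
  have hFK : finrank (maximalRealSubfield K) K = 2 :=
    Algebra.IsQuadraticExtension.finrank_eq_two (maximalRealSubfield K) K
  obtain ⟨M, fM, nM, aM, aKM, aLM, tK, tL, gM, hM⟩ := exists_comp hFK hL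
    ((Nat.coprime_primes Nat.prime_two hp.out).mpr (Ne.symm hp2))
  refine lt_of_comp (F := maximalRealSubfield K) (K := K) (L := L) (M := M) p hp2 hFK
    (complexConj K) (complexConj_ne_one K) (fun x => rfl) hL hM ?_
  intro P hP hP0
  set w : HeightOneSpectrum (𝓞 L) := ⟨P, hP, hP0⟩ with hw
  have hl : P.LiesOver (w.under (𝓞 (maximalRealSubfield K))).asIdeal := ⟨rfl⟩
  have h1 := hunr w
  rwa [ramificationIdx'_eq_ramificationIdx _ P (HeightOneSpectrum.ne_bot _)] at h1

/-- **Kummer's criterion for regular primes**, from the existence of unramified extensions. -/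
theorem kummer_regular_of (hU : UnrStmt p) (hp2 : p ≠ 2) (K : Type) [Field K] [NumberField K]
    [hK : IsCyclotomicExtension {p} ℚ K] :
    ¬ p ∣ classNumber K ↔
      ∀ k, Even k → 2 ≤ k → k ≤ p - 3 → ¬ (p : ℤ) ∣ (bernoulli k).num := by
  have hp3 : 2 < p := lt_of_le_of_ne hp.out.two_le (Ne.symm hp2)
  have hCM : IsCMField K := IsCyclotomicExtension.Rat.isCMField K (S := {p})
    ⟨p, Set.mem_singleton p, hp3⟩
  constructor
  · intro h k h1 h2 h3 h4
    exact h (Kummer.dvd_classNumber p K h1 h2 h3 h4)
  · intro h hdvd
    have hlt : padicValNat p (classNumber (maximalRealSubfield K)) <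
        padicValNat p (classNumber K) := by
      by_cases hd : p ∣ classNumber (maximalRealSubfield K)
      · exact lt_of_dvd p hU hp2 K hd
      · rw [padicValNat.eq_zero_of_not_dvd hd]
        exact Nat.pos_of_ne_zero fun h0 => by
          have h1 := (padicValNat_dvd_iff_le (p := p) (n := 1) (classNumber_pos K).ne').mp
            (by rwa [pow_one])
          omega
    obtain ⟨k, h1, h2, h3, h4⟩ := (Kummer.kummer_criterion p hp2 K).mp hlt
    exact h k h1 h2 h3 h4

end Fermat.Agent.Cor.Kum
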