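import Fermat.Agent.Corollaries.Kum.Final

/-!
# Kummer's criterion in every universe, and the table of the irregular primes

* `classNumber_congr`: isomorphic number fields (in any universes) have the same class number;
* `kummer_criterion_regular`: Kummer's criterion for `K : Type u`;
* `dvd_classNumber_iff_of_lt`: the primes `2 < p < 164` with `p ∣ h(ℚ(ζ_p))` are exactly
  `37, 59, 67, 101, 103, 131, 149, 157`.
-/

set_option autoImplicit false

noncomputable section

universe u v

namespace Fermat.Agent.Cor.Kum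

open NumberField

/-- The class number depends only on the isomorphism class of the field. -/
theorem classNumber_congr {K : Type u} {L : Type v} [Field K] [NumberField K] [Field L]
    [NumberField L] (e : K ≃+* L) : classNumber K = classNumber L :=
  Fintype.card_congr (ClassGroup.mulEquiv (RingOfIntegers.mapRingEquiv e)).toEquiv

variable (p : ℕ) [hp : Fact p.Prime]

/-- **Kummer's criterion for regular primes**, every universe. -/
theorem kummer_criterion_regular (hp2 : p ≠ 2) (K : Type u) [Field K] [NumberField K]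
    [IsCyclotomicExtension {p} ℚ K] :
    ¬ p ∣ classNumber K ↔
      ∀ k, Even k → 2 ≤ k → k ≤ p - 3 → ¬ (p : ℤ) ∣ (bernoulli k).num := by
  have : NeZero p := ⟨hp.out.ne_zero⟩
  have h4 : @IsCyclotomicExtension {p} ℚ (CyclotomicField p ℚ) _ _ DivisionRing.toRatAlgebra := by
    rw [Subsingleton.elim (DivisionRing.toRatAlgebra : Algebra ℚ (CyclotomicField p ℚ))
      (CyclotomicField.algebra p ℚ)]
    exact CyclotomicField.isCyclotomicExtension p ℚ
  rw [classNumber_congr (IsCyclotomicExtension.algEquiv {p} ℚ K (CyclotomicField p ℚ)).toRingEquiv]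
  exact kummer_regular p hp2 (CyclotomicField p ℚ)

/-- The same with power sums. -/
theorem dvd_classNumber_iff_sum (hp2 : p ≠ 2) (K : Type u) [Field K] [NumberField K]
    [IsCyclotomicExtension {p} ℚ K] :
    p ∣ classNumber K ↔
      ∃ k, Even k ∧ 2 ≤ k ∧ k ≤ p - 3 ∧ p ^ 2 ∣ ∑ a ∈ Finset.range p, a ^ k := by
  have hp3 : 3 ≤ p := by
    have := hp.out.two_le
    omega
  rw [← not_iff_not, kummer_criterion_regular p hp2 K]
  push Not
  refine forall_congr' fun k => forall_congr' fun h1 => forall_congr' fun h2 =>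
    forall_congr' fun h3 => ?_
  rw [Kummer.sq_dvd_sum_iff p (by omega)]

/-- `0 ^ k + 1 ^ k + ⋯ + (n - 1) ^ k`. -/
def sumPow (k : ℕ) : ℕ → ℕ
  | 0 => 0
  | n + 1 => sumPow k n + n ^ k

theorem sumPow_eq (k n : ℕ) : sumPow k n = ∑ a ∈ Finset.range n, a ^ k := by
  induction n with
  | zero => rfl
  | succ n ih => rw [sumPow, ih, Finset.sum_range_succ]

/-- The test for irregularity. -/
def irr (p : ℕ) : Bool :=
  (List.range ((p - 3) / 2)).any fun j => sumPow (2 * (j + 1)) p % p ^ 2 == 0

theorem irr_iff (p : ℕ) : irr p = true ↔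
    ∃ k, Even k ∧ 2 ≤ k ∧ k ≤ p - 3 ∧ p ^ 2 ∣ ∑ a ∈ Finset.range p, a ^ k := by
  rw [irr, List.any_eq_true]
  constructor
  · rintro ⟨j, hj, h⟩
    rw [List.mem_range] at hj
    refine ⟨2 * (j + 1), even_two_mul _, by omega, by omega, ?_⟩
    rw [← sumPow_eq]
    exact Nat.dvd_of_mod_eq_zero (beq_iff_eq.mp h)
  · rintro ⟨k, hk, h2, h3, h⟩
    obtain ⟨j, rfl⟩ := hk.two_dvd
    refine ⟨j - 1, List.mem_range.mpr (by omega), ?_⟩
    rw [← sumPow_eq] at h
    rw [show 2 * (j - 1 + 1) = 2 * j by omega]
    exact beq_iff_eq.mpr (Nat.mod_eq_zero_of_dvd h)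

/-- The odd primes less than `164`. -/
def primes164 : List ℕ := [3, 5, 7, 11, 13, 17, 19, 23, 29, 31, 37, 41, 43, 47, 53, 59, 61, 67,
  71, 73, 79, 83, 89, 97, 101, 103, 107, 109, 113, 127, 131, 137, 139, 149, 151, 157, 163]

theorem mem_primes164 {p : ℕ} (hp : p.Prime) (h2 : p ≠ 2) (h : p < 164) : p ∈ primes164 := by
  by_contra hn
  interval_cases p <;> first
    | exact h2 rfl
    | exact hn (by decide)
    | exact absurd hp (by norm_num)

theorem irr_table : ∀ q ∈ primes164,
    irr q = decide (q ∈ [37, 59, 67, 101, 103, 131, 149, 157]) := by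
  decide +kernel

/-- **The irregular primes below `164`**: an odd prime `p < 164` divides the class number of
`ℚ(ζ_p)` iff `p` is one of `37, 59, 67, 101, 103, 131, 149, 157` (Kummer's table of 1874). -/
theorem dvd_classNumber_iff_of_lt (hp2 : p ≠ 2) (h : p < 164) (K : Type u) [Field K]
    [NumberField K] [IsCyclotomicExtension {p} ℚ K] :
    p ∣ classNumber K ↔ p ∈ [37, 59, 67, 101, 103, 131, 149, 157] := by
  rw [dvd_classNumber_iff_sum p hp2 K, ← irr_iff p,
    irr_table p (mem_primes164 hp.out hp2 h), decide_eq_true_iff]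

/-- The primes less than `37` are regular. -/
theorem not_dvd_classNumber_of_lt (hp2 : p ≠ 2) (h : p < 37) (K : Type u) [Field K]
    [NumberField K] [IsCyclotomicExtension {p} ℚ K] : ¬ p ∣ classNumber K := by
  rw [dvd_classNumber_iff_of_lt p hp2 (by omega) K]
  intro h'
  simp only [List.mem_cons, List.not_mem_nil, or_false] at h'
  omega

end Fermat.Agent.Cor.Kum
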