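import Fermat.Agent.Corollaries.Kum.Irregular
import Fermat.Agent.Corollaries.Kum.Table
import Fermat.Agent.Corollaries.Kum.Example
import Fermat.Agent.Corollaries.Ambi.CycloDvd

/-!
# Class numbers of `ℚ(ζ_n)`, `n` a multiple of an irregular prime

* `dvd_classNumber_of_dvd`: `p` irregular, `p ∣ n`: `p` divides the class number of `ℚ(ζ_n)`;
* `dvd_classNumber_of_mem`: the case `p = 37, 59, 67, 101, 103, 131, 149, 157`;
* `three_dvd_of_dvd`, `five_dvd_of_dvd`: `23 ∣ n`, `47 ∣ n`;
* `not_uniqueFactorizationMonoid_of_dvd`: unique factorization fails in all these fields.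
-/

set_option autoImplicit false

noncomputable section

namespace Fermat.Agent.Cor.Kum

open NumberField

variable {n : ℕ} (hn : n ≠ 0) (L : Type) [Field L] [NumberField L] [IsCyclotomicExtension {n} ℚ L]

theorem isCyclotomicExtension_cyclotomicField (m : ℕ) [NeZero m] :
    @IsCyclotomicExtension {m} ℚ (CyclotomicField m ℚ) _ _ DivisionRing.toRatAlgebra := by
  rw [Subsingleton.elim (DivisionRing.toRatAlgebra : Algebra ℚ (CyclotomicField m ℚ))
    (CyclotomicField.algebra m ℚ)]
  exact CyclotomicField.isCyclotomicExtension m ℚ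

include hn

/-- `h(ℚ(ζ_m)) ∣ h(ℚ(ζ_n))` for `m ∣ n`, the first field being Mathlib's `CyclotomicField m ℚ`. -/
theorem classNumber_cyclotomicField_dvd {m : ℕ} [NeZero m] (h : m ∣ n) :
    classNumber (CyclotomicField m ℚ) ∣ classNumber L := by
  have h4 := isCyclotomicExtension_cyclotomicField m
  exact Ambi.classNumber_cyclotomic_dvd hn h (CyclotomicField m ℚ) L

/-- **An irregular prime `p` divides the class number of `ℚ(ζ_n)` for every multiple `n` of `p`.** -/
theorem dvd_classNumber_of_dvd {p : ℕ} (hp : p.Prime) {k : ℕ} (hk : Even k) (hk2 : 2 ≤ k)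
    (hkp : k ≤ p - 3) (hd : (p : ℤ) ∣ (bernoulli k).num) (h : p ∣ n) : p ∣ classNumber L := by
  have : Fact p.Prime := ⟨hp⟩
  have : NeZero p := ⟨hp.ne_zero⟩
  have h4 := isCyclotomicExtension_cyclotomicField p
  exact (Kummer.dvd_classNumber p (CyclotomicField p ℚ) hk hk2 hkp hd).trans
    (classNumber_cyclotomicField_dvd hn L h)

/-- The irregular primes below `164`. -/
theorem dvd_classNumber_of_mem {p : ℕ} (hp : p ∈ [37, 59, 67, 101, 103, 131, 149, 157])
    (h : p ∣ n) : p ∣ classNumber L := by
  have hpp : p.Prime ∧ p ≠ 2 ∧ p < 164 := by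
    simp only [List.mem_cons, List.not_mem_nil, or_false] at hp
    rcases hp with rfl | rfl | rfl | rfl | rfl | rfl | rfl | rfl <;> norm_num
  have : Fact p.Prime := ⟨hpp.1⟩
  have : NeZero p := ⟨hpp.1.ne_zero⟩
  have h4 := isCyclotomicExtension_cyclotomicField p
  exact ((dvd_classNumber_iff_of_lt p hpp.2.1 hpp.2.2 (CyclotomicField p ℚ)).mpr hp).trans
    (classNumber_cyclotomicField_dvd hn L h)

/-- `3` divides the class number of `ℚ(ζ_n)`, `23 ∣ n`. -/
theorem three_dvd_of_dvd (h : 23 ∣ n) : 3 ∣ classNumber L := by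
  have h4 := isCyclotomicExtension_cyclotomicField 23
  exact (three_dvd_twentyThree (CyclotomicField 23 ℚ)).trans
    (classNumber_cyclotomicField_dvd hn L h)

/-- `5` divides the class number of `ℚ(ζ_n)`, `47 ∣ n`. -/
theorem five_dvd_of_dvd (h : 47 ∣ n) : 5 ∣ classNumber L := by
  have h4 := isCyclotomicExtension_cyclotomicField 47
  exact (five_dvd_fortySeven (CyclotomicField 47 ℚ)).trans
    (classNumber_cyclotomicField_dvd hn L h)

/-- **Unique factorization fails in the ring of integers of `ℚ(ζ_n)`** if `n` is divisible by one of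
the primes `23, 37, 47, 59, 67, 101, 103, 131, 149, 157`. -/
theorem not_uniqueFactorizationMonoid_of_dvd {p : ℕ}
    (hp : p ∈ [23, 37, 47, 59, 67, 101, 103, 131, 149, 157]) (h : p ∣ n) :
    ¬ UniqueFactorizationMonoid (𝓞 L) := by
  intro hu
  have h1 := classNumber_eq_one_iff.mpr
    (IsPrincipalIdealRing.of_isDedekindDomain_of_uniqueFactorizationMonoid (𝓞 L))
  by_cases h23 : p = 23
  · subst h23
    have h2 := three_dvd_of_dvd hn L h
    rw [h1] at h2
    norm_num at h2
  by_cases h47 : p = 47
  · subst h47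
    have h2 := five_dvd_of_dvd hn L h
    rw [h1] at h2
    norm_num at h2
  have hp' : p ∈ [37, 59, 67, 101, 103, 131, 149, 157] := by
    simp only [List.mem_cons, List.not_mem_nil, or_false] at hp ⊢
    omega
  have h2 := dvd_classNumber_of_mem hn L hp' h
  rw [h1, Nat.dvd_one] at h2
  subst h2
  simp at hp'

end Fermat.Agent.Cor.Kum
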