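import Fermat.Agent.Corollaries.Kum.Congr

/-!
# The `p`-adic zeta function (Kubota and Leopoldt)

`existsUnique_padicZeta`: for a prime `p` and an even `i` which is not divisible by `p - 1` there is
exactly one continuous function `f : ℤ_p → ℚ_p` with
`f(k) = -(1 - p ^ (k - 1)) B_k / k` (this is `(1 - p ^ (k - 1)) ζ(1 - k)`) for all positive integers
`k ≡ i mod p - 1`. It satisfies `|f(x) - f(y)| ≤ |x - y| / p` and has values in `ℤ_p`.
-/

set_option autoImplicit false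

noncomputable section

namespace Fermat.Agent.Cor.Kum

open Finset

variable {p : ℕ} [hp : Fact p.Prime]

/-- `X_k = (1 - p ^ (k - 1)) B_k / k` is Lipschitz in `k` on a residue class modulo `p - 1`. -/
theorem norm_xb_sub_le {i k l : ℕ} (hi : Even i) (hd : ¬ (p - 1) ∣ i) (hk0 : 0 < k) (hl0 : 0 < l)
    (hk : k ≡ i [MOD p - 1]) (hl : l ≡ i [MOD p - 1]) :
    ‖xb p k - xb p l‖ ≤ (p : ℝ)⁻¹ * ‖(k : ℤ_[p]) - l‖ := by
  have hp5 := five_le hi hd
  have hkd : ¬ (p - 1) ∣ k := fun h => hd ((hk.dvd_iff dvd_rfl).mp h)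
  have hke : Even k := by
    have h2 : k ≡ i [MOD 2] := hk.of_dvd (by
      obtain ⟨t, ht⟩ := hp.out.odd_of_ne_two (by omega)
      exact ⟨t, by omega⟩)
    rw [Nat.even_iff] at hi ⊢
    have h3 : k % 2 = i % 2 := h2
    omega
  rcases eq_or_ne k l with rfl | hne
  · rw [sub_self, norm_zero, sub_self, norm_zero, mul_zero]
  have hne' : (k : ℤ_[p]) - l ≠ 0 := by
    rw [sub_ne_zero]
    exact_mod_cast hne
  set r := ((k : ℤ_[p]) - l).valuation with hr
  have h1 : ‖(k : ℤ_[p]) - l‖ = (p : ℝ) ^ (-(r : ℤ)) := PadicInt.norm_eq_zpow_neg_valuation hne'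
  have h2 : ((p : ℤ) ^ r) ∣ (k : ℤ) - l := by
    rw [← Padic.norm_int_le_pow_iff_dvd]
    have h3 : ‖(((k : ℤ) - l : ℤ) : ℚ_[p])‖ = ‖(k : ℤ_[p]) - l‖ := by
      rw [PadicInt.norm_def]
      push_cast
      rfl
    rw [h3, h1]
  have h3 : k ≡ l [MOD (p - 1) * p ^ r] := by
    have hco : (p - 1).Coprime (p ^ r) := by
      refine Nat.Coprime.pow_right r ?_
      rw [Nat.coprime_comm, Nat.Prime.coprime_iff_not_dvd hp.out]
      intro h
      have := Nat.le_of_dvd (by omega) h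
      omega
    rw [← Nat.modEq_and_modEq_iff_modEq_mul hco]
    refine ⟨hk.trans hl.symm, ?_⟩
    refine Nat.ModEq.symm ?_
    rw [Nat.modEq_iff_dvd]
    exact_mod_cast h2
  have h4 := kummer_congruence hke hk0 hl0 hkd h3
  rw [h1, ← zpow_neg_one, ← zpow_add₀ p_pos.ne']
  refine h4.trans (le_of_eq ?_)
  congr 1
  push_cast
  ring

/-- The positive integers in a residue class modulo `p - 1` are dense in `ℤ_p`. -/
theorem exists_close (i : ℕ) (x : ℤ_[p]) (n : ℕ) : ∃ k : ℕ, 0 < k ∧ k ≡ i [MOD p - 1] ∧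
    ‖x - k‖ ≤ (p : ℝ) ^ (-(n : ℤ)) := by
  have h2 := hp.out.two_le
  have hco : (p ^ n).Coprime (p - 1) := by
    refine Nat.Coprime.pow_left n ?_
    rw [Nat.Prime.coprime_iff_not_dvd hp.out]
    intro h
    have := Nat.le_of_dvd (by omega) h
    omega
  obtain ⟨k, hk1, hk2⟩ := Nat.chineseRemainder hco (x.appr n) i
  refine ⟨k + p ^ n * (p - 1), ?_, ?_, ?_⟩
  · have : 0 < p ^ n * (p - 1) := Nat.mul_pos (pow_pos hp.out.pos n) (by omega)
    omega
  · have h3 : k + p ^ n * (p - 1) ≡ k + 0 [MOD p - 1] :=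
      Nat.ModEq.add_left k ((Nat.modEq_zero_iff_dvd).mpr (dvd_mul_left _ _))
    exact h3.trans hk2
  · rw [PadicInt.norm_le_pow_iff_mem_span_pow, Ideal.mem_span_singleton]
    have h3 := Ideal.mem_span_singleton.mp (PadicInt.appr_spec n x)
    have h4 : ((p : ℤ_[p]) ^ n) ∣ (x.appr n : ℤ_[p]) - (k + p ^ n * (p - 1) : ℕ) := by
      have h5 : k + p ^ n * (p - 1) ≡ x.appr n [MOD p ^ n] := by
        have h6 : k + p ^ n * (p - 1) ≡ k + 0 [MOD p ^ n] :=
          Nat.ModEq.add_left k ((Nat.modEq_zero_iff_dvd).mpr (dvd_mul_right _ _))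
        exact h6.trans hk1
      obtain ⟨c, hc⟩ := (Nat.modEq_iff_dvd).mp h5
      refine ⟨(c : ℤ_[p]), ?_⟩
      have := congrArg (Int.cast : ℤ → ℤ_[p]) hc
      push_cast at this ⊢
      exact this
    have h5 := dvd_add h3 h4
    rwa [sub_add_sub_cancel] at h5

/-- The domain of interpolation. -/
def Dom (p : ℕ) [Fact p.Prime] (i : ℕ) : Type :=
  {x : ℤ_[p] // ∃ k : ℕ, 0 < k ∧ k ≡ i [MOD p - 1] ∧ (k : ℤ_[p]) = x}

instance (i : ℕ) : PseudoMetricSpace (Dom p i) := inferInstanceAs (PseudoMetricSpace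
  {x : ℤ_[p] // ∃ k : ℕ, 0 < k ∧ k ≡ i [MOD p - 1] ∧ (k : ℤ_[p]) = x})

theorem denseRange_dom (i : ℕ) : DenseRange (Subtype.val : Dom p i → ℤ_[p]) := by
  intro x
  rw [Metric.mem_closure_iff]
  intro ε hε
  have hp1 : (p : ℝ)⁻¹ < 1 := inv_lt_one_of_one_lt₀ (by exact_mod_cast hp.out.one_lt)
  obtain ⟨n, hn⟩ := exists_pow_lt_of_lt_one hε hp1
  obtain ⟨k, h1, h2, h3⟩ := exists_close i x n
  refine ⟨(k : ℤ_[p]), ⟨⟨(k : ℤ_[p]), k, h1, h2, rfl⟩, rfl⟩, ?_⟩
  rw [dist_eq_norm]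
  refine h3.trans_lt ?_
  rwa [zpow_neg, zpow_natCast, ← inv_pow]

/-- **The `p`-adic zeta function**: existence. -/
theorem exists_padicZeta {i : ℕ} (hi : Even i) (hd : ¬ (p - 1) ∣ i) :
    ∃ f : ℤ_[p] → ℚ_[p], Continuous f ∧
      (∀ k : ℕ, 0 < k → k ≡ i [MOD p - 1] →
        f k = -((1 - (p : ℚ_[p]) ^ (k - 1)) * ((bernoulli k : ℚ) : ℚ_[p]) / k)) ∧
      (∀ x y, ‖f x - f y‖ ≤ (p : ℝ)⁻¹ * ‖x - y‖) ∧ ∀ x, ‖f x‖ ≤ 1 := by
  classical
  let num : Dom p i → ℕ := fun x => x.2.choose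
  have hnum : ∀ x : Dom p i, 0 < num x ∧ num x ≡ i [MOD p - 1] ∧ (num x : ℤ_[p]) = x.1 :=
    fun x => x.2.choose_spec
  let g : Dom p i → ℚ_[p] := fun x => -xb p (num x)
  have hg : ∀ x y : Dom p i, ‖g x - g y‖ ≤ (p : ℝ)⁻¹ * ‖x.1 - y.1‖ := by
    intro x y
    obtain ⟨h1, h2, h3⟩ := hnum x
    obtain ⟨h4, h5, h6⟩ := hnum y
    have h7 := norm_xb_sub_le (p := p) hi hd h1 h4 h2 h5
    rw [h3, h6] at h7
    have h8 : g x - g y = -(xb p (num x) - xb p (num y)) := by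
      change -xb p (num x) - -xb p (num y) = _
      ring
    rwa [h8, norm_neg]
  have hinv : (p : ℝ)⁻¹ ≤ 1 := inv_le_one_of_one_le₀ one_le_p
  have huc : UniformContinuous g := by
    refine (LipschitzWith.of_dist_le_mul (K := 1) fun x y => ?_).uniformContinuous
    rw [dist_eq_norm, NNReal.coe_one, one_mul]
    refine (hg x y).trans ?_
    have h1 : dist x y = ‖x.1 - y.1‖ := dist_eq_norm x.1 y.1
    rw [h1]
    exact mul_le_of_le_one_left (norm_nonneg _) hinv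
  have he : IsUniformInducing (Subtype.val : Dom p i → ℤ_[p]) :=
    isUniformEmbedding_subtype_val.isUniformInducing
  have hdr := denseRange_dom (p := p) i
  set f := (he.isDenseInducing hdr).extend g with hf
  have hfc : UniformContinuous f := uniformContinuous_uniformly_extend he hdr huc
  have hfe : ∀ b : Dom p i, f b.1 = g b := fun b => uniformly_extend_of_ind he hdr huc b
  have hLip : ∀ x y, ‖f x - f y‖ ≤ (p : ℝ)⁻¹ * ‖x - y‖ := by
    refine isClosed_property2 hdr ?_ fun a b => ?_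
    · refine isClosed_le ?_ ?_
      · exact ((hfc.continuous.comp continuous_fst).sub (hfc.continuous.comp continuous_snd)).norm
      · exact continuous_const.mul (continuous_fst.sub continuous_snd).norm
    · rw [hfe, hfe]
      exact hg a b
  have hval : ∀ k : ℕ, 0 < k → k ≡ i [MOD p - 1] → f k = -xb p k := by
    intro k hk0 hk
    let b : Dom p i := ⟨(k : ℤ_[p]), k, hk0, hk, rfl⟩
    have h1 : num b = k := by
      have h0 : ((num b : ℕ) : ℤ_[p]) = ((k : ℕ) : ℤ_[p]) := (hnum b).2.2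
      exact Nat.cast_injective h0
    have h2 := hfe b
    rw [show g b = -xb p k from congrArg (fun m => -xb p m) h1] at h2
    exact h2
  refine ⟨f, hfc.continuous, fun k hk0 hk => hval k hk0 hk, hLip, fun x => ?_⟩
  obtain ⟨k, h1, h2, -⟩ := exists_close (p := p) i x 0
  have h3 : ‖f k‖ ≤ 1 := by
    rw [hval k h1 h2, norm_neg]
    have hkd : ¬ (p - 1) ∣ k := fun h => hd ((h2.dvd_iff dvd_rfl).mp h)
    have hp5 := five_le hi hd
    refine norm_xb_le ?_ h1 hkd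
    have h4 : k ≡ i [MOD 2] := h2.of_dvd (by
      obtain ⟨t, ht⟩ := hp.out.odd_of_ne_two (by omega)
      exact ⟨t, by omega⟩)
    rw [Nat.even_iff] at hi ⊢
    have h5 : k % 2 = i % 2 := h4
    omega
  have h4 : ‖f x - f k‖ ≤ 1 := (hLip x k).trans
    (mul_le_one₀ hinv (norm_nonneg _) (PadicInt.norm_le_one _))
  have h5 := IsUltrametricDist.norm_add_le_max (f x - f k) (f k)
  rw [sub_add_cancel] at h5
  exact h5.trans (max_le h4 h3)

/-- **The `p`-adic zeta function of Kubota and Leopoldt**, the branch of an even `i`,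
`p - 1 ∤ i`: there is exactly one continuous function on `ℤ_p` with the values
`-(1 - p ^ (k - 1)) B_k / k` at the positive integers `k ≡ i mod p - 1`. -/
theorem existsUnique_padicZeta {i : ℕ} (hi : Even i) (hd : ¬ (p - 1) ∣ i) :
    ∃! f : ℤ_[p] → ℚ_[p], Continuous f ∧ ∀ k : ℕ, 0 < k → k ≡ i [MOD p - 1] →
      f k = -((1 - (p : ℚ_[p]) ^ (k - 1)) * ((bernoulli k : ℚ) : ℚ_[p]) / k) := by
  obtain ⟨f, hf1, hf2, -, -⟩ := exists_padicZeta hi hd
  refine ⟨f, ⟨hf1, hf2⟩, ?_⟩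
  rintro g ⟨hg1, hg2⟩
  refine DenseRange.equalizer (denseRange_dom (p := p) i) hg1 hf1 (funext fun b => ?_)
  obtain ⟨x, k, hk0, hk, rfl⟩ := b
  exact (hg2 k hk0 hk).trans (hf2 k hk0 hk).symm

end Fermat.Agent.Cor.Kum
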