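import Mathlib

/-!
# Powers in unramified extensions

`exists_pow_eq`: if `M / K` is unramified at all (finite) primes, `b ∈ 𝓞 K`, and `b` is an `n`-th
power in `𝓞 M`, then `(b)` is the `n`-th power of an ideal of `𝓞 K`.
-/

set_option autoImplicit false

noncomputable section

namespace Fermat.Agent.Cor.Kum

open NumberField Ideal UniqueFactorizationMonoid

theorem exists_pow_eq {K M : Type*} [Field K] [NumberField K] [Field M] [NumberField M]
    [Algebra K M]
    (hunr : ∀ P : Ideal (𝓞 M), P.IsPrime → P ≠ ⊥ → P.ramificationIdx (𝓞 K) = 1)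
    {n : ℕ} {b : 𝓞 K} (hb : b ≠ 0) {β : 𝓞 M}
    (h : β ^ n = algebraMap (𝓞 K) (𝓞 M) b) : ∃ I : Ideal (𝓞 K), I ^ n = span {b} := by
  classical
  have hbI : span {b} ≠ (⊥ : Ideal (𝓞 K)) := by simpa using hb
  have key : ∀ v ∈ normalizedFactors (span {b}), n ∣ (normalizedFactors (span {b})).count v := by
    intro v hv
    have hvp : Prime v := prime_of_normalized_factor v hv
    have hv0 : v ≠ ⊥ := hvp.ne_zero
    have hvP : v.IsPrime := isPrime_of_prime hvp
    have hvm : v.IsMaximal := hvP.isMaximal hv0
    obtain ⟨⟨w, hwP, hwo⟩⟩ := v.nonempty_primesOver (S := 𝓞 M)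
    have hw0 : w ≠ ⊥ := by
      rintro rfl
      apply hv0
      rw [hwo.over, under_def, comap_bot_of_injective _
        (FaithfulSMul.algebraMap_injective (𝓞 K) (𝓞 M))]
    have h1 := IsDedekindDomain.emultiplicity_map_eq_ramificationIdx'_mul (I := span {b}) hbI hvp.irreducible
      (prime_of_isPrime hw0 hwP).irreducible hw0
    rw [ramificationIdx'_eq_ramificationIdx v w hv0, hunr w hwP hw0, Nat.cast_one, one_mul,
      Ideal.map_span, Set.image_singleton, ← h, ← span_singleton_pow,
      emultiplicity_pow (prime_of_isPrime hw0 hwP)] at h1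
    rw [emultiplicity_eq_count_normalizedFactors hvp.irreducible hbI, normalize_eq] at h1
    by_cases hfin : FiniteMultiplicity w (span {β})
    · rw [hfin.emultiplicity_eq_multiplicity] at h1
      exact ⟨_, (by exact_mod_cast h1.symm)⟩
    · rw [emultiplicity_eq_top.mpr hfin] at h1
      rcases Nat.eq_zero_or_pos n with rfl | hn
      · rw [Nat.cast_zero, zero_mul] at h1
        exact ⟨0, by exact_mod_cast h1.symm⟩
      · rw [ENat.mul_top (by exact_mod_cast hn.ne')] at h1
        exact absurd h1.symm (ENat.natCast_ne_top _)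
  obtain ⟨u, hu⟩ := Multiset.exists_smul_of_dvd_count _ key
  refine ⟨u.prod, ?_⟩
  rw [← Multiset.prod_nsmul, ← hu, Ideal.prod_normalizedFactors_eq_self hbI]

/-- Roots of ideals are unique. -/
theorem eq_of_pow_eq {R : Type*} [CommRing R] [IsDedekindDomain R] {I J : Ideal R} {n : ℕ}
    (hn : n ≠ 0) (h : I ^ n = J ^ n) : I = J := by
  classical
  by_cases hI : I = ⊥
  · subst hI
    rw [← Ideal.zero_eq_bot, zero_pow hn] at h
    rw [← Ideal.zero_eq_bot]
    exact ((pow_eq_zero_iff hn).mp h.symm).symm
  · have hJ : J ≠ ⊥ := by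
      rintro rfl
      rw [← Ideal.zero_eq_bot, zero_pow hn] at h
      exact hI ((pow_eq_zero_iff hn).mp h)
    have h1 := congrArg normalizedFactors h
    rw [normalizedFactors_pow, normalizedFactors_pow] at h1
    have h2 : normalizedFactors I = normalizedFactors J := by
      ext v
      have h3 := congrArg (Multiset.count v) h1
      rw [Multiset.count_nsmul, Multiset.count_nsmul] at h3
      exact Nat.eq_of_mul_eq_mul_left (Nat.pos_of_ne_zero hn) h3
    rw [← Ideal.prod_normalizedFactors_eq_self hI, h2, Ideal.prod_normalizedFactors_eq_self hJ]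

end Fermat.Agent.Cor.Kum
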