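import Fermat.Agent.Corollaries.Kum.Pow

/-!
# `ℚ(ζ_{p²})` is ramified over `ℚ(ζ_p)`

`not_primitive`: an extension `M` of `K = ℚ(ζ_p)` which is unramified at the primes above `p`
contains no primitive `p²`-th root of unity.
-/

set_option autoImplicit false

noncomputable section

namespace Fermat.Agent.Cor.Kum

open NumberField Ideal IsCyclotomicExtension

theorem not_primitive (p : ℕ) [hp : Fact p.Prime] {K M : Type*} [Field K] [NumberField K]
    [hK : IsCyclotomicExtension {p} ℚ K] [Field M] [NumberField M] [Algebra K M]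
    (hunr : ∀ P : Ideal (𝓞 M), P.IsPrime → P ≠ ⊥ → P.ramificationIdx (𝓞 K) = 1)
    {θ : M} (hθ : IsPrimitiveRoot θ (p ^ 2)) : False := by
  have hE := hθ.intermediateField_adjoin_isCyclotomicExtension ℚ
  set E := IntermediateField.adjoin ℚ {θ} with hEd
  have hp0 : (span {(p : ℤ)}) ≠ ⊥ := by simpa using hp.out.ne_zero
  obtain ⟨⟨P, hP, hPo⟩⟩ := (span {(p : ℤ)}).nonempty_primesOver (S := 𝓞 M)
  have hPb : P ≠ ⊥ := by
    rintro rfl
    apply hp0
    rw [hPo.over, under_def, comap_bot_of_injective _ (FaithfulSMul.algebraMap_injective ℤ (𝓞 M))]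
  -- over `K`
  set Q := P.under (𝓞 K) with hQ
  have hQP : P.LiesOver Q := ⟨rfl⟩
  have hQp : Q.LiesOver (span {(p : ℤ)}) := LiesOver.tower_bot P Q _
  have h1 : P.ramificationIdx ℤ = Q.ramificationIdx ℤ * P.ramificationIdx (𝓞 K) :=
    ramificationIdx_tower Q P
  have h2 : Q.ramificationIdx ℤ = p - 1 := Rat.ramificationIdx_eq_of_prime p K Q
  -- over `E`
  set R := P.under (𝓞 E) with hR
  have hRP : P.LiesOver R := ⟨rfl⟩
  have hRp : R.LiesOver (span {(p : ℤ)}) := LiesOver.tower_bot P R _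
  have h3 : P.ramificationIdx ℤ = R.ramificationIdx ℤ * P.ramificationIdx (𝓞 E) :=
    ramificationIdx_tower R P
  have h4 : R.ramificationIdx ℤ = p * (p - 1) := by
    have : IsCyclotomicExtension {p ^ (1 + 1)} ℚ E := hE
    rw [Rat.ramificationIdx_eq_of_prime_pow p 1 E R, pow_one]
  rw [h1, h2, hunr P hP hPb, mul_one, h4, mul_assoc] at h3
  have h5 : p - 1 < p := by have := hp.out.pos; omega
  have h6 : 0 < p - 1 := by have := hp.out.two_le; omega
  have h7 : p ∣ p - 1 := ⟨_, h3⟩
  exact absurd (Nat.le_of_dvd h6 h7) (not_le.mpr h5)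

end Fermat.Agent.Cor.Kum
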