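import Fermat.Agent.Corollaries.Kum.Up
import Fermat.Agent.Corollaries.Kum.Table
import Fermat.Agent.Corollaries.Ambi.Tower

/-!
# Regular primes and the fields `ℚ(ζ_{p^n})`

For an odd prime `p` and every `n`: **`p` divides the class number of `ℚ(ζ_{p^{n+1}})` iff it
divides the class number of `ℚ(ζ_p)`, iff `p` divides the numerator of one of the Bernoulli numbers
`B_2, B_4, …, B_{p-3}`** (Kummer for `n = 0`; Iwasawa).
-/

set_option autoImplicit false

universe u v

namespace Fermat.Agent.Cor.Kum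

open NumberField IsDedekindDomain Ideal

variable {p : ℕ} [hp : Fact p.Prime]

/-- `ℚ(ζ_{p^{m+1}}) / ℚ(ζ_{p^m})` is ramified. -/
theorem exists_ramified {m : ℕ} (hm : m ≠ 0) {K L : Type*} [Field K] [NumberField K]
    [Field L] [NumberField L] [Algebra K L] [hK : IsCyclotomicExtension {p ^ m} ℚ K]
    [hL : IsCyclotomicExtension {p ^ (m + 1)} ℚ L] :
    ∃ w : HeightOneSpectrum (𝓞 L), (w.under (𝓞 K)).asIdeal.ramificationIdx' w.asIdeal ≠ 1 := by
  obtain ⟨m, rfl⟩ := Nat.exists_eq_succ_of_ne_zero hm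
  rw [Nat.succ_eq_add_one] at hK hL
  have hp0 : (span {(p : ℤ)}) ≠ ⊥ := by simpa using hp.out.ne_zero
  obtain ⟨⟨P, hP, hPo⟩⟩ := (span {(p : ℤ)}).nonempty_primesOver (S := 𝓞 L)
  have hPb : P ≠ ⊥ := by
    rintro rfl
    apply hp0
    rw [hPo.over, under_def, comap_bot_of_injective _ (FaithfulSMul.algebraMap_injective ℤ (𝓞 L))]
  refine ⟨⟨P, hP, hPb⟩, ?_⟩
  set w : HeightOneSpectrum (𝓞 L) := ⟨P, hP, hPb⟩ with hw
  set Q := P.under (𝓞 K) with hQ
  have hQw : (w.under (𝓞 K)).asIdeal = Q := rfl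
  have hQb : Q ≠ ⊥ := (w.under (𝓞 K)).ne_bot
  have hQP : P.LiesOver Q := ⟨rfl⟩
  have hQp : Q.LiesOver (span {(p : ℤ)}) := LiesOver.tower_bot P Q _
  have h1 : P.ramificationIdx ℤ = Q.ramificationIdx ℤ * P.ramificationIdx (𝓞 K) :=
    ramificationIdx_tower Q P
  have h2 : Q.ramificationIdx ℤ = p ^ m * (p - 1) :=
    IsCyclotomicExtension.Rat.ramificationIdx_eq_of_prime_pow p m K Q
  have h3 : P.ramificationIdx ℤ = p ^ (m + 1) * (p - 1) :=
    IsCyclotomicExtension.Rat.ramificationIdx_eq_of_prime_pow p (m + 1) L P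
  rw [hQw, ramificationIdx'_eq_ramificationIdx Q P hQb]
  intro h
  rw [h2, h3, h, mul_one] at h1
  have h6 : 0 < p - 1 := by have := hp.out.two_le; omega
  have h7 := Nat.eq_of_mul_eq_mul_right h6 h1
  exact absurd (Nat.pow_right_injective hp.out.two_le h7) (by omega)

/-- `p ∣ h(ℚ(ζ_p))` implies `p ∣ h(ℚ(ζ_{p^{n+1}}))`. -/
theorem dvd_classNumber_tower (hp2 : p ≠ 2) {K : Type} [Field K] [NumberField K]
    [IsCyclotomicExtension {p} ℚ K] (h : p ∣ classNumber K) (n : ℕ) (L : Type) [Field L]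
    [NumberField L] [IsCyclotomicExtension {p ^ (n + 1)} ℚ L] : p ∣ classNumber L := by
  induction n generalizing L with
  | zero =>
    have h1 : IsCyclotomicExtension {p} ℚ L := by
      rwa [zero_add, pow_one] at *
    rw [← classNumber_congr (IsCyclotomicExtension.algEquiv {p} ℚ K L).toRingEquiv]
    exact h
  | succ m ih =>
    have : NeZero (p ^ (m + 1)) := ⟨pow_ne_zero _ hp.out.ne_zero⟩
    have : NeZero (p ^ (m + 1 + 1)) := ⟨pow_ne_zero _ hp.out.ne_zero⟩
    have hζ := IsCyclotomicExtension.zeta_spec (p ^ (m + 1 + 1)) ℚ L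
    have hζ' := hζ.pow (NeZero.pos _) (pow_succ' p (m + 1))
    let F := IntermediateField.adjoin ℚ {IsCyclotomicExtension.zeta (p ^ (m + 1 + 1)) ℚ L ^ p}
    have hF : IsCyclotomicExtension {p ^ (m + 1)} ℚ F :=
      hζ'.intermediateField_adjoin_isCyclotomicExtension ℚ
    obtain ⟨hg, hd, -, -⟩ := Ambi.ram_cyclotomic (p := p) (n := m + 1) (K := F) (L := L)
      (Nat.succ_ne_zero m)
    exact dvd_classNumber_up hp2 hd (exists_ramified (p := p) (m := m + 1) (Nat.succ_ne_zero m))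
      (ih F)

/-- **`p` divides the class number of `ℚ(ζ_{p^{n+1}})` iff it divides the numerator of one of
`B_2, B_4, …, B_{p-3}`**, every `n`, `p` an odd prime. -/
theorem dvd_classNumber_prime_pow_iff (hp2 : p ≠ 2) (n : ℕ) (L : Type u) [Field L] [NumberField L]
    [IsCyclotomicExtension {p ^ (n + 1)} ℚ L] :
    p ∣ classNumber L ↔
      ∃ k, Even k ∧ 2 ≤ k ∧ k ≤ p - 3 ∧ (p : ℤ) ∣ (bernoulli k).num := by
  have : NeZero p := ⟨hp.out.ne_zero⟩
  have : NeZero (p ^ (n + 1)) := ⟨pow_ne_zero _ hp.out.ne_zero⟩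
  have h1 : @IsCyclotomicExtension {p} ℚ (CyclotomicField p ℚ) _ _ DivisionRing.toRatAlgebra := by
    rw [Subsingleton.elim (DivisionRing.toRatAlgebra : Algebra ℚ (CyclotomicField p ℚ))
      (CyclotomicField.algebra p ℚ)]
    exact CyclotomicField.isCyclotomicExtension p ℚ
  have h2 : @IsCyclotomicExtension {p ^ (n + 1)} ℚ (CyclotomicField (p ^ (n + 1)) ℚ) _ _
      DivisionRing.toRatAlgebra := by
    rw [Subsingleton.elim (DivisionRing.toRatAlgebra : Algebra ℚ
      (CyclotomicField (p ^ (n + 1)) ℚ)) (CyclotomicField.algebra (p ^ (n + 1)) ℚ)]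
    exact CyclotomicField.isCyclotomicExtension (p ^ (n + 1)) ℚ
  have h3 := kummer_criterion_regular p hp2 (CyclotomicField p ℚ)
  rw [classNumber_congr (IsCyclotomicExtension.algEquiv {p ^ (n + 1)} ℚ L
    (CyclotomicField (p ^ (n + 1)) ℚ)).toRingEquiv]
  constructor
  · intro h
    by_contra hcon
    push Not at hcon
    have h4 := h3.mpr hcon
    have h5 : @IsCyclotomicExtension {p ^ 1} ℚ (CyclotomicField p ℚ) _ _
        DivisionRing.toRatAlgebra := by
      rw [pow_one]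
      exact h1
    have h6 : 2 < p ^ 1 := by
      have := hp.out.two_le
      rw [pow_one]
      omega
    exact Ambi.not_dvd_classNumber_cyclotomic (p := p) (n := 1) h6 h4 (Nat.le_add_left 1 n)
      (CyclotomicField (p ^ (n + 1)) ℚ) h
  · rintro ⟨k, hk1, hk2, hk3, hk4⟩
    have h4 : p ∣ classNumber (CyclotomicField p ℚ) := by
      by_contra hcon
      exact h3.mp hcon k hk1 hk2 hk3 hk4
    exact dvd_classNumber_tower hp2 h4 n (CyclotomicField (p ^ (n + 1)) ℚ)

/-- `p` divides the class number of `ℚ(ζ_{p^{n+1}})` iff it divides the class number of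
`ℚ(ζ_p)`. -/
theorem dvd_classNumber_prime_pow_iff_dvd (hp2 : p ≠ 2) (n : ℕ) (K : Type u) [Field K]
    [NumberField K] [IsCyclotomicExtension {p} ℚ K] (L : Type v) [Field L] [NumberField L]
    [IsCyclotomicExtension {p ^ (n + 1)} ℚ L] : p ∣ classNumber L ↔ p ∣ classNumber K := by
  rw [dvd_classNumber_prime_pow_iff hp2 n L, ← not_iff_not, kummer_criterion_regular p hp2 K]
  push Not
  rfl

end Fermat.Agent.Cor.Kum
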