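import Fermat.Agent.Corollaries.CFTP.ClassField
import Fermat.Agent.Corollaries.Ambi.Final

/-!
# Class numbers go up in ramified extensions of prime degree

`dvd_classNumber_up`: `L / K` a Galois extension of number fields of degree `p`, an odd prime, which
is ramified at some finite place: if `p` divides the class number of `K` then it divides the class
number of `L`.
-/

set_option autoImplicit false

namespace Fermat.Agent.Cor.Kum

open IsDedekindDomain NumberField
open Fermat.Agent.Frob Fermat.Agent.LT Fermat.Agent.LT.Tower.Fr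
open Fermat.Agent.Cor.Diff (GK FrobAt)
open Fermat.Agent.LT.NV (edeg fdeg)
open Fermat.Agent.Cor.CFTP

variable {p : ℕ} [hp : Fact p.Prime]

/-- The action of `G_K` on a Galois extension `L` of `K`. -/
theorem exists_restrict {K L : Type*} [Field K] [Field L] [Algebra K L] [Normal K L]
    (j : L →+* AlgebraicClosure ℚ) :
    ∃ r : GK (j.comp (algebraMap K L)) →* (L ≃ₐ[K] L), ∀ g x, j (r g x) = g.1 (j x) := by
  let i : K →+* AlgebraicClosure ℚ := j.comp (algebraMap K L)
  let _ : Algebra K (AlgebraicClosure ℚ) := Field'.algK i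
  let _ : Algebra L (AlgebraicClosure ℚ) := j.toAlgebra
  have : IsScalarTower K L (AlgebraicClosure ℚ) := IsScalarTower.of_algebraMap_eq' rfl
  refine ⟨(AlgEquiv.restrictNormalHom L).comp (Field'.ofGK i), fun g x => ?_⟩
  exact AlgEquiv.restrictNormal_commutes (Field'.ofGK i g) L x

/-- An unramified character of `G_K` of order `p` is not trivial on `G_L`, `L / K` Galois of degree
`p` and ramified. -/
theorem exists_ne_one {K L : Type*} [Field K] [NumberField K] [Field L] [NumberField L]
    [Algebra K L] [IsGalois K L] (hd : Module.finrank K L = p)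
    {w : HeightOneSpectrum (𝓞 L)} (hw : edeg K w ≠ 1) (j : L →+* AlgebraicClosure ℚ)
    {ψ : GK (j.comp (algebraMap K L)) →* C p} (hψ : ∃ g, ψ g ≠ 1)
    (hunr : ∀ v A, Over (j.comp (algebraMap K L)) A v →
      ∀ g : GK (j.comp (algebraMap K L)), g.1 ∈ A.inertiaSubgroupIn ℚ → ψ g = 1) :
    ∃ g : GK j, ψ.comp (CFTP.res K j) g ≠ 1 := by
  by_contra hcon
  push Not at hcon
  obtain ⟨r, hr⟩ := exists_restrict (K := K) j
  have hker : ∀ g, r g = 1 → ψ g = 1 := by
    intro g hg
    have h1 : g.1 ∈ GK j := fun x => by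
      have h2 := hr g x
      rw [hg] at h2
      exact h2.symm
    exact hcon ⟨g.1, h1⟩
  obtain ⟨g₀, hg₀⟩ := hψ
  obtain ⟨q, A, hq, hAq, hA⟩ := exists_over j w
  refine hw (edeg_eq_one_of_inertia hA fun τ hτ hτK => ?_)
  by_contra hx
  push Not at hx
  obtain ⟨x, hx⟩ := hx
  set t : GK (j.comp (algebraMap K L)) := ⟨τ, hτK⟩ with ht
  have ht1 : ψ t = 1 := hunr _ A (hA.under (F := K)) t hτ
  have hrt : r t ≠ 1 := by
    intro h
    have h2 := hr t x
    rw [h] at h2
    exact hx h2.symm
  have hcard : Nat.card (L ≃ₐ[K] L) = p := by rw [IsGalois.card_aut_eq_finrank, hd]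
  have hmem : r g₀ ∈ Subgroup.zpowers (r t) := mem_zpowers_of_prime_card hcard hrt
  obtain ⟨k, hk⟩ := Subgroup.mem_zpowers_iff.mp hmem
  have h3 := hker (g₀ * (t ^ k)⁻¹) (by rw [map_mul, map_inv, map_zpow, hk, mul_inv_cancel])
  rw [map_mul, map_inv, map_zpow, ht1, one_zpow, inv_one, mul_one] at h3
  exact hg₀ h3

/-- **`p ∣ h(K)` implies `p ∣ h(L)`** for a ramified Galois extension `L / K` of odd prime degree
`p`. -/
theorem dvd_classNumber_up {K L : Type} [Field K] [NumberField K] [Field L] [NumberField L]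
    [Algebra K L] [IsGalois K L] (hp2 : p ≠ 2) (hd : Module.finrank K L = p)
    (hram : ∃ w : HeightOneSpectrum (𝓞 L),
      (w.under (𝓞 K)).asIdeal.ramificationIdx' w.asIdeal ≠ 1)
    (h : p ∣ classNumber K) : p ∣ classNumber L := by
  obtain ⟨w, hw⟩ := hram
  have j₀ : L →ₐ[ℚ] AlgebraicClosure ℚ := IsAlgClosed.lift
  let j : L →+* AlgebraicClosure ℚ := (j₀ : L →+* AlgebraicClosure ℚ)
  obtain ⟨χ, hχ⟩ := exists_char_ne_one (p := p) (A := ClassGroup (𝓞 K)) (by
    rw [Nat.card_eq_fintype_card]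
    exact h)
  obtain ⟨ψ, lψ, -, hunr, hne⟩ := exists_unramified_char (Or.inl hp2)
    (j.comp (algebraMap K L)) χ
  have h1 := exists_ne_one hd hw j (hne hχ) hunr
  obtain ⟨M, fM, nM, aM, gM, j', -, hM, -, hU⟩ := exists_field lψ.res h1
  have h2 := hU fun v A hA g hg => hunr _ A (hA.under (F := K)) (CFTP.res K j g) hg
  have hodd : Odd (Module.finrank L M) := by
    rw [hM]
    exact hp.out.odd_of_ne_two hp2
  have : IsUnramifiedAtInfinitePlaces L M := IsUnramifiedAtInfinitePlaces_of_odd_finrank hodd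
  exact Ambi.dvd_classNumber_of_unramified hp.out hM h2

end Fermat.Agent.Cor.Kum
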